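import Fermat.Agent.S25lib.Mod.PullGen

set_option autoImplicit false

noncomputable section

universe u

open AlgebraicGeometry CategoryTheory TopologicalSpace

namespace Fermat.Agent.S25lib.AffBC

open Fermat.Agent.S25lib

variable {X Y : Scheme.{u}}

/-- restriction between equal opens is bijective -/
theorem res_bijective (M : X.Modules) {U V : X.Opens} (h : V ≤ U) (h' : U ≤ V) :
    Function.Bijective (Mod.res M h) := by
  refine Function.bijective_iff_has_inverse.mpr ⟨Mod.res M h', fun s => ?_, fun s => ?_⟩
  · rw [Mod.res_res, Mod.res_self]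
  · rw [Mod.res_res, Mod.res_self]

/-- `M.presheaf.map` of an inequality is `Mod.res` -/
theorem presheaf_map_homOfLE (M : X.Modules) {U V : X.Opens} (h : V ≤ U) (s : Γ(M, U)) :
    M.presheaf.map (homOfLE h).op s = Mod.res M h s := rfl

/-- **sections of the pullback along an open immersion**: `pullSec j M V` is bijective for
`V` inside the range of `j` -/
theorem pullSec_bijective_of_isOpenImmersion (j : Y ⟶ X) [IsOpenImmersion j] (M : X.Modules)
    (V : X.Opens) (hV : V ≤ j.opensRange) : Function.Bijective (Mod.pullSec j M V) := by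
  have hle : V ≤ j ''ᵁ (j ⁻¹ᵁ V) := by
    rw [Scheme.Hom.image_preimage_eq_opensRange_inf]
    exact le_inf hV le_rfl
  have h1 : Function.Bijective (Mod.res M (j.image_preimage_le V)) :=
    res_bijective M _ hle
  have h2 : Function.Bijective
      (((Scheme.Modules.restrictFunctorIsoPullback j).hom.app M).app (j ⁻¹ᵁ V)) :=
    ConcreteCategory.bijective_of_isIso _
  have h3 : Mod.pullSec j M V = fun s =>
      ((Scheme.Modules.restrictFunctorIsoPullback j).hom.app M).app (j ⁻¹ᵁ V)
        ((M.restrictAppIso j (j ⁻¹ᵁ V)).inv (Mod.res M (j.image_preimage_le V) s)) := by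
    funext s
    exact (Mod.restrictFunctorIsoPullback_hom_res j M V s).symm
  rw [h3]
  exact h2.comp h1

end Fermat.Agent.S25lib.AffBC
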