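/-
S25lib / AffBC / QCoh  (helper4)  --  Project L (S25), affine base change, brick (AB1a)

An invertible `Scheme.Modules` (Prelude's `Scheme.Modules.IsInvertible`: locally isomorphic to the
unit) is quasi-coherent; hence on an affine scheme `Spec R` it is `tilde` of its global sections.
-/
import Mathlib
import Fermat.Prelude.Def_AlgebraicGeometry_RelativePicardFunctor

set_option autoImplicit false

noncomputable section

universe u

open AlgebraicGeometry CategoryTheory TopologicalSpace Limits

namespace Fermat.Agent.S25lib.AffBC

variable {X : Scheme.{u}}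

/-- the unit module over a slice of a scheme is quasi-coherent -/
theorem isQuasicoherent_unit_over (U : X.Opens) :
    (SheafOfModules.unit.{u} (X.ringCatSheaf.over U)).IsQuasicoherent := by
  have h : (SheafOfModules.free.{u} (R := (X.ringCatSheaf.over U)) PUnit.{u+1}).IsQuasicoherent :=
    inferInstance
  exact (SheafOfModules.isQuasicoherent.{u} (X.ringCatSheaf.over U)).prop_of_iso
    (coproductUniqueIso _) h

/-- a module whose restriction to `U` is trivial is trivial over the slice `Over U` -/
def overIsoUnit (M : X.Modules) (U : X.Opens)
    (e : (Scheme.Modules.pullback U.ι).obj M ≅ SheafOfModules.unit U.toScheme.ringCatSheaf) :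
    SheafOfModules.over M U ≅ SheafOfModules.unit.{u} (X.ringCatSheaf.over U) :=
  ((Scheme.Modules.overEquiv U).unitIso.app _) ≪≫
    (Scheme.Modules.overEquiv U).inverse.mapIso
      ((Scheme.Modules.overFunctorEquiv U).app M ≪≫
        (Scheme.Modules.restrictFunctorIsoPullback U.ι).app M ≪≫ e) ≪≫
    TopologicalSpace.Opens.sheafOfModulesEquivOverInverseUnit U X.ringCatSheaf

/-- **an invertible module is quasi-coherent** -/
theorem isQuasicoherent_of_isInvertible (M : X.Modules)
    (hM : Scheme.Modules.IsInvertible M) : SheafOfModules.IsQuasicoherent.{u} M := by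
  choose U hxU hU using hM.exists_trivialization
  have : ∀ x : X, (SheafOfModules.over M (U x)).IsQuasicoherent := fun x =>
    (SheafOfModules.isQuasicoherent.{u} (X.ringCatSheaf.over (U x))).prop_of_iso
      (overIsoUnit M (U x) (hU x).some).symm (isQuasicoherent_unit_over (U x))
  refine SheafOfModules.IsQuasicoherent.of_coversTop M U ?_
  rw [Opens.coversTop_iff]
  rw [IsOpenCover, eq_top_iff]
  intro x _
  exact Opens.mem_iSup.mpr ⟨x, hxU x⟩

/-- **an invertible module on an affine scheme is `tilde` of its global sections** -/
theorem isIso_fromTildeΓ_of_isInvertible {R : CommRingCat.{u}} (M : (Spec R).Modules)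
    (hM : Scheme.Modules.IsInvertible M) : IsIso M.fromTildeΓ := by
  have := isQuasicoherent_of_isInvertible M hM
  infer_instance

/-- restriction to a basic open is localisation, for an invertible module on an affine scheme -/
theorem isLocalizedModule_of_isInvertible {R : CommRingCat.{u}} (M : (Spec R).Modules)
    (hM : Scheme.Modules.IsInvertible M) (f : R) :
    IsLocalizedModule (.powers f)
      ((modulesSpecToSheaf.obj M).obj.map (PrimeSpectrum.basicOpen f).leTop.op).hom :=
  (isIso_fromTildeΓ_iff_isLocalizing M).mp (isIso_fromTildeΓ_of_isInvertible M hM) f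

end Fermat.Agent.S25lib.AffBC
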