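/-
S25lib / AffBC / BaseChange  (helper4)  --  Project L (S25), affine base change, brick (AB2)

**Affine base change on `Spec`.**  `φ : R ⟶ S`, `M` a module on `Spec R` which is `tilde` of its global
sections (`IsIso M.fromTildeΓ`, e.g. `M` invertible, `AffBC/QCoh`).  Then
`bcIso φ M hM : S ⊗[R] Γ(M) ≅ Γ((Spec φ)^* M)` as `S`-modules, and it maps `1 ⊗ m` to the pulled back
section `pullSec (Spec φ) M ⊤ m` (`bcIso_hom_one_tmul`).  No flatness, no finiteness.
-/
import Fermat.Agent.S25lib.AffBC.TildePull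

set_option autoImplicit false

noncomputable section

universe u

open AlgebraicGeometry CategoryTheory TopologicalSpace Limits

namespace Fermat.Agent.S25lib.AffBC

variable {R S : CommRingCat.{u}} (φ : R ⟶ S)

/-- global sections of a module on `Spec R`, as an `R`-module -/
abbrev ΓM (M : (Spec R).Modules) : ModuleCat.{u} R := moduleSpecΓFunctor.obj M

/-- an element of `Γ(M, ⊤)` as an element of the `R`-module of global sections -/
def toΓM (M : (Spec R).Modules) (m : Γ(M, ⊤)) : ΓM M := m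

/-- and back -/
def ofΓM (M : (Spec R).Modules) (m : ΓM M) : Γ(M, ⊤) := m

theorem fromTildeΓ_app_top_topSec (M : (Spec R).Modules) (m : ΓM M) :
    M.fromTildeΓ.app ⊤ (topSec (ΓM M) m) = ofΓM M m := by
  have h := Scheme.Modules.toOpen_fromTildeΓ_app M ⊤
  have h2 := congrArg (fun g => g.hom m) h
  refine Eq.trans h2 ?_
  show (M.presheaf.map (𝟙 _)) m = m
  rw [M.presheaf.map_id]
  rfl

/-- the component of `tildePullbackIso`, with its honest type -/
def tildePullbackIsoApp (W : ModuleCat.{u} R) :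
    (Scheme.Modules.pullback (Spec.map φ)).obj (tilde W) ≅
      tilde ((ModuleCat.extendScalars φ.hom).obj W) :=
  (tildePullbackIso φ).app W

open TensorProduct ChangeOfRings in
theorem tildePullbackIsoApp_hom_pullSec (W : ModuleCat.{u} R) (w : W) :
    (tildePullbackIsoApp φ W).hom.app ⊤
      (Mod.pullSec (Spec.map φ) (tilde W) ⊤ (topSec W w)) =
    topSec ((ModuleCat.extendScalars φ.hom).obj W) ((1 : S) ⊗ₜ[R, φ.hom] w) :=
  tildePullbackIso_hom_pullSec φ W w

variable (M : (Spec R).Modules) (hM : IsIso M.fromTildeΓ)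

/-- `M ≅ tilde Γ(M)` -/
def tildeIso : tilde (ΓM M) ≅ M := @asIso _ _ _ _ M.fromTildeΓ hM

theorem tildeIso_hom_app_top_topSec (m : ΓM M) :
    (tildeIso M hM).hom.app ⊤ (topSec (ΓM M) m) = ofΓM M m :=
  fromTildeΓ_app_top_topSec M m

/-- the pullback of `M` along `Spec φ` is `tilde` of the extension of scalars of `Γ(M)` -/
def pullIso : (Scheme.Modules.pullback (Spec.map φ)).obj M ≅
    tilde ((ModuleCat.extendScalars φ.hom).obj (ΓM M)) :=
  (Scheme.Modules.pullback (Spec.map φ)).mapIso (tildeIso M hM).symm ≪≫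
    tildePullbackIsoApp φ (ΓM M)

open TensorProduct ChangeOfRings in
theorem pullIso_hom_pullSec (m : ΓM M) :
    (pullIso φ M hM).hom.app ⊤ (Mod.pullSec (Spec.map φ) M ⊤ (ofΓM M m)) =
      topSec ((ModuleCat.extendScalars φ.hom).obj (ΓM M)) ((1 : S) ⊗ₜ[R, φ.hom] m) := by
  rw [← tildePullbackIsoApp_hom_pullSec φ (ΓM M) m, ← tildeIso_hom_app_top_topSec M hM m,
    Mod.pullSec_map (Spec.map φ) (tildeIso M hM).hom ⊤]
  have key := Mod.iso_inv_hom_app ((Scheme.Modules.pullback (Spec.map φ)).mapIso (tildeIso M hM))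
    ⊤ (Mod.pullSec (Spec.map φ) (tilde (ΓM M)) ⊤ (topSec (ΓM M) m))
  exact congrArg ((tildePullbackIsoApp φ (ΓM M)).hom.app ⊤) key


/-- **affine base change**: `S ⊗[R] Γ(M) ≅ Γ((Spec φ)^* M)` as `S`-modules -/
def bcIso : (ModuleCat.extendScalars φ.hom).obj (ΓM M) ≅
    ΓM ((Scheme.Modules.pullback (Spec.map φ)).obj M) :=
  tilde.isoTop _ ≪≫ (moduleSpecΓFunctor.mapIso (pullIso φ M hM)).symm

open TensorProduct ChangeOfRings in
theorem bcIso_hom_one_tmul (m : ΓM M) :
    (bcIso φ M hM).hom.hom ((1 : S) ⊗ₜ[R, φ.hom] m) =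
      toΓM _ (Mod.pullSec (Spec.map φ) M ⊤ (ofΓM M m)) := by
  have key := Mod.iso_inv_hom_app (pullIso φ M hM) ⊤ (Mod.pullSec (Spec.map φ) M ⊤ (ofΓM M m))
  rw [pullIso_hom_pullSec] at key
  exact key

end Fermat.Agent.S25lib.AffBC
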