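/-
S25lib / AffBC / SpecUP  (helper4)  --  Project L (S25), affine base change, brick (AB2')

The universal property form of affine base change on `Spec`: for `φ : R ⟶ S` and `M` on `Spec R` with
`IsIso M.fromTildeΓ`, every `φ`-semilinear map out of `Γ(M)` factors uniquely through
`pullSec : Γ(M) → Γ((Spec φ)^* M)`.
-/
import Fermat.Agent.S25lib.AffBC.BaseChange

set_option autoImplicit false

noncomputable section

universe u

open AlgebraicGeometry CategoryTheory TopologicalSpace Limits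

namespace Fermat.Agent.S25lib.AffBC

variable {R S : CommRingCat.{u}} (φ : R ⟶ S)

/-- a linear map between the carriers of two objects of `ModuleCat`, as a morphism -/
def homOfLinear {A : Type u} [Ring A] {X Y : ModuleCat.{u} A} (f : X →ₗ[A] Y) : X ⟶ Y :=
  ModuleCat.ofHom f

theorem homOfLinear_hom {A : Type u} [Ring A] {X Y : ModuleCat.{u} A} (f : X →ₗ[A] Y) :
    (homOfLinear f).hom = f := rfl

open TensorProduct ChangeOfRings in
/-- **affine base change on `Spec`, universal property**: every `φ`-semilinear map out of `Γ(M)`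
factors uniquely through the pullback of sections `Γ(M) → Γ((Spec φ)^* M)` -/
theorem spec_existsUnique_lift (M : (Spec R).Modules) (hM : IsIso M.fromTildeΓ)
    (Q : Type u) [AddCommGroup Q] [Module S Q] (q : ΓM M →+ Q)
    (hq : ∀ (r : R) (m : ΓM M), q (r • m) = φ.hom r • q m) :
    ∃! q' : ΓM ((Scheme.Modules.pullback (Spec.map φ)).obj M) →ₗ[S] Q,
      ∀ m : ΓM M, q' (toΓM _ (Mod.pullSec (Spec.map φ) M ⊤ (ofΓM M m))) = q m := by
  let QQ : ModuleCat.{u} S := ModuleCat.of S Q
  let q₀l : (ΓM M) →ₗ[R] ((ModuleCat.restrictScalars φ.hom).obj QQ) :=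
      { toFun := fun m => q m
        map_add' := fun a b => map_add q a b
        map_smul' := fun r m => hq r m }
  let q₀ : ΓM M ⟶ (ModuleCat.restrictScalars φ.hom).obj QQ := homOfLinear q₀l
  let adj := ModuleCat.extendRestrictScalarsAdj.{u} φ.hom
  let q₁ : (ModuleCat.extendScalars φ.hom).obj (ΓM M) ⟶ QQ := (adj.homEquiv _ _).symm q₀
  have hq₁ : ∀ m : ΓM M, q₁.hom ((1 : S) ⊗ₜ[R, φ.hom] m) = q m := by
    intro m
    have h := ModuleCat.extendRestrictScalarsAdj_homEquiv_apply (f := φ.hom) q₁ m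
    have h2 : (adj.homEquiv _ _) q₁ = q₀ := (adj.homEquiv _ _).apply_symm_apply q₀
    rw [h2] at h
    exact h.symm
  have hinv : ∀ m : ΓM M, (bcIso φ M hM).inv.hom
      (toΓM _ (Mod.pullSec (Spec.map φ) M ⊤ (ofΓM M m))) = (1 : S) ⊗ₜ[R, φ.hom] m := by
    intro m
    rw [← bcIso_hom_one_tmul φ M hM m]
    exact congrArg (fun g => g.hom ((1 : S) ⊗ₜ[R, φ.hom] m)) (bcIso φ M hM).hom_inv_id
  refine ⟨((bcIso φ M hM).inv ≫ q₁).hom, fun m => ?_, fun q'' hq'' => ?_⟩
  · show q₁.hom ((bcIso φ M hM).inv.hom _) = q m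
    exact (congrArg q₁.hom (hinv m)).trans (hq₁ m)
  · let q₂ : (ModuleCat.extendScalars φ.hom).obj (ΓM M) ⟶ QQ :=
      (bcIso φ M hM).hom ≫ homOfLinear (Y := QQ) q''
    have h2 : (adj.homEquiv _ _) q₂ = q₀ := by
      ext m
      have h := ModuleCat.extendRestrictScalarsAdj_homEquiv_apply (f := φ.hom) q₂ m
      refine h.trans ?_
      show q'' ((bcIso φ M hM).hom.hom ((1 : S) ⊗ₜ[R, φ.hom] m)) = q m
      rw [bcIso_hom_one_tmul]
      exact hq'' m
    have h3 : q₂ = q₁ := by
      have h := (adj.homEquiv _ _).symm_apply_apply q₂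
      rw [h2] at h
      exact h.symm
    have h4 : homOfLinear (Y := QQ) q'' = (bcIso φ M hM).inv ≫ q₁ := by
      rw [← h3]
      show _ = (bcIso φ M hM).inv ≫ (bcIso φ M hM).hom ≫ homOfLinear (Y := QQ) q''
      rw [Iso.inv_hom_id_assoc]
    exact congrArg ModuleCat.Hom.hom h4

end Fermat.Agent.S25lib.AffBC
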