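import Fermat.Agent.S25lib.Mod.PullGen

set_option autoImplicit false

noncomputable section

universe u

open AlgebraicGeometry CategoryTheory TopologicalSpace

namespace Fermat.Agent.S25lib.AffBC

open Fermat.Agent.S25lib

variable {X X' Y Y' : Scheme.{u}}

/-- the base change isomorphism of a commutative square of schemes -/
def squareIso {j : Y ⟶ X} {j' : Y' ⟶ X'} {f : X' ⟶ X} {g : Y' ⟶ Y} (sq : g ≫ j = j' ≫ f)
    (M : X.Modules) :
    (Scheme.Modules.pullback j').obj ((Scheme.Modules.pullback f).obj M) ≅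
      (Scheme.Modules.pullback g).obj ((Scheme.Modules.pullback j).obj M) :=
  (Scheme.Modules.pullbackComp j' f).app M ≪≫ (Scheme.Modules.pullbackCongr sq.symm).app M ≪≫
    ((Scheme.Modules.pullbackComp g j).app M).symm

theorem squareIso_hom_pullSec {j : Y ⟶ X} {j' : Y' ⟶ X'} {f : X' ⟶ X} {g : Y' ⟶ Y}
    (sq : g ≫ j = j' ≫ f) (M : X.Modules) (V : X.Opens) (s : Γ(M, V)) (W' : Y'.Opens)
    (h1 : W' ≤ j' ⁻¹ᵁ (f ⁻¹ᵁ V)) (h2 : W' ≤ g ⁻¹ᵁ (j ⁻¹ᵁ V)) :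
    (squareIso sq M).hom.app W'
      (Mod.res _ h1 (Mod.pullSec j' ((Scheme.Modules.pullback f).obj M) (f ⁻¹ᵁ V)
        (Mod.pullSec f M V s))) =
    Mod.res _ h2 (Mod.pullSec g ((Scheme.Modules.pullback j).obj M) (j ⁻¹ᵁ V)
        (Mod.pullSec j M V s)) := by
  -- step 1
  have e1 : ((Scheme.Modules.pullbackComp j' f).app M).hom.app ((j' ≫ f) ⁻¹ᵁ V)
      (Mod.pullSec j' ((Scheme.Modules.pullback f).obj M) (f ⁻¹ᵁ V) (Mod.pullSec f M V s)) =
      Mod.pullSec (j' ≫ f) M V s := by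
    rw [← Mod.pullbackComp_inv_pullSec j' f M V s]
    exact Mod.iso_hom_inv_app ((Scheme.Modules.pullbackComp j' f).app M) _ _
  -- step 2
  have hop : (g ≫ j) ⁻¹ᵁ V = (j' ≫ f) ⁻¹ᵁ V := by rw [sq]
  have e2 := Mod.pullbackCongr_hom_pullSec sq.symm M V s
  -- step 3
  have e3 := Mod.pullbackComp_inv_pullSec g j M V s
  have e2' : ((Scheme.Modules.pullbackCongr sq.symm).app M).hom.app ((g ≫ j) ⁻¹ᵁ V)
      (Mod.res _ (le_of_eq hop) (Mod.pullSec (j' ≫ f) M V s)) = Mod.pullSec (g ≫ j) M V s := e2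
  have e3' : ((Scheme.Modules.pullbackComp g j).app M).symm.hom.app ((g ≫ j) ⁻¹ᵁ V)
      (Mod.pullSec (g ≫ j) M V s) =
      Mod.pullSec g ((Scheme.Modules.pullback j).obj M) (j ⁻¹ᵁ V) (Mod.pullSec j M V s) := e3
  have h1' : W' ≤ (j' ≫ f) ⁻¹ᵁ V := h1
  have h2' : W' ≤ (g ≫ j) ⁻¹ᵁ V := h2
  set c₁ := (Scheme.Modules.pullbackComp j' f).app M with hc₁
  set cg := (Scheme.Modules.pullbackCongr sq.symm).app M with hcg
  set c₂ := ((Scheme.Modules.pullbackComp g j).app M).symm with hc₂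
  set x := Mod.pullSec j' ((Scheme.Modules.pullback f).obj M) (f ⁻¹ᵁ V) (Mod.pullSec f M V s)
    with hx
  have A1 : c₁.hom.app W' (Mod.res _ h1' x) = Mod.res _ h1' (Mod.pullSec (j' ≫ f) M V s) :=
    (Mod.app_res c₁.hom h1' x).trans (congrArg (Mod.res _ h1') e1)
  have A3 : Mod.res ((Scheme.Modules.pullback (j' ≫ f)).obj M) h1'
      (Mod.pullSec (j' ≫ f) M V s) =
      Mod.res _ h2' (Mod.res _ (le_of_eq hop) (Mod.pullSec (j' ≫ f) M V s)) :=
    (Mod.res_res _ _ _ _).symm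
  have A4 : cg.hom.app W' (Mod.res _ h2' (Mod.res _ (le_of_eq hop) (Mod.pullSec (j' ≫ f) M V s))) =
      Mod.res _ h2' (Mod.pullSec (g ≫ j) M V s) :=
    (Mod.app_res cg.hom h2' _).trans (congrArg (Mod.res _ h2') e2')
  have A6 : c₂.hom.app W' (Mod.res _ h2' (Mod.pullSec (g ≫ j) M V s)) =
      Mod.res _ h2' (Mod.pullSec g ((Scheme.Modules.pullback j).obj M) (j ⁻¹ᵁ V)
        (Mod.pullSec j M V s)) :=
    (Mod.app_res c₂.hom h2' _).trans (congrArg (Mod.res _ h2') e3')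
  have B1 : (squareIso sq M).hom.app W' (Mod.res _ h1 x) =
      c₂.hom.app W' (cg.hom.app W' (c₁.hom.app W' (Mod.res _ h1' x))) := rfl
  rw [B1, A1, A3, A4, A6]
  rfl

end Fermat.Agent.S25lib.AffBC
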