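/-
S25lib / AffBC / Affine  (helper4)  --  Project L (S25), affine base change, brick (AB3)

**Affine base change for invertible modules on arbitrary schemes.**  `f : X' ⟶ X`, `M` invertible on `X`,
`B ⊆ X`, `B' ⊆ f⁻¹ B` affine opens.  `pullRes f M hle : Γ(M, B) → Γ(f^*M, B')` (pull back, then restrict)
is `f^♯`-semilinear and is a base change along `f^♯ : Γ(X, B) → Γ(X', B')`:
* `affine_existsUnique_lift`: the universal property, free of instances;
* `affine_isBaseChange`: `IsBaseChange Γ(X', B') ρ` in every instance context where `algebraMap` is `f^♯`;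
* `toSpecSecEquiv`: `Γ(M, B) ≃ₗ Γ(Spec Γ(X,B), M|Spec)`.
No flatness, no finiteness, no separatedness.
-/
import Fermat.Agent.S25lib.AffBC.SpecUP
import Fermat.Agent.S25lib.AffBC.OpenImm
import Fermat.Agent.S25lib.AffBC.Square
import Fermat.Agent.S25lib.AffBC.QCoh

set_option autoImplicit false

noncomputable section

universe u

open AlgebraicGeometry CategoryTheory TopologicalSpace Limits

namespace Fermat.Agent.S25lib.AffBC

open Fermat.Agent.S25lib

section Alpha

variable {X : Scheme.{u}} (M : X.Modules) {B : X.Opens} (hB : IsAffineOpen B)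

/-- the pullback of `M` to `Spec Γ(X, B)` -/
abbrev specPull : (Spec Γ(X, B)).Modules := (Scheme.Modules.pullback hB.fromSpec).obj M

theorem top_le_fromSpec_preimage : (⊤ : (Spec Γ(X, B)).Opens) ≤ hB.fromSpec ⁻¹ᵁ B :=
  le_of_eq hB.fromSpec_preimage_self.symm

/-- sections over an affine open, as global sections of the pullback to `Spec Γ(X, B)` -/
def toSpecSec (s : Γ(M, B)) : ΓM (specPull M hB) :=
  toΓM _ (Mod.res _ (top_le_fromSpec_preimage hB) (Mod.pullSec hB.fromSpec M B s))

theorem toSpecSec_bijective : Function.Bijective (toSpecSec M hB) := by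
  have h1 : Function.Bijective (Mod.pullSec hB.fromSpec M B) :=
    pullSec_bijective_of_isOpenImmersion hB.fromSpec M B (le_of_eq hB.opensRange_fromSpec.symm)
  have h2 : Function.Bijective (Mod.res (specPull M hB) (top_le_fromSpec_preimage hB)) :=
    res_bijective _ _ le_top
  exact h2.comp h1

theorem toSpecSec_add (s s' : Γ(M, B)) :
    toSpecSec M hB (s + s') = toSpecSec M hB s + toSpecSec M hB s' := by
  unfold toSpecSec
  rw [Mod.pullSec_add, Mod.res_add]
  rfl

theorem smul_ΓM {R : CommRingCat.{u}} (N : (Spec R).Modules) (r : R) (x : Γ(N, ⊤)) :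
    (r • toΓM N x : ΓM N) = toΓM N (((Scheme.ΓSpecIso R).inv r : Γ(Spec R, ⊤)) • x) := rfl

theorem resO_fromSpec_app (a : Γ(X, B)) :
    Mod.resO (top_le_fromSpec_preimage hB) (hB.fromSpec.app B a) =
      (Scheme.ΓSpecIso Γ(X, B)).inv a := by
  rw [hB.fromSpec_app_self]
  show (Spec Γ(X, B)).presheaf.map _ ((Spec Γ(X, B)).presheaf.map _
    ((Scheme.ΓSpecIso Γ(X, B)).inv a)) = _
  rw [← CommRingCat.comp_apply, ← Functor.map_comp]
  have : ((eqToHom hB.fromSpec_preimage_self).op ≫ (homOfLE (top_le_fromSpec_preimage hB)).op) =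
      𝟙 _ := rfl
  rw [this, CategoryTheory.Functor.map_id]
  rfl

theorem toSpecSec_smul (a : Γ(X, B)) (s : Γ(M, B)) :
    toSpecSec M hB (a • s) = a • toSpecSec M hB s := by
  unfold toSpecSec
  rw [Mod.pullSec_smul, Mod.res_smul, resO_fromSpec_app, smul_ΓM]

/-- `toSpecSec` as a linear equivalence -/
def toSpecSecEquiv : Γ(M, B) ≃ₗ[Γ(X, B)] ΓM (specPull M hB) :=
  LinearEquiv.ofBijective
    { toFun := toSpecSec M hB
      map_add' := toSpecSec_add M hB
      map_smul' := toSpecSec_smul M hB } (toSpecSec_bijective M hB)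

theorem toSpecSecEquiv_apply (s : Γ(M, B)) : toSpecSecEquiv M hB s = toSpecSec M hB s := rfl

end Alpha

section Main

variable {X X' : Scheme.{u}} (f : X' ⟶ X) (M : X.Modules)
  {B : X.Opens} {B' : X'.Opens} (hle : B' ≤ f ⁻¹ᵁ B)

/-- pullback of sections followed by restriction -/
def pullRes (s : Γ(M, B)) : Γ((Scheme.Modules.pullback f).obj M, B') :=
  Mod.res _ hle (Mod.pullSec f M B s)

theorem pullRes_add (s s' : Γ(M, B)) :
    pullRes f M hle (s + s') = pullRes f M hle s + pullRes f M hle s' := by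
  unfold pullRes
  rw [Mod.pullSec_add, Mod.res_add]

theorem pullRes_smul (a : Γ(X, B)) (s : Γ(M, B)) :
    pullRes f M hle (a • s) = (f.appLE B B' hle).hom a • pullRes f M hle s := by
  unfold pullRes
  rw [Mod.pullSec_smul, Mod.res_smul]
  rfl

variable (hB : IsAffineOpen B) (hB' : IsAffineOpen B')

theorem spec_square :
    Spec.map (f.appLE B B' hle) ≫ hB.fromSpec = hB'.fromSpec ≫ f :=
  IsAffineOpen.SpecMap_appLE_fromSpec f hB hB' hle

/-- the key identity -/
theorem squareIso_toSpecSec_pullRes (s : Γ(M, B)) :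
    (squareIso (spec_square f hle hB hB') M).hom.app ⊤
      (ofΓM _ (toSpecSec ((Scheme.Modules.pullback f).obj M) hB' (pullRes f M hle s))) =
    Mod.pullSec (Spec.map (f.appLE B B' hle)) (specPull M hB) ⊤ (ofΓM _ (toSpecSec M hB s)) := by
  have h1 : (⊤ : (Spec Γ(X', B')).Opens) ≤ hB'.fromSpec ⁻¹ᵁ (f ⁻¹ᵁ B) :=
    (top_le_fromSpec_preimage hB').trans (fun _ hx => hle hx)
  have h2 : (⊤ : (Spec Γ(X', B')).Opens) ≤
      (Spec.map (f.appLE B B' hle)) ⁻¹ᵁ (hB.fromSpec ⁻¹ᵁ B) :=
    fun _ _ => top_le_fromSpec_preimage hB trivial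
  have key := squareIso_hom_pullSec (spec_square f hle hB hB') M B s ⊤ h1 h2
  -- left side
  have hL : ofΓM _ (toSpecSec ((Scheme.Modules.pullback f).obj M) hB' (pullRes f M hle s)) =
      Mod.res _ h1 (Mod.pullSec hB'.fromSpec ((Scheme.Modules.pullback f).obj M) (f ⁻¹ᵁ B)
        (Mod.pullSec f M B s)) := by
    show Mod.res _ (top_le_fromSpec_preimage hB') (Mod.pullSec hB'.fromSpec _ B'
      (Mod.res _ hle (Mod.pullSec f M B s))) = _
    have := Mod.pullSec_res hB'.fromSpec ((Scheme.Modules.pullback f).obj M) hle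
      (Mod.pullSec f M B s)
    rw [presheaf_map_homOfLE] at this
    rw [this, presheaf_map_homOfLE, Mod.res_res]
  have hR : Mod.pullSec (Spec.map (f.appLE B B' hle)) (specPull M hB) ⊤
      (ofΓM _ (toSpecSec M hB s)) =
      Mod.res _ h2 (Mod.pullSec (Spec.map (f.appLE B B' hle)) (specPull M hB)
        (hB.fromSpec ⁻¹ᵁ B) (Mod.pullSec hB.fromSpec M B s)) := by
    show Mod.pullSec (Spec.map (f.appLE B B' hle)) (specPull M hB) ⊤
      (Mod.res _ (top_le_fromSpec_preimage hB) (Mod.pullSec hB.fromSpec M B s)) = _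
    have := Mod.pullSec_res (Spec.map (f.appLE B B' hle)) (specPull M hB)
      (top_le_fromSpec_preimage hB) (Mod.pullSec hB.fromSpec M B s)
    rw [presheaf_map_homOfLE] at this
    rw [this, presheaf_map_homOfLE]
    rfl
  rw [hL, hR]
  exact key

/-- the comparison `Γ(f^*M, B') ≃ Γ((Spec φ)^* (M|Spec A))`, linear over `Γ(X', B')` -/
def compEquiv : Γ((Scheme.Modules.pullback f).obj M, B') ≃ₗ[Γ(X', B')]
    ΓM ((Scheme.Modules.pullback (Spec.map (f.appLE B B' hle))).obj (specPull M hB)) :=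
  (toSpecSecEquiv ((Scheme.Modules.pullback f).obj M) hB') ≪≫ₗ
    (moduleSpecΓFunctor.mapIso (squareIso (spec_square f hle hB hB') M)).toLinearEquiv

theorem compEquiv_pullRes (s : Γ(M, B)) :
    compEquiv f M hle hB hB' (pullRes f M hle s) =
      toΓM _ (Mod.pullSec (Spec.map (f.appLE B B' hle)) (specPull M hB) ⊤
        (ofΓM _ (toSpecSec M hB s))) :=
  squareIso_toSpecSec_pullRes f M hle hB hB' s

/-- **affine base change, universal property**: for `M` invertible, `B ⊆ X`, `B' ⊆ f⁻¹ B` affine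
opens, every `f^♯`-semilinear map out of `Γ(M, B)` factors uniquely through
`pullRes : Γ(M, B) → Γ(f^*M, B')` -/
theorem affine_existsUnique_lift (hB : IsAffineOpen B) (hB' : IsAffineOpen B')
    (hM : Scheme.Modules.IsInvertible M) (Q : Type u) [AddCommGroup Q] [Module Γ(X', B') Q] (q : Γ(M, B) →+ Q)
    (hq : ∀ (a : Γ(X, B)) (s : Γ(M, B)), q (a • s) = (f.appLE B B' hle).hom a • q s) :
    ∃! q' : Γ((Scheme.Modules.pullback f).obj M, B') →ₗ[Γ(X', B')] Q,
      ∀ s : Γ(M, B), q' (pullRes f M hle s) = q s := by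
  have hM₀ : IsIso (specPull M hB).fromTildeΓ :=
    isIso_fromTildeΓ_of_isInvertible _ (hM.pullback _)
  set α := toSpecSecEquiv M hB with hα
  set E := compEquiv f M hle hB hB' with hE
  let q₀ : ΓM (specPull M hB) →+ Q := q.comp α.symm.toAddMonoidHom
  have hq₀ : ∀ (a : Γ(X, B)) (m : ΓM (specPull M hB)),
      q₀ (a • m) = (f.appLE B B' hle).hom a • q₀ m := by
    intro a m
    show q (α.symm (a • m)) = _ • q (α.symm m)
    rw [map_smul, hq]
  obtain ⟨q₀', hq₀', huniq⟩ :=
    spec_existsUnique_lift (f.appLE B B' hle) (specPull M hB) hM₀ Q q₀ hq₀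
  have hαs : ∀ s : Γ(M, B), q₀ (toSpecSec M hB s) = q s := by
    intro s
    show q (α.symm (toSpecSec M hB s)) = q s
    rw [← toSpecSecEquiv_apply, ← hα, LinearEquiv.symm_apply_apply]
  refine ⟨q₀' ∘ₗ E.toLinearMap, fun s => ?_, fun q'' hq'' => ?_⟩
  · show q₀' (E (pullRes f M hle s)) = q s
    rw [hE, compEquiv_pullRes, hq₀', hαs]
  · have h1 : q'' ∘ₗ E.symm.toLinearMap = q₀' := by
      apply huniq
      intro m
      obtain ⟨s, rfl⟩ := α.surjective m
      show q'' (E.symm _) = _
      rw [hα, toSpecSecEquiv_apply, ← compEquiv_pullRes f M hle hB hB' s, ← hE,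
        LinearEquiv.symm_apply_apply, hq'', hαs]
    rw [← h1]
    ext x
    show q'' x = q'' (E.symm (E x))
    rw [LinearEquiv.symm_apply_apply]

end Main

/-- from the universal property to `IsBaseChange` -/
theorem isBaseChange_of_existsUnique {A A' : Type u} [CommRing A] [CommRing A'] [Algebra A A']
    {P P' : Type u} [AddCommGroup P] [Module A P] [AddCommGroup P'] [Module A P'] [Module A' P']
    [IsScalarTower A A' P'] (ρ : P →ₗ[A] P')
    (h : ∀ (Q : Type u) [AddCommGroup Q] [Module A' Q] (q : P →+ Q),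
      (∀ (a : A) (s : P), q (a • s) = algebraMap A A' a • q s) →
        ∃! q' : P' →ₗ[A'] Q, ∀ s, q' (ρ s) = q s) : IsBaseChange A' ρ := by
  apply IsBaseChange.of_lift_unique
  intro Q _ _ _ _ g
  let _ : AddCommGroup Q := Module.addCommMonoidToAddCommGroup A'
  obtain ⟨q', hq', huniq⟩ := h Q g.toAddMonoidHom (fun a s => by
    show g (a • s) = _
    rw [map_smul, algebraMap_smul]
    rfl)
  refine ⟨q', ?_, fun q'' hq'' => ?_⟩
  · ext s
    exact hq' s
  · apply huniq
    intro s
    exact congrArg (fun l => l s) hq''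

/-- **affine base change as `IsBaseChange`**, in any instance context in which `algebraMap` is
`f^♯ : Γ(X, B) → Γ(X', B')` -/
theorem affine_isBaseChange {X X' : Scheme.{u}} (f : X' ⟶ X) (M : X.Modules)
    {B : X.Opens} {B' : X'.Opens} (hle : B' ≤ f ⁻¹ᵁ B) (hB : IsAffineOpen B)
    (hB' : IsAffineOpen B') (hM : Scheme.Modules.IsInvertible M)
    [Algebra Γ(X, B) Γ(X', B')] [Module Γ(X, B) Γ((Scheme.Modules.pullback f).obj M, B')]
    [IsScalarTower Γ(X, B) Γ(X', B') Γ((Scheme.Modules.pullback f).obj M, B')]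
    (halg : ∀ a : Γ(X, B), algebraMap Γ(X, B) Γ(X', B') a = (f.appLE B B' hle).hom a)
    (ρ : Γ(M, B) →ₗ[Γ(X, B)] Γ((Scheme.Modules.pullback f).obj M, B'))
    (hρ : ∀ s, ρ s = pullRes f M hle s) : IsBaseChange Γ(X', B') ρ := by
  apply isBaseChange_of_existsUnique
  intro Q _ _ q hq
  have := affine_existsUnique_lift f M hle hB hB' hM Q q (fun a s => by rw [hq, halg])
  simpa only [hρ] using this

end Fermat.Agent.S25lib.AffBC
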