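/-
S25lib / AffBC / Pushout  (helper4)  --  Project L (S25), affine base change, brick (AB4a)

Affine base change over a pushout square of rings: if `Γ(X₂, B₂) = R₂ ⊗[R₁] Γ(X₁, B₁)` then
`Γ(f^*N, B₂) = R₂ ⊗[R₁] Γ(N, B₁)` for `N` invertible (`Algebra.IsPushout.cancelBaseChange` on top of
`affine_isBaseChange`), stated as an instance-free universal property for semilinear maps.
-/
import Fermat.Agent.S25lib.AffBC.Affine
import Fermat.Agent.S25lib.AffBC.Alg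

set_option autoImplicit false

noncomputable section

universe u

open AlgebraicGeometry CategoryTheory CategoryTheory.Limits TopologicalSpace

namespace Fermat.Agent.S25lib.AffBC

open Fermat.Agent.S25lib

/-- **base change over a pushout square**: `f : X₂ ⟶ X₁`, affine opens `B₂ ≤ f⁻¹ B₁`, and rings
`R₁ → Γ(X₁, B₁)`, `R₂ → Γ(X₂, B₂)`, `θ : R₁ → R₂` with `Γ(X₂, B₂) = R₂ ⊗[R₁] Γ(X₁, B₁)`.  Then for `N`
invertible on `X₁`, every `θ`-semilinear map out of `Γ(N, B₁)` factors uniquely through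
`pullRes : Γ(N, B₁) → Γ(f^*N, B₂)`: `Γ(f^*N, B₂) = R₂ ⊗[R₁] Γ(N, B₁)` -/
theorem pushout_existsUnique_lift {X₁ X₂ : Scheme.{u}} (f : X₂ ⟶ X₁) (N : X₁.Modules)
    (hN : Scheme.Modules.IsInvertible N) {B₁ : X₁.Opens} {B₂ : X₂.Opens}
    (hBle : B₂ ≤ f ⁻¹ᵁ B₁) (haff₁ : IsAffineOpen B₁) (haff₂ : IsAffineOpen B₂)
    {R₁ R₂ : CommRingCat.{u}} (θ : R₁ ⟶ R₂) (φ₁ : R₁ ⟶ Γ(X₁, B₁)) (φ₂ : R₂ ⟶ Γ(X₂, B₂))
    (hpo : IsPushout θ φ₁ φ₂ (f.appLE B₁ B₂ hBle))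
    (Q : Type u) [AddCommGroup Q] [Module R₂ Q] (q : Γ(N, B₁) →+ Q)
    (hq : ∀ (r : R₁) (s : Γ(N, B₁)), q (φ₁.hom r • s) = θ.hom r • q s) :
    ∃! q' : Γ((Scheme.Modules.pullback f).obj N, B₂) →+ Q,
      (∀ (r' : R₂) s', q' (φ₂.hom r' • s') = r' • q' s') ∧
      ∀ s, q' (pullRes f N hBle s) = q s := by
  -- the algebra structures
  let alg12 : Algebra R₁ R₂ := θ.hom.toAlgebra
  let alg1 : Algebra R₁ Γ(X₁, B₁) := φ₁.hom.toAlgebra
  let alg2 : Algebra R₂ Γ(X₂, B₂) := φ₂.hom.toAlgebra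
  let algA : Algebra Γ(X₁, B₁) Γ(X₂, B₂) := (f.appLE B₁ B₂ hBle).hom.toAlgebra
  let alg1A : Algebra R₁ Γ(X₂, B₂) := ((f.appLE B₁ B₂ hBle).hom.comp φ₁.hom).toAlgebra
  have tw1 : IsScalarTower R₁ Γ(X₁, B₁) Γ(X₂, B₂) := IsScalarTower.of_algebraMap_eq' rfl
  have tw2 : IsScalarTower R₁ R₂ Γ(X₂, B₂) :=
    IsScalarTower.of_algebraMap_eq' (RingHom.ext fun r => by
      have := hpo.w
      exact (congrArg (fun φ => φ.hom r) this).symm)
  have hpo' : Algebra.IsPushout R₁ R₂ Γ(X₁, B₁) Γ(X₂, B₂) :=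
    CommRingCat.isPushout_iff_isPushout.mp hpo
  -- the module structures
  let m1 : Module R₁ Γ(N, B₁) := Module.compHom _ (algebraMap R₁ Γ(X₁, B₁))
  have mt1 : IsScalarTower R₁ Γ(X₁, B₁) Γ(N, B₁) :=
    ⟨fun a r m => by
      show (a • r) • m = algebraMap R₁ Γ(X₁, B₁) a • (r • m)
      rw [Algebra.smul_def, mul_smul]⟩
  let m2A : Module Γ(X₁, B₁) Γ((Scheme.Modules.pullback f).obj N, B₂) :=
    Module.compHom _ (algebraMap Γ(X₁, B₁) Γ(X₂, B₂))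
  have mt2A : IsScalarTower Γ(X₁, B₁) Γ(X₂, B₂) Γ((Scheme.Modules.pullback f).obj N, B₂) :=
    ⟨fun a r m => by
      show (a • r) • m = algebraMap Γ(X₁, B₁) Γ(X₂, B₂) a • (r • m)
      rw [Algebra.smul_def, mul_smul]⟩
  let m2 : Module R₂ Γ((Scheme.Modules.pullback f).obj N, B₂) :=
    Module.compHom _ (algebraMap R₂ Γ(X₂, B₂))
  have mt2 : IsScalarTower R₂ Γ(X₂, B₂) Γ((Scheme.Modules.pullback f).obj N, B₂) :=
    ⟨fun a r m => by
      show (a • r) • m = algebraMap R₂ Γ(X₂, B₂) a • (r • m)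
      rw [Algebra.smul_def, mul_smul]⟩
  let m21 : Module R₁ Γ((Scheme.Modules.pullback f).obj N, B₂) :=
    Module.compHom _ (algebraMap R₁ Γ(X₂, B₂))
  have mt21A : IsScalarTower R₁ Γ(X₁, B₁) Γ((Scheme.Modules.pullback f).obj N, B₂) :=
    ⟨fun a r m => by
      show algebraMap Γ(X₁, B₁) Γ(X₂, B₂) (a • r) • m =
        algebraMap R₁ Γ(X₂, B₂) a • (algebraMap Γ(X₁, B₁) Γ(X₂, B₂) r • m)
      rw [Algebra.smul_def, map_mul, mul_smul]
      rfl⟩
  have mt212 : IsScalarTower R₁ R₂ Γ((Scheme.Modules.pullback f).obj N, B₂) :=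
    ⟨fun a r m => by
      show algebraMap R₂ Γ(X₂, B₂) (a • r) • m =
        algebraMap R₁ Γ(X₂, B₂) a • (algebraMap R₂ Γ(X₂, B₂) r • m)
      rw [Algebra.smul_def, map_mul, mul_smul,
        ← IsScalarTower.algebraMap_apply R₁ R₂ Γ(X₂, B₂)]⟩
  -- the base change over the boxes
  let ρ : Γ(N, B₁) →ₗ[Γ(X₁, B₁)] Γ((Scheme.Modules.pullback f).obj N, B₂) :=
    { toFun := pullRes f N hBle
      map_add' := pullRes_add f N hBle
      map_smul' := fun a s => pullRes_smul f N hBle a s }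
  have hρ : IsBaseChange Γ(X₂, B₂) ρ :=
    affine_isBaseChange f N hBle haff₁ haff₂ hN (fun a => rfl) ρ (fun s => rfl)
  have hbc : IsBaseChange R₂ (ρ.restrictScalars R₁) :=
    isBaseChange_of_isPushout R₁ R₂ Γ(X₁, B₁) Γ(X₂, B₂) ρ hρ
  -- the universal property
  let mQ : Module R₁ Q := Module.compHom Q (algebraMap R₁ R₂)
  have mtQ : IsScalarTower R₁ R₂ Q :=
    ⟨fun a r m => by
      show (a • r) • m = algebraMap R₁ R₂ a • (r • m)
      rw [Algebra.smul_def, mul_smul]⟩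
  let qlin : Γ(N, B₁) →ₗ[R₁] Q :=
    { toFun := q
      map_add' := map_add q
      map_smul' := fun r s => hq r s }
  refine ⟨(hbc.lift qlin).toAddMonoidHom, ⟨fun r' s' => (hbc.lift qlin).map_smul r' s',
    fun s => hbc.lift_eq qlin s⟩, ?_⟩
  rintro q'' ⟨hq''1, hq''2⟩
  let q''lin : Γ((Scheme.Modules.pullback f).obj N, B₂) →ₗ[R₂] Q :=
    { toFun := q''
      map_add' := map_add q''
      map_smul' := fun r' s' => hq''1 r' s' }
  have := hbc.algHom_ext q''lin (hbc.lift qlin) (fun s => by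
    rw [hbc.lift_eq]
    exact hq''2 s)
  ext x
  exact congrArg (fun l => l x) this

end Fermat.Agent.S25lib.AffBC
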