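/-
S25lib / AffBC / BoxBC  (helper4)  --  Project L (S25), affine base change, brick (AB4b)

Base change of the sections of an invertible module over the boxes `U × T'` of `C ×_k T`:
for `ψ : T₂ ⟶ T₁` over `k`, `T₂' ≤ ψ⁻¹ T₁'` affine opens, `U ⊆ C` an affine open,
`Γ(C ×_k T₂, U × T₂') = Γ(T₂, T₂') ⊗[Γ(T₁, T₁')] Γ(C ×_k T₁, U × T₁')` (`isPushout_box`, from Mathlib's
`isIso_pushoutSection_of_isAffineOpen`) and the same for the sections of `N` (`box_existsUnique_lift`).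
-/
import Fermat.Agent.S25lib.AffBC.Pushout
import Fermat.Agent.S26lib.ProdAff.Fibre

set_option autoImplicit false

noncomputable section

universe u

open AlgebraicGeometry CategoryTheory CategoryTheory.Limits TopologicalSpace
  AlgebraicGeometry.RelPicard NeronModelInfra

namespace Fermat.Agent.S25lib.AffBC

open Fermat.Agent.S25lib Fermat.Agent.S26lib.ProdAff

variable {k : Type u} [Field k] {C T₁ T₂ : Scheme.{u}} (c : C ⟶ Spec (CommRingCat.of k))
  {t₁ : T₁ ⟶ Spec (CommRingCat.of k)} {t₂ : T₂ ⟶ Spec (CommRingCat.of k)}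
  (ψ : SchemeHomOver t₂ t₁)

theorem baseChangeSnd_fst : baseChangeSnd c ψ ≫ pullback.fst c t₁ = pullback.fst c t₂ := by
  unfold baseChangeSnd
  rw [pullback.lift_fst, Category.comp_id]

theorem baseChangeSnd_snd : baseChangeSnd c ψ ≫ pullback.snd c t₁ = pullback.snd c t₂ ≫ ψ.1 := by
  unfold baseChangeSnd
  rw [pullback.lift_snd]

/-- `C ×_k T₂ = (C ×_k T₁) ×_{T₁} T₂` -/
theorem isPullback_baseChangeSnd :
    IsPullback (baseChangeSnd c ψ) (pullback.snd c t₂) (pullback.snd c t₁) ψ.1 := by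
  have hright : IsPullback (pullback.fst c t₁) (pullback.snd c t₁) c t₁ :=
    IsPullback.of_hasPullback c t₁
  have hbig : IsPullback (baseChangeSnd c ψ ≫ pullback.fst c t₁) (pullback.snd c t₂) c
      (ψ.1 ≫ t₁) := by
    rw [baseChangeSnd_fst, ψ.2]
    exact IsPullback.of_hasPullback c t₂
  exact IsPullback.of_right hbig (baseChangeSnd_snd c ψ) hright

variable (U : C.Opens) (T₁' : T₁.Opens) (T₂' : T₂.Opens) (hle : T₂' ≤ ψ.1 ⁻¹ᵁ T₁')

include hle in
theorem box_le_preimage_box :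
    box c t₂ U T₂' ≤ baseChangeSnd c ψ ⁻¹ᵁ box c t₁ U T₁' := by
  intro x hx
  refine ⟨?_, ?_⟩
  · show (baseChangeSnd c ψ ≫ pullback.fst c t₁) x ∈ U
    rw [baseChangeSnd_fst]
    exact hx.1
  · show (baseChangeSnd c ψ ≫ pullback.snd c t₁) x ∈ T₁'
    rw [baseChangeSnd_snd]
    exact hle hx.2

include hle in
theorem box_eq_preimage_inf :
    box c t₂ U T₂' =
      baseChangeSnd c ψ ⁻¹ᵁ box c t₁ U T₁' ⊓ pullback.snd c t₂ ⁻¹ᵁ T₂' := by
  apply le_antisymm
  · exact le_inf (box_le_preimage_box c ψ U T₁' T₂' hle) (box_le_snd c t₂ U T₂')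
  · intro x hx
    refine ⟨?_, hx.2⟩
    have h1 := hx.1.1
    change (baseChangeSnd c ψ ≫ pullback.fst c t₁) x ∈ U at h1
    rw [baseChangeSnd_fst] at h1
    exact h1

variable {U T₁' T₂'}

include hle in
/-- **the sections of the boxes form a pushout square of rings** -/
theorem isPushout_box (hU : IsAffineOpen U) (hT₁' : IsAffineOpen T₁') (hT₂' : IsAffineOpen T₂') :
    IsPushout (ψ.1.appLE T₁' T₂' hle)
      ((pullback.snd c t₁).appLE T₁' (box c t₁ U T₁') (box_le_snd c t₁ U T₁'))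
      ((pullback.snd c t₂).appLE T₂' (box c t₂ U T₂') (box_le_snd c t₂ U T₂'))
      ((baseChangeSnd c ψ).appLE (box c t₁ U T₁') (box c t₂ U T₂')
        (box_le_preimage_box c ψ U T₁' T₂' hle)) := by
  have H := isPullback_baseChangeSnd c ψ
  have hiso := isIso_pushoutSection_of_isAffineOpen H hle (box_le_snd c t₁ U T₁')
    (box_eq_preimage_inf c ψ U T₁' T₂' hle) hT₁' hT₂' (isAffineOpen_box' c t₁ hU hT₁')
  exact ((isIso_pushoutSection_iff H hle (box_le_snd c t₁ U T₁')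
    (box_eq_preimage_inf c ψ U T₁' T₂' hle)).mp hiso).flip

/-- the structure map `Γ(T, T') → Γ(C ×_k T, U × T')` -/
abbrev boxφ {T : Scheme.{u}} (t : T ⟶ Spec (CommRingCat.of k)) (U : C.Opens) (T' : T.Opens) :
    Γ(T, T') →+* Γ(pullback c t, box c t U T') :=
  ((pullback.snd c t).appLE T' (box c t U T') (box_le_snd c t U T')).hom

include hle in
theorem boxφ_comm (r : Γ(T₁, T₁')) :
    ((baseChangeSnd c ψ).appLE (box c t₁ U T₁') (box c t₂ U T₂')
      (box_le_preimage_box c ψ U T₁' T₂' hle)).hom (boxφ c t₁ U T₁' r) =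
    boxφ c t₂ U T₂' ((ψ.1.appLE T₁' T₂' hle).hom r) := by
  have h1 := Scheme.Hom.appLE_comp_appLE (baseChangeSnd c ψ) (pullback.snd c t₁) T₁'
    (box c t₁ U T₁') (box c t₂ U T₂') (box_le_snd c t₁ U T₁')
    (box_le_preimage_box c ψ U T₁' T₂' hle)
  have h2 := Scheme.Hom.appLE_comp_appLE (pullback.snd c t₂) ψ.1 T₁' T₂'
    (box c t₂ U T₂') hle (box_le_snd c t₂ U T₂')
  have h3 := appLE_of_eq (baseChangeSnd_snd c ψ) T₁' (box c t₂ U T₂')
    ((box_le_preimage_box c ψ U T₁' T₂' hle).trans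
      ((Opens.map (baseChangeSnd c ψ).base).map (homOfLE (box_le_snd c t₁ U T₁'))).le)
  have h4 := h1.trans (h3.trans h2.symm)
  exact congrArg (fun φ => φ.hom r) h4

include hle in
/-- **base change of the sections over a box, universal property**: every `ψ^♯`-semilinear map out
of `Γ(N, U × T₁')` factors uniquely through `pullRes : Γ(N, U × T₁') → Γ(N_{T₂}, U × T₂')`, i.e.
`Γ(N_{T₂}, U × T₂') = Γ(T₂, T₂') ⊗[Γ(T₁, T₁')] Γ(N, U × T₁')` -/
theorem box_existsUnique_lift (N : (pullback c t₁).Modules) (hN : Scheme.Modules.IsInvertible N)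
    (hU : IsAffineOpen U) (hT₁' : IsAffineOpen T₁') (hT₂' : IsAffineOpen T₂')
    (Q : Type u) [AddCommGroup Q] [Module Γ(T₂, T₂') Q] (q : Γ(N, box c t₁ U T₁') →+ Q)
    (hq : ∀ (r : Γ(T₁, T₁')) (s : Γ(N, box c t₁ U T₁')),
      q (boxφ c t₁ U T₁' r • s) = (ψ.1.appLE T₁' T₂' hle).hom r • q s) :
    ∃! q' : Γ((Scheme.Modules.pullback (baseChangeSnd c ψ)).obj N, box c t₂ U T₂') →+ Q,
      (∀ (r' : Γ(T₂, T₂')) s', q' (boxφ c t₂ U T₂' r' • s') = r' • q' s') ∧
      ∀ s, q' (pullRes (baseChangeSnd c ψ) N (box_le_preimage_box c ψ U T₁' T₂' hle) s) =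
        q s :=
  pushout_existsUnique_lift (baseChangeSnd c ψ) N hN (box_le_preimage_box c ψ U T₁' T₂' hle)
    (isAffineOpen_box' c t₁ hU hT₁') (isAffineOpen_box' c t₂ hU hT₂')
    (ψ.1.appLE T₁' T₂' hle)
    ((pullback.snd c t₁).appLE T₁' (box c t₁ U T₁') (box_le_snd c t₁ U T₁'))
    ((pullback.snd c t₂).appLE T₂' (box c t₂ U T₂') (box_le_snd c t₂ U T₂'))
    (isPushout_box c ψ hle hU hT₁' hT₂') Q q hq

end Fermat.Agent.S25lib.AffBC
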