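/-
S25lib / AffBC / BoxRing  (helper4)  --  Project L (S25), brick (AB4c): the rings of the boxes.

`fstφ : Γ(C, U) → Γ(C ×_k T, U × T')` is flat (so non-zero-divisors stay non-zero-divisors);
`Γ(C ×_k T, U × T') = Γ(T, T') + z Γ(C ×_k T, U × T')` when `Γ(C, U) = k + z Γ(C, U)`; the evaluation
`σφ` along the section `rigSection c t ε` is a retraction of `boxφ` with kernel `(z)`.
-/
import Fermat.Agent.S25lib.AffBC.BoxBC

set_option autoImplicit false

noncomputable section

universe u

open AlgebraicGeometry CategoryTheory CategoryTheory.Limits TopologicalSpace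
  AlgebraicGeometry.RelPicard NeronModelInfra

namespace Fermat.Agent.S25lib.AffBC

open Fermat.Agent.S25lib Fermat.Agent.S26lib.ProdAff Fermat.Agent.S26lib.P5a

variable {k : Type u} [Field k] {C T : Scheme.{u}} (c : C ⟶ Spec (CommRingCat.of k))
  (t : T ⟶ Spec (CommRingCat.of k)) (U : C.Opens) (T' : T.Opens)

/-- the map `Γ(C, U) → Γ(C ×_k T, U × T')` -/
abbrev fstφ : Γ(C, U) →+* Γ(pullback c t, box c t U T') :=
  ((pullback.fst c t).appLE U (box c t U T') (box_le_fst c t U T')).hom

variable {U T'}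

theorem flat_fstφ (hU : IsAffineOpen U) (hT' : IsAffineOpen T') : (fstφ c t U T').Flat := by
  have : Flat t := inferInstance
  exact (pullback.fst c t).flat_appLE hU (isAffineOpen_box' c t hU hT') _

/-- a non-zero-divisor of `Γ(C, U)` stays one on the box -/
theorem isSMulRegular_fstφ (hU : IsAffineOpen U) (hT' : IsAffineOpen T') {z : Γ(C, U)}
    (hz : IsSMulRegular Γ(C, U) z) :
    IsSMulRegular Γ(pullback c t, box c t U T') (fstφ c t U T' z) := by
  let _ : Algebra Γ(C, U) Γ(pullback c t, box c t U T') := (fstφ c t U T').toAlgebra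
  have : Module.Flat Γ(C, U) Γ(pullback c t, box c t U T') := flat_fstφ c t hU hT'
  exact IsSMulRegular.of_flat hz

/-- `Γ(C ×_k T, U × T') = Γ(T, T') + z Γ(C ×_k T, U × T')` when `Γ(C, U) = k + z Γ(C, U)` -/
theorem exists_eq_boxφ_add_mul (hU : IsAffineOpen U) (hT' : IsAffineOpen T') (z : Γ(C, U))
    (hz : ∀ b : Γ(C, U), ∃ (κ : k) (b' : Γ(C, U)), b = (constHomOpen c U).hom κ + z * b')
    (a : Γ(pullback c t, box c t U T')) :
    ∃ (r : Γ(T, T')) (a' : Γ(pullback c t, box c t U T')),
      a = boxφ c t U T' r + fstφ c t U T' z * a' := by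
  refine box_induction c t hU hT' (P := fun a => ∃ (r : Γ(T, T'))
    (a' : Γ(pullback c t, box c t U T')), a = boxφ c t U T' r + fstφ c t U T' z * a')
    ⟨0, 0, by simp⟩ (fun s r => ?_) (fun a b ha hb => ?_) a
  · obtain ⟨κ, s', rfl⟩ := hz s
    refine ⟨(constHomOpen t T').hom κ * r, fstφ c t U T' s' * boxφ c t U T' r, ?_⟩
    have h1 := appLE_fst_const c t U T' κ
    show fstφ c t U T' ((constHomOpen c U).hom κ + z * s') * boxφ c t U T' r = _
    rw [map_add, map_mul, map_mul]
    show (fstφ c t U T' ((constHomOpen c U).hom κ) + _) * _ = _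
    rw [show fstφ c t U T' ((constHomOpen c U).hom κ) =
      boxφ c t U T' ((constHomOpen t T').hom κ) from h1]
    ring
  · obtain ⟨r, a', rfl⟩ := ha
    obtain ⟨r', b', rfl⟩ := hb
    exact ⟨r + r', a' + b', by rw [map_add]; ring⟩

/-! ### the section `σ = rigSection c t ε : T ⟶ C ×_k T` -/

variable (ε : SchemeHomOver (𝟙 (Spec (CommRingCat.of k))) c)

theorem rigSection_fst : rigSection c t ε ≫ pullback.fst c t = t ≫ ε.1 := by
  unfold rigSection
  rw [pullback.lift_fst]

theorem rigSection_snd : rigSection c t ε ≫ pullback.snd c t = 𝟙 T := by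
  unfold rigSection
  rw [pullback.lift_snd]

variable (U T')

theorem le_rigSection_preimage_box (hε : ∀ x, ε.1 x ∈ U) :
    T' ≤ rigSection c t ε ⁻¹ᵁ box c t U T' := by
  intro x hx
  refine ⟨?_, ?_⟩
  · show (rigSection c t ε ≫ pullback.fst c t) x ∈ U
    rw [rigSection_fst]
    exact hε _
  · show (rigSection c t ε ≫ pullback.snd c t) x ∈ T'
    rw [rigSection_snd]
    exact hx

/-- evaluation along the section: `Γ(C ×_k T, U × T') → Γ(T, T')` -/
abbrev σφ (hε : ∀ x, ε.1 x ∈ U) : Γ(pullback c t, box c t U T') →+* Γ(T, T') :=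
  ((rigSection c t ε).appLE (box c t U T') T' (le_rigSection_preimage_box c t U T' ε hε)).hom

variable {U T'}

theorem σφ_boxφ (hε : ∀ x, ε.1 x ∈ U) (r : Γ(T, T')) :
    σφ c t U T' ε hε (boxφ c t U T' r) = r := by
  have h1 := Scheme.Hom.appLE_comp_appLE (rigSection c t ε) (pullback.snd c t) T'
    (box c t U T') T' (box_le_snd c t U T') (le_rigSection_preimage_box c t U T' ε hε)
  have h3 := appLE_of_eq (rigSection_snd c t ε) T' T'
    ((le_rigSection_preimage_box c t U T' ε hε).trans
      ((Opens.map (rigSection c t ε).base).map (homOfLE (box_le_snd c t U T'))).le)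
  have h4 := h1.trans (h3.trans (id_appLE_self T' _))
  exact congrArg (fun φ => φ.hom r) h4

theorem σφ_fstφ (hε : ∀ x, ε.1 x ∈ U) (s : Γ(C, U)) :
    σφ c t U T' ε hε (fstφ c t U T' s) =
      ((t ≫ ε.1).appLE U T' (fun _ _ => hε _)).hom s := by
  have h1 := Scheme.Hom.appLE_comp_appLE (rigSection c t ε) (pullback.fst c t) U
    (box c t U T') T' (box_le_fst c t U T') (le_rigSection_preimage_box c t U T' ε hε)
  have h3 := appLE_of_eq (rigSection_fst c t ε) U T'
    ((le_rigSection_preimage_box c t U T' ε hε).trans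
      ((Opens.map (rigSection c t ε).base).map (homOfLE (box_le_fst c t U T'))).le)
  have h4 := h1.trans h3
  exact congrArg (fun φ => φ.hom s) h4

theorem σφ_fstφ_eq_zero (hε : ∀ x, ε.1 x ∈ U) {z : Γ(C, U)}
    (hzε : (ε.1.appLE U ⊤ (fun x _ => hε x)).hom z = 0) :
    σφ c t U T' ε hε (fstφ c t U T' z) = 0 := by
  rw [σφ_fstφ]
  have h := Scheme.Hom.appLE_comp_appLE t ε.1 U ⊤ T' (fun x _ => hε x) le_top
  have h2 := congrArg (fun φ => φ.hom z) h
  simp only [CommRingCat.hom_comp, RingHom.coe_comp, Function.comp_apply] at h2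
  rw [hzε, map_zero] at h2
  exact h2.symm

/-- the kernel of the evaluation along the section is generated by `z` -/
theorem ker_σφ (hU : IsAffineOpen U) (hT' : IsAffineOpen T') (hε : ∀ x, ε.1 x ∈ U)
    (z : Γ(C, U))
    (hz : ∀ b : Γ(C, U), ∃ (κ : k) (b' : Γ(C, U)), b = (constHomOpen c U).hom κ + z * b')
    (hzε : (ε.1.appLE U ⊤ (fun x _ => hε x)).hom z = 0) :
    RingHom.ker (σφ c t U T' ε hε) = Ideal.span {fstφ c t U T' z} := by
  apply le_antisymm
  · intro a ha
    obtain ⟨r, a', rfl⟩ := exists_eq_boxφ_add_mul c t hU hT' z hz a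
    rw [RingHom.mem_ker, map_add, map_mul, σφ_boxφ, σφ_fstφ_eq_zero c t ε hε hzε, zero_mul,
      add_zero] at ha
    rw [ha, map_zero, zero_add]
    exact Ideal.mul_mem_right _ _ (Ideal.subset_span rfl)
  · rw [Ideal.span_singleton_le_iff_mem, RingHom.mem_ker]
    exact σφ_fstφ_eq_zero c t ε hε hzε

end Fermat.Agent.S25lib.AffBC
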