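/-
S25lib / AffBC / Alg  (helper4)  --  Project L (S25), affine base change: two pieces of pure algebra.
* `projective_trans`: `M` projective over `A`, `A` projective over `R` ⇒ `M` projective over `R`;
* `isBaseChange_of_isPushout`: a base change along `A → A'` is a base change along `R → R'` when
  `A' = R' ⊗[R] A`.
-/
import Mathlib

set_option autoImplicit false

noncomputable section

universe u

namespace Fermat.Agent.S25lib.AffBC

open TensorProduct

/-- projectivity is transitive -/
theorem projective_trans (R A M : Type*) [CommRing R] [CommRing A] [Algebra R A]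
    [AddCommGroup M] [Module R M] [Module A M] [IsScalarTower R A M]
    [Module.Projective R A] [Module.Projective A M] : Module.Projective R M := by
  classical
  obtain ⟨s, hs⟩ := (Module.projective_def' (R := A) (P := M)).mp inferInstance
  have h1 : Module.Projective R (Π₀ _ : M, A) := inferInstance
  have h2 : Module.Projective R (M →₀ A) :=
    Module.Projective.of_equiv' (finsuppLequivDFinsupp (ι := M) (M := A) R).symm
  refine Module.Projective.of_split (s.restrictScalars R)
    ((Finsupp.linearCombination A id).restrictScalars R) ?_
  ext m
  have := congrArg (fun g => g m) hs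
  simpa using this

/-- base change over `A → A'` and a pushout square give base change over `R → R'` -/
theorem isBaseChange_of_isPushout (R R' A A' : Type*) [CommRing R] [CommRing R'] [CommRing A]
    [CommRing A'] [Algebra R R'] [Algebra R A] [Algebra R A'] [Algebra A A'] [Algebra R' A']
    [IsScalarTower R A A'] [IsScalarTower R R' A'] [Algebra.IsPushout R R' A A']
    {P P' : Type*} [AddCommGroup P] [Module R P] [Module A P] [IsScalarTower R A P]
    [AddCommGroup P'] [Module R P'] [Module A P'] [Module A' P'] [Module R' P']
    [IsScalarTower A A' P'] [IsScalarTower R' A' P'] [IsScalarTower R A P']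
    [IsScalarTower R R' P']
    (ρ : P →ₗ[A] P') (hρ : IsBaseChange A' ρ) : IsBaseChange R' (ρ.restrictScalars R) := by
  let e : R' ⊗[R] P ≃ₗ[R'] P' :=
    (Algebra.IsPushout.cancelBaseChange R R' A A' P).symm ≪≫ₗ (hρ.equiv.restrictScalars R')
  refine IsBaseChange.of_equiv e (fun p => ?_)
  show hρ.equiv ((Algebra.IsPushout.cancelBaseChange R R' A A' P).symm (1 ⊗ₜ p)) = ρ p
  rw [Algebra.IsPushout.cancelBaseChange_symm_tmul, map_one, hρ.equiv_tmul, one_smul]

end Fermat.Agent.S25lib.AffBC
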