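/-
S25lib / AffBC / Restrict  (helper4)  --  Project L (S25), affine base change, brick (AB3')

Restriction of sections of an invertible module between affine opens `D ≤ B` is a base change along
`Γ(X, B) → Γ(X, D)` (`res_existsUnique_lift`, `res_isBaseChange`); for `D = X.basicOpen g` it is the
localisation at `g` (`res_isLocalizedModule`).  Obtained from `affine_isBaseChange` for `f = 𝟙 X`.
-/
import Fermat.Agent.S25lib.AffBC.Affine

set_option autoImplicit false

noncomputable section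

universe u

open AlgebraicGeometry CategoryTheory TopologicalSpace Limits

namespace Fermat.Agent.S25lib.AffBC

open Fermat.Agent.S25lib

variable {X : Scheme.{u}}

/-- `pullbackId` maps `pullSec (𝟙 X) s` to `s` -/
theorem pullbackId_hom_pullSec (M : X.Modules) (V : X.Opens) (s : Γ(M, V)) :
    ((Scheme.Modules.pullbackId X).hom.app M).app V (Mod.pullSec (𝟙 X) M V s) = s := by
  have h := unit_conjugateEquiv Adjunction.id
    (Scheme.Modules.pullbackPushforwardAdjunction (𝟙 X))
    (Scheme.Modules.pullbackId X).hom M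
  rw [Scheme.Modules.conjugateEquiv_pullbackId_hom] at h
  have h2 := congrArg (fun φ => (Scheme.Modules.Hom.app φ V) s) h
  exact h2.symm

theorem id_appLE_eq {B D : X.Opens} (hDB : D ≤ B) (hle : D ≤ (𝟙 X) ⁻¹ᵁ B) (a : Γ(X, B)) :
    (Scheme.Hom.appLE (𝟙 X) B D hle).hom a = Mod.resO hDB a := by
  simp only [Scheme.Hom.appLE, Scheme.Hom.id_app]
  rfl

/-- an isomorphism of modules, on the sections over an open set -/
def isoAppEquiv {M N : X.Modules} (e : M ≅ N) (U : X.Opens) : Γ(M, U) ≃ₗ[Γ(X, U)] Γ(N, U) where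
  toFun := e.hom.app U
  invFun := e.inv.app U
  map_add' := fun a b => map_add _ a b
  map_smul' := fun _ _ => Scheme.Modules.Hom.app_smul _ _ _
  left_inv := fun s => Mod.iso_inv_hom_app e U s
  right_inv := fun s => Mod.iso_hom_inv_app e U s

theorem isoAppEquiv_apply {M N : X.Modules} (e : M ≅ N) (U : X.Opens) (s : Γ(M, U)) :
    isoAppEquiv e U s = e.hom.app U s := rfl

/-- **restriction between affine opens is a base change** (universal property) -/
theorem res_existsUnique_lift (M : X.Modules) (hM : Scheme.Modules.IsInvertible M)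
    {B D : X.Opens} (hB : IsAffineOpen B) (hD : IsAffineOpen D) (hDB : D ≤ B)
    (Q : Type u) [AddCommGroup Q] [Module Γ(X, D) Q] (q : Γ(M, B) →+ Q)
    (hq : ∀ (a : Γ(X, B)) (s : Γ(M, B)), q (a • s) = Mod.resO hDB a • q s) :
    ∃! q' : Γ(M, D) →ₗ[Γ(X, D)] Q, ∀ s : Γ(M, B), q' (Mod.res M hDB s) = q s := by
  have hle : D ≤ (𝟙 X) ⁻¹ᵁ B := hDB
  obtain ⟨q₁, hq₁, huniq⟩ := affine_existsUnique_lift (𝟙 X) M hle hB hD hM Q q
    (fun a s => by rw [hq, id_appLE_eq hDB hle])
  let e := isoAppEquiv ((Scheme.Modules.pullbackId X).app M) D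
  have he : ∀ s : Γ(M, B), e (pullRes (𝟙 X) M hle s) = Mod.res M hDB s := by
    intro s
    show ((Scheme.Modules.pullbackId X).hom.app M).app D
      (Mod.res _ hle (Mod.pullSec (𝟙 X) M B s)) = _
    rw [Mod.app_res]
    exact congrArg (Mod.res M hDB) (pullbackId_hom_pullSec M B s)
  refine ⟨q₁ ∘ₗ e.symm.toLinearMap, fun s => ?_, fun q'' hq'' => ?_⟩
  · show q₁ (e.symm (Mod.res M hDB s)) = q s
    rw [← he, LinearEquiv.symm_apply_apply, hq₁]
  · have h1 : q'' ∘ₗ e.toLinearMap = q₁ := by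
      apply huniq
      intro s
      show q'' (e _) = _
      rw [he, hq'']
    rw [← h1]
    ext x
    show q'' x = q'' (e (e.symm x))
    rw [LinearEquiv.apply_symm_apply]

/-- **restriction between affine opens is a base change** -/
theorem res_isBaseChange (M : X.Modules) (hM : Scheme.Modules.IsInvertible M)
    {B D : X.Opens} (hB : IsAffineOpen B) (hD : IsAffineOpen D) (hDB : D ≤ B)
    [Algebra Γ(X, B) Γ(X, D)] [Module Γ(X, B) Γ(M, D)]
    [IsScalarTower Γ(X, B) Γ(X, D) Γ(M, D)]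
    (halg : ∀ a : Γ(X, B), algebraMap Γ(X, B) Γ(X, D) a = Mod.resO hDB a)
    (ρ : Γ(M, B) →ₗ[Γ(X, B)] Γ(M, D)) (hρ : ∀ s, ρ s = Mod.res M hDB s) :
    IsBaseChange Γ(X, D) ρ := by
  apply isBaseChange_of_existsUnique
  intro Q _ _ q hq
  have := res_existsUnique_lift M hM hB hD hDB Q q (fun a s => by rw [hq, halg])
  simpa only [hρ] using this

/-- **sections over a basic open are the localisation** -/
theorem res_isLocalizedModule (M : X.Modules) (hM : Scheme.Modules.IsInvertible M)
    {B : X.Opens} (hB : IsAffineOpen B) (g : Γ(X, B))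
    [Module Γ(X, B) Γ(M, X.basicOpen g)]
    [IsScalarTower Γ(X, B) Γ(X, X.basicOpen g) Γ(M, X.basicOpen g)]
    (ρ : Γ(M, B) →ₗ[Γ(X, B)] Γ(M, X.basicOpen g))
    (hρ : ∀ s, ρ s = Mod.res M (X.basicOpen_le g) s) :
    IsLocalizedModule (.powers g) ρ := by
  have := hB.isLocalization_basicOpen g
  rw [isLocalizedModule_iff_isBaseChange (.powers g) Γ(X, X.basicOpen g)]
  exact res_isBaseChange M hM hB (hB.basicOpen g) (X.basicOpen_le g) (fun a => rfl) ρ hρ

/-- sections over a basic open, elementwise: every section over `D(g)` is `g⁻ⁿ` times the restriction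
of a section over `B`, and a section over `B` dies on `D(g)` iff a power of `g` kills it -/
theorem exists_res_eq_pow_smul_and (M : X.Modules) (hM : Scheme.Modules.IsInvertible M)
    {B : X.Opens} (hB : IsAffineOpen B) (g : Γ(X, B)) :
    (∀ t : Γ(M, X.basicOpen g), ∃ (n : ℕ) (s : Γ(M, B)),
      Mod.res M (X.basicOpen_le g) s = (Mod.resO (X.basicOpen_le g) g) ^ n • t) ∧
    (∀ s : Γ(M, B), Mod.res M (X.basicOpen_le g) s = 0 → ∃ n : ℕ, g ^ n • s = 0) := by
  let _ : Module Γ(X, B) Γ(M, X.basicOpen g) :=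
    Module.compHom _ (algebraMap Γ(X, B) Γ(X, X.basicOpen g))
  have : IsScalarTower Γ(X, B) Γ(X, X.basicOpen g) Γ(M, X.basicOpen g) :=
    ⟨fun a r m => by
      show (a • r) • m = algebraMap Γ(X, B) Γ(X, X.basicOpen g) a • (r • m)
      rw [Algebra.smul_def, mul_smul]⟩
  let ρ : Γ(M, B) →ₗ[Γ(X, B)] Γ(M, X.basicOpen g) :=
    { toFun := Mod.res M (X.basicOpen_le g)
      map_add' := Mod.res_add M _
      map_smul' := fun a s => Mod.res_smul M _ a s }
  have hloc : IsLocalizedModule (.powers g) ρ :=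
    res_isLocalizedModule M hM hB g ρ (fun s => rfl)
  constructor
  · intro t
    obtain ⟨⟨s, ⟨_, n, rfl⟩⟩, hs⟩ := IsLocalizedModule.surj (.powers g) ρ t
    refine ⟨n, s, ?_⟩
    have h2 : (g ^ n) • t = ρ s := hs
    rw [show Mod.res M (X.basicOpen_le g) s = ρ s from rfl, ← h2]
    show algebraMap Γ(X, B) Γ(X, X.basicOpen g) (g ^ n) • t = _
    rw [map_pow]
    rfl
  · intro s hs
    have h0 : ρ s = ρ 0 := by rw [map_zero]; exact hs
    obtain ⟨⟨_, n, rfl⟩, hc⟩ := IsLocalizedModule.exists_of_eq (S := .powers g) h0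
    refine ⟨n, ?_⟩
    have : (g ^ n) • s = (g ^ n) • (0 : Γ(M, B)) := hc
    rw [this, smul_zero]

end Fermat.Agent.S25lib.AffBC
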