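/-
S25lib / AffBC / Proj  (helper4)  --  Project L (S25), affine base change, brick (AB1')

For `M` invertible on a scheme `X` and `B ⊆ X` an affine open, `Γ(M, B)` is a finitely presented, flat,
hence finitely generated projective module over `Γ(X, B)` (locally free of rank one on the basic opens of
`genSet M B`, which span the unit ideal).
-/
import Fermat.Agent.S25lib.AffBC.Restrict
import Fermat.Agent.S25lib.AffBC.Alg
import Fermat.Agent.S25lib.Mod.Triv

set_option autoImplicit false

noncomputable section

universe u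

open AlgebraicGeometry CategoryTheory TopologicalSpace Limits

namespace Fermat.Agent.S25lib.AffBC

open Fermat.Agent.S25lib

variable {X : Scheme.{u}} (M : X.Modules)

/-- around every point of an affine open there is a basic open on which `M` has a generator -/
theorem exists_basicOpen_isGen (hM : Scheme.Modules.IsInvertible M) {B : X.Opens}
    (hB : IsAffineOpen B) (x : X) (hx : x ∈ B) :
    ∃ g : Γ(X, B), x ∈ X.basicOpen g ∧ ∃ σ : Γ(M, X.basicOpen g),
      Mod.IsGen M (X.basicOpen g) σ := by
  obtain ⟨U, hxU, σ, hσ⟩ := Mod.exists_isGen_of_isInvertible hM x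
  obtain ⟨g, hgU, hxg⟩ := hB.exists_basicOpen_le (V := U) ⟨x, hxU⟩ hx
  exact ⟨g, hxg, Mod.res M hgU σ, hσ.res hgU⟩

/-- the functions `g` on `B` such that `M` is trivial over `D(g)` -/
def genSet (B : X.Opens) : Set Γ(X, B) :=
  {g | ∃ σ : Γ(M, X.basicOpen g), Mod.IsGen M (X.basicOpen g) σ}

theorem span_genSet (hM : Scheme.Modules.IsInvertible M) {B : X.Opens} (hB : IsAffineOpen B) :
    Ideal.span (genSet M B) = ⊤ := by
  rw [← hB.self_le_iSup_basicOpen_iff]
  intro x hx
  obtain ⟨g, hxg, hg⟩ := exists_basicOpen_isGen M hM hB x hx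
  exact (Opens.mem_iSup).mpr ⟨⟨g, hg⟩, hxg⟩

/-- sections over an open on which `M` has a generator are free of rank one -/
def genEquiv {U : X.Opens} {σ : Γ(M, U)} (hσ : Mod.IsGen M U σ) : Γ(X, U) ≃ₗ[Γ(X, U)] Γ(M, U) :=
  LinearEquiv.ofBijective (LinearMap.toSpanSingleton Γ(X, U) Γ(M, U) σ) (by
    have := hσ U le_rfl
    simp only [Mod.res_self] at this
    exact this)

theorem free_of_isGen {U : X.Opens} {σ : Γ(M, U)} (hσ : Mod.IsGen M U σ) :
    Module.Free Γ(X, U) Γ(M, U) := Module.Free.of_equiv (genEquiv M hσ)

theorem finite_of_isGen {U : X.Opens} {σ : Γ(M, U)} (hσ : Mod.IsGen M U σ) :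
    Module.Finite Γ(X, U) Γ(M, U) := Module.Finite.equiv (genEquiv M hσ)

/-- **sections of an invertible module over an affine open are finitely presented and flat** -/
theorem finitePresentation_flat_sections (hM : Scheme.Modules.IsInvertible M) {B : X.Opens}
    (hB : IsAffineOpen B) :
    Module.FinitePresentation Γ(X, B) Γ(M, B) ∧ Module.Flat Γ(X, B) Γ(M, B) := by
  let : ∀ g : genSet M B, Module Γ(X, B) Γ(M, X.basicOpen g.1) := fun g =>
    Module.compHom _ (algebraMap Γ(X, B) Γ(X, X.basicOpen g.1))
  have : ∀ g : genSet M B,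
      IsScalarTower Γ(X, B) Γ(X, X.basicOpen g.1) Γ(M, X.basicOpen g.1) := fun g =>
    ⟨fun a r m => by
      show (a • r) • m = algebraMap Γ(X, B) Γ(X, X.basicOpen g.1) a • (r • m)
      rw [Algebra.smul_def, mul_smul]⟩
  let ϕ : ∀ g : genSet M B, Γ(M, B) →ₗ[Γ(X, B)] Γ(M, X.basicOpen g.1) := fun g =>
    { toFun := Mod.res M (X.basicOpen_le g.1)
      map_add' := Mod.res_add M _
      map_smul' := fun a s => Mod.res_smul M _ a s }
  have : ∀ g : genSet M B, IsLocalizedModule (.powers g.1) (ϕ g) := fun g =>
    res_isLocalizedModule M hM hB g.1 (ϕ g) (fun s => rfl)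
  have : ∀ g : genSet M B, IsLocalization.Away g.1 Γ(X, X.basicOpen g.1) := fun g =>
    hB.isLocalization_basicOpen g.1
  constructor
  · refine Module.FinitePresentation.of_localizationSpan' (genSet M B) (span_genSet M hM hB)
      (Rₚ := fun g => Γ(X, X.basicOpen g.1)) ϕ (fun g => ?_)
    obtain ⟨σ, hσ⟩ := g.2
    have := free_of_isGen M hσ
    have := finite_of_isGen M hσ
    exact Module.finitePresentation_of_projective _ _
  · refine Module.flat_of_isLocalized_span Γ(X, B) Γ(M, B) (genSet M B) (span_genSet M hM hB)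
      (fun g => Γ(M, X.basicOpen g.1)) ϕ (fun g => ?_)
    obtain ⟨σ, hσ⟩ := g.2
    have := free_of_isGen M hσ
    have : Module.Flat Γ(X, B) Γ(X, X.basicOpen g.1) :=
      IsLocalization.flat _ (Submonoid.powers g.1)
    exact Module.Flat.trans Γ(X, B) Γ(X, X.basicOpen g.1) Γ(M, X.basicOpen g.1)

theorem finitePresentation_sections (hM : Scheme.Modules.IsInvertible M) {B : X.Opens}
    (hB : IsAffineOpen B) : Module.FinitePresentation Γ(X, B) Γ(M, B) :=
  (finitePresentation_flat_sections M hM hB).1

theorem flat_sections (hM : Scheme.Modules.IsInvertible M) {B : X.Opens}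
    (hB : IsAffineOpen B) : Module.Flat Γ(X, B) Γ(M, B) :=
  (finitePresentation_flat_sections M hM hB).2

/-- **sections of an invertible module over an affine open are finitely generated projective** -/
theorem projective_sections (hM : Scheme.Modules.IsInvertible M) {B : X.Opens}
    (hB : IsAffineOpen B) : Module.Projective Γ(X, B) Γ(M, B) := by
  have := finitePresentation_sections M hM hB
  have := flat_sections M hM hB
  exact Module.Flat.projective_of_finitePresentation

theorem finite_sections (hM : Scheme.Modules.IsInvertible M) {B : X.Opens}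
    (hB : IsAffineOpen B) : Module.Finite Γ(X, B) Γ(M, B) := by
  have := finitePresentation_sections M hM hB
  infer_instance

end Fermat.Agent.S25lib.AffBC
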