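/-
S25lib / AffBC / BoxSec  (helper4)  --  Project L (S25), brick (AB4d): sections over boxes as modules
over the base ring.

`BoxSec N U T' := Γ(N, U × T')` with its structures of module over `Γ(C ×_k T, U × T')` and over `Γ(T, T')`
(scoped instance `boxAlgebra`), restriction maps `BoxSec.res`, `boxRes`;
* `free_box`: `Γ(C ×_k T, U × T')` is free over `Γ(T, T')`;
* `BoxSec.projective`: **(P)** `Γ(N, U × T')` is projective over `Γ(T, T')`;
* `BoxSec.exists_res_eq_pow_smul_and`: `Γ(N, D(z) × T') = Γ(N, U × T')[1/z]`, elementwise;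
* `BoxSec.res_injective_of_regular`: restriction to `D(z) × T'` is injective for a non-zero-divisor `z`.
-/
import Fermat.Agent.S25lib.AffBC.BoxRing
import Fermat.Agent.S25lib.AffBC.Proj
import Fermat.Agent.S26lib.ProdAff.Finite

set_option autoImplicit false

noncomputable section

universe u

open AlgebraicGeometry CategoryTheory CategoryTheory.Limits TopologicalSpace TensorProduct

namespace Fermat.Agent.S25lib.AffBC

open Fermat.Agent.S25lib Fermat.Agent.S26lib.ProdAff Fermat.Agent.S26lib.P5a

variable {k : Type u} [Field k] {C T : Scheme.{u}} {c : C ⟶ Spec (CommRingCat.of k)}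
  {t : T ⟶ Spec (CommRingCat.of k)}

/-- the algebra structure of the sections over a box over the sections of the base -/
scoped instance boxAlgebra (U : C.Opens) (T' : T.Opens) :
    Algebra Γ(T, T') Γ(pullback c t, box c t U T') := (boxφ c t U T').toAlgebra

theorem boxAlgebra_algebraMap (U : C.Opens) (T' : T.Opens) (r : Γ(T, T')) :
    algebraMap Γ(T, T') Γ(pullback c t, box c t U T') r = boxφ c t U T' r := rfl

/-- `Γ(C ×_k T, U × T')` is a free module over `Γ(T, T')` -/
theorem free_box (c : C ⟶ Spec (CommRingCat.of k)) (t : T ⟶ Spec (CommRingCat.of k))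
    {U : C.Opens} {T' : T.Opens} (hU : IsAffineOpen U) (hT' : IsAffineOpen T') :
    Module.Free Γ(T, T') Γ(pullback c t, box c t U T') := by
  let _ : Algebra k Γ(C, U) := (constHomOpen c U).hom.toAlgebra
  let _ : Algebra k Γ(T, T') := (constHomOpen t T').hom.toAlgebra
  let τ := tensorEquiv c t hU hT' (K := k) rfl rfl
  let e : Γ(pullback c t, box c t U T') ≃+* Γ(T, T') ⊗[k] Γ(C, U) :=
    τ.trans (Algebra.TensorProduct.comm k Γ(C, U) Γ(T, T')).toRingEquiv
  have he : ∀ r : Γ(T, T'), e (boxφ c t U T' r) = r ⊗ₜ[k] 1 := by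
    intro r
    show (Algebra.TensorProduct.comm k Γ(C, U) Γ(T, T')) (τ (boxφ c t U T' r)) = _
    rw [show τ (boxφ c t U T' r) = 1 ⊗ₜ[k] r from tensorEquiv_snd c t hU hT' rfl rfl r]
    rfl
  let el : Γ(pullback c t, box c t U T') ≃ₗ[Γ(T, T')] Γ(T, T') ⊗[k] Γ(C, U) :=
    { e.toAddEquiv with
      map_smul' := fun r a => by
        show e (r • a) = r • e a
        rw [Algebra.smul_def, map_mul]
        show e (boxφ c t U T' r) * e a = r • e a
        rw [he, Algebra.smul_def]
        rfl }
  exact Module.Free.of_equiv el.symm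

theorem resO_pow {X : Scheme.{u}} {U V : X.Opens} (h : V ≤ U) (r : Γ(X, U)) (n : ℕ) :
    Mod.resO h (r ^ n) = Mod.resO h r ^ n := map_pow _ _ _

/-- the sections of `N` over the box `U × T'`, as a module over `Γ(T, T')` -/
def BoxSec (N : (pullback c t).Modules) (U : C.Opens) (T' : T.Opens) : Type u :=
  Γ(N, box c t U T')

namespace BoxSec

variable (N : (pullback c t).Modules) (U : C.Opens) (T' : T.Opens)

instance : AddCommGroup (BoxSec N U T') := inferInstanceAs (AddCommGroup Γ(N, box c t U T'))

instance instModuleBox : Module Γ(pullback c t, box c t U T') (BoxSec N U T') :=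
  inferInstanceAs (Module Γ(pullback c t, box c t U T') Γ(N, box c t U T'))

instance instModuleBase : Module Γ(T, T') (BoxSec N U T') :=
  Module.compHom Γ(N, box c t U T') (boxφ c t U T')

instance : IsScalarTower Γ(T, T') Γ(pullback c t, box c t U T') (BoxSec N U T') :=
  ⟨fun r a w => by
    show (r • a) • w = boxφ c t U T' r • (a • w)
    rw [Algebra.smul_def, mul_smul]
    rfl⟩

variable {N U T'}

/-- a section, as an element of `BoxSec` -/
def of (s : Γ(N, box c t U T')) : BoxSec N U T' := s

/-- an element of `BoxSec`, as a section -/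
def val (w : BoxSec N U T') : Γ(N, box c t U T') := w

@[simp] theorem of_val (w : BoxSec N U T') : of (val w) = w := rfl
@[simp] theorem val_of (s : Γ(N, box c t U T')) : val (of s : BoxSec N U T') = s := rfl

theorem smul_def (r : Γ(T, T')) (w : BoxSec N U T') :
    r • w = of (boxφ c t U T' r • val w) := rfl

theorem smul_box_def (a : Γ(pullback c t, box c t U T')) (w : BoxSec N U T') :
    a • w = of (a • val w) := rfl

theorem val_add (w w' : BoxSec N U T') : val (w + w') = val w + val w' := rfl

end BoxSec

/-! ### restriction to a smaller box -/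

theorem box_mono {U' U : C.Opens} (h : U' ≤ U) (T' : T.Opens) :
    box c t U' T' ≤ box c t U T' := fun _ hx => ⟨h hx.1, hx.2⟩

theorem resO_boxφ {U' U : C.Opens} (h : U' ≤ U) (T' : T.Opens) (r : Γ(T, T')) :
    Mod.resO (box_mono (c := c) (t := t) h T') (boxφ c t U T' r) = boxφ c t U' T' r := by
  have := Scheme.Hom.appLE_map (pullback.snd c t) (box_le_snd c t U T')
    (homOfLE (box_mono (c := c) (t := t) h T')).op
  exact congrArg (fun φ => φ.hom r) this

theorem resO_fstφ {U' U : C.Opens} (h : U' ≤ U) (T' : T.Opens) (s : Γ(C, U)) :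
    Mod.resO (box_mono (c := c) (t := t) h T') (fstφ c t U T' s) =
      fstφ c t U' T' (Mod.resO h s) := by
  have h1 := Scheme.Hom.appLE_map (pullback.fst c t) (box_le_fst c t U T')
    (homOfLE (box_mono (c := c) (t := t) h T')).op
  have h2 := Scheme.Hom.map_appLE (pullback.fst c t) (box_le_fst c t U' T') (homOfLE h).op
  have h3 := h1.trans h2.symm
  exact congrArg (fun φ => φ.hom s) h3

/-- restriction of functions to a smaller box, as a morphism of `Γ(T, T')`-algebras -/
def boxRes {U' U : C.Opens} (h : U' ≤ U) (T' : T.Opens) :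
    Γ(pullback c t, box c t U T') →ₐ[Γ(T, T')] Γ(pullback c t, box c t U' T') where
  toRingHom := ((pullback c t).presheaf.map (homOfLE (box_mono (c := c) (t := t) h T')).op).hom
  commutes' := fun r => resO_boxφ h T' r

theorem boxRes_apply {U' U : C.Opens} (h : U' ≤ U) (T' : T.Opens)
    (a : Γ(pullback c t, box c t U T')) :
    boxRes h T' a = Mod.resO (box_mono (c := c) (t := t) h T') a := rfl

namespace BoxSec

variable {N : (pullback c t).Modules} {U' U : C.Opens} {T' : T.Opens}

/-- restriction of sections to a smaller box -/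
def res (h : U' ≤ U) : BoxSec N U T' →ₗ[Γ(T, T')] BoxSec N U' T' where
  toFun w := of (Mod.res N (box_mono (c := c) (t := t) h T') (val w))
  map_add' w w' := Mod.res_add N _ _ _
  map_smul' r w := by
    show Mod.res N (box_mono (c := c) (t := t) h T') (boxφ c t U T' r • val w) =
      boxφ c t U' T' r • Mod.res N (box_mono (c := c) (t := t) h T') (val w)
    rw [Mod.res_smul, resO_boxφ h T' r]

theorem res_apply (h : U' ≤ U) (w : BoxSec N U T') :
    res h w = of (Mod.res N (box_mono (c := c) (t := t) h T') (val w)) := rfl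

theorem res_smul_box (h : U' ≤ U) (a : Γ(pullback c t, box c t U T')) (w : BoxSec N U T') :
    res h (a • w) = boxRes h T' a • res h w :=
  Mod.res_smul N _ a (val w)

/-- **(P)** the sections of an invertible module over an affine box are a projective module over
the base ring -/
theorem projective (hN : Scheme.Modules.IsInvertible N) (hU : IsAffineOpen U)
    (hT' : IsAffineOpen T') : Module.Projective Γ(T, T') (BoxSec N U T') := by
  have hB : IsAffineOpen (box c t U T') := isAffineOpen_box' c t hU hT'
  have h1 : Module.Free Γ(T, T') Γ(pullback c t, box c t U T') := free_box c t hU hT'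
  have h2 : Module.Projective Γ(pullback c t, box c t U T') (BoxSec N U T') :=
    projective_sections N hN hB
  exact projective_trans Γ(T, T') Γ(pullback c t, box c t U T') (BoxSec N U T')

/-- **localisation**: every section over `D(z) × T'` is `z⁻ⁿ` times a section over `U × T'`, and
a section over `U × T'` restricting to `0` is killed by a power of `z` -/
theorem exists_res_eq_pow_smul_and (hN : Scheme.Modules.IsInvertible N) (hU : IsAffineOpen U)
    (hT' : IsAffineOpen T') (z : Γ(C, U)) :
    (∀ v : BoxSec N (C.basicOpen z) T', ∃ (n : ℕ) (w : BoxSec N U T'),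
      res (C.basicOpen_le z) w =
        (fstφ c t (C.basicOpen z) T' (Mod.resO (C.basicOpen_le z) z)) ^ n • v) ∧
    (∀ w : BoxSec N U T', res (C.basicOpen_le z) w = 0 →
      ∃ n : ℕ, (fstφ c t U T' z) ^ n • w = 0) := by
  have hB : IsAffineOpen (box c t U T') := isAffineOpen_box' c t hU hT'
  obtain ⟨h1, h2⟩ := AffBC.exists_res_eq_pow_smul_and N hN hB (fstφ c t U T' z)
  have heq : box c t (C.basicOpen z) T' = (pullback c t).basicOpen (fstφ c t U T' z) :=
    box_basicOpen c t U T' z
  have hle : box c t (C.basicOpen z) T' ≤ (pullback c t).basicOpen (fstφ c t U T' z) :=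
    le_of_eq heq
  have hge : (pullback c t).basicOpen (fstφ c t U T' z) ≤ box c t (C.basicOpen z) T' :=
    le_of_eq heq.symm
  have hzz : fstφ c t (C.basicOpen z) T' (Mod.resO (C.basicOpen_le z) z) =
      Mod.resO hle (Mod.resO ((pullback c t).basicOpen_le (fstφ c t U T' z))
        (fstφ c t U T' z)) := by
    rw [Mod.resO_resO, ← resO_fstφ (C.basicOpen_le z) T' z]
  constructor
  · intro v
    obtain ⟨n, s, hs⟩ := h1 (Mod.res N hge (val v))
    refine ⟨n, of s, ?_⟩
    show Mod.res N (box_mono (c := c) (t := t) (C.basicOpen_le z) T') s = _ • val v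
    have h3 := congrArg (Mod.res N hle) hs
    rw [Mod.res_res, Mod.res_smul, Mod.res_res, Mod.res_self, resO_pow] at h3
    rw [hzz]
    exact h3
  · intro w hw
    refine h2 (val w) ?_
    have h3 : Mod.res N (box_mono (c := c) (t := t) (C.basicOpen_le z) T') (val w) = 0 := hw
    have h4 := congrArg (Mod.res N hge) h3
    rw [Mod.res_res, Mod.res_zero] at h4
    exact h4

/-- restriction to `D(z) × T'` is injective when `z` is a non-zero-divisor -/
theorem res_injective_of_regular (hN : Scheme.Modules.IsInvertible N) (hU : IsAffineOpen U)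
    (hT' : IsAffineOpen T') {z : Γ(C, U)} (hz : IsSMulRegular Γ(C, U) z) :
    Function.Injective (res (N := N) (T' := T') (C.basicOpen_le z)) := by
  have hB : IsAffineOpen (box c t U T') := isAffineOpen_box' c t hU hT'
  have hreg : IsSMulRegular Γ(pullback c t, box c t U T') (fstφ c t U T' z) :=
    isSMulRegular_fstφ c t hU hT' hz
  have hreg' : IsRegular (fstφ c t U T' z) :=
    ⟨isLeftRegular_iff.mpr hreg, fun a b hab => hreg (by
      simpa [mul_comm, smul_eq_mul] using hab)⟩
  have : Module.Flat Γ(pullback c t, box c t U T') (BoxSec N U T') := flat_sections N hN hB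
  have hregN : IsSMulRegular (BoxSec N U T') (fstφ c t U T' z) :=
    Module.Flat.isSMulRegular_of_isRegular hreg'
  rw [injective_iff_map_eq_zero]
  intro w hw
  obtain ⟨n, hn⟩ := (exists_res_eq_pow_smul_and hN hU hT' z).2 w hw
  exact (hregN.pow n) (show fstφ c t U T' z ^ n • w = fstφ c t U T' z ^ n • 0 by
    rw [hn, smul_zero])

end BoxSec

end Fermat.Agent.S25lib.AffBC
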