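/-
S25lib / AffBC / BoxPull  (helper4)  --  Project L (S25), brick (AB4h): pullback of sections over boxes.

`ψ : T₂ ⟶ T₁` over `k`, `T₂' ≤ ψ⁻¹ T₁'`, `N` on `C ×_k T₁`, `pullN c ψ N` its pullback to `C ×_k T₂`.
`BoxSec.pull : BoxSec N U T₁' →+ BoxSec (pullN c ψ N) U T₂'` is semilinear over `boxPullφ` and over `ψ^♯`,
commutes with the restrictions `BoxSec.res`, and is a base change (`pull_isBaseChange`,
`span_range_pull`).
-/
import Fermat.Agent.S25lib.AffBC.BoxSec

set_option autoImplicit false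

noncomputable section

universe u

open AlgebraicGeometry CategoryTheory CategoryTheory.Limits TopologicalSpace
  AlgebraicGeometry.RelPicard NeronModelInfra

namespace Fermat.Agent.S25lib.AffBC

open Fermat.Agent.S25lib Fermat.Agent.S26lib.ProdAff Fermat.Agent.S26lib.P5a

/-- `pullRes` commutes with restriction -/
theorem pullRes_res {X X' : Scheme.{u}} (f : X' ⟶ X) (M : X.Modules) {B B' : X.Opens}
    {D D' : X'.Opens} (hB : B' ≤ B) (hD : D' ≤ D) (hle : D ≤ f ⁻¹ᵁ B) (hle' : D' ≤ f ⁻¹ᵁ B')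
    (s : Γ(M, B)) :
    pullRes f M hle' (Mod.res M hB s) = Mod.res _ hD (pullRes f M hle s) := by
  unfold pullRes
  have h := Mod.pullSec_res f M hB s
  rw [presheaf_map_homOfLE, presheaf_map_homOfLE] at h
  rw [h, Mod.res_res, Mod.res_res]

variable {k : Type u} [Field k] {C T₁ T₂ : Scheme.{u}} (c : C ⟶ Spec (CommRingCat.of k))
  {t₁ : T₁ ⟶ Spec (CommRingCat.of k)} {t₂ : T₂ ⟶ Spec (CommRingCat.of k)}
  (ψ : SchemeHomOver t₂ t₁) {T₁' : T₁.Opens} {T₂' : T₂.Opens} (hle : T₂' ≤ ψ.1 ⁻¹ᵁ T₁')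

/-- the pullback of `N` to `C ×_k T₂` -/
abbrev pullN (N : (pullback c t₁).Modules) : (pullback c t₂).Modules :=
  (Scheme.Modules.pullback (baseChangeSnd c ψ)).obj N

/-- the map of rings `Γ(C ×_k T₁, U × T₁') → Γ(C ×_k T₂, U × T₂')` -/
abbrev boxPullφ (U : C.Opens) :
    Γ(pullback c t₁, box c t₁ U T₁') →+* Γ(pullback c t₂, box c t₂ U T₂') :=
  ((baseChangeSnd c ψ).appLE (box c t₁ U T₁') (box c t₂ U T₂')
    (box_le_preimage_box c ψ U T₁' T₂' hle)).hom

theorem boxPullφ_boxφ (U : C.Opens) (r : Γ(T₁, T₁')) :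
    boxPullφ c ψ hle U (boxφ c t₁ U T₁' r) =
      boxφ c t₂ U T₂' ((ψ.1.appLE T₁' T₂' hle).hom r) :=
  boxφ_comm c ψ hle r

theorem boxPullφ_fstφ (U : C.Opens) (s : Γ(C, U)) :
    boxPullφ c ψ hle U (fstφ c t₁ U T₁' s) = fstφ c t₂ U T₂' s := by
  have h1 := Scheme.Hom.appLE_comp_appLE (baseChangeSnd c ψ) (pullback.fst c t₁) U
    (box c t₁ U T₁') (box c t₂ U T₂') (box_le_fst c t₁ U T₁')
    (box_le_preimage_box c ψ U T₁' T₂' hle)
  have h3 := appLE_of_eq (baseChangeSnd_fst c ψ) U (box c t₂ U T₂')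
    ((box_le_preimage_box c ψ U T₁' T₂' hle).trans
      ((Opens.map (baseChangeSnd c ψ).base).map (homOfLE (box_le_fst c t₁ U T₁'))).le)
  exact congrArg (fun φ => φ.hom s) (h1.trans h3)

theorem boxPullφ_boxRes {U' U : C.Opens} (h : U' ≤ U) (a : Γ(pullback c t₁, box c t₁ U T₁')) :
    boxPullφ c ψ hle U' (boxRes h T₁' a) = boxRes h T₂' (boxPullφ c ψ hle U a) := by
  have h1 := Scheme.Hom.map_appLE (baseChangeSnd c ψ)
    (box_le_preimage_box c ψ U' T₁' T₂' hle)
    (homOfLE (box_mono (c := c) (t := t₁) h T₁')).op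
  have h2 := Scheme.Hom.appLE_map (baseChangeSnd c ψ)
    (box_le_preimage_box c ψ U T₁' T₂' hle)
    (homOfLE (box_mono (c := c) (t := t₂) h T₂')).op
  exact congrArg (fun φ => φ.hom a) (h1.trans h2.symm)

namespace BoxSec

variable (N : (pullback c t₁).Modules)

/-- pullback of the sections over a box -/
def pull (U : C.Opens) : BoxSec N U T₁' →+ BoxSec (pullN c ψ N) U T₂' :=
  AddMonoidHom.mk' (fun w => of (pullRes (baseChangeSnd c ψ) N
    (box_le_preimage_box c ψ U T₁' T₂' hle) (val w)))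
    (fun w w' => pullRes_add _ _ _ (val w) (val w'))

theorem pull_apply (U : C.Opens) (w : BoxSec N U T₁') :
    pull c ψ hle N U w = of (pullRes (baseChangeSnd c ψ) N
      (box_le_preimage_box c ψ U T₁' T₂' hle) (val w)) := rfl

theorem pull_smul_box (U : C.Opens) (a : Γ(pullback c t₁, box c t₁ U T₁'))
    (w : BoxSec N U T₁') :
    pull c ψ hle N U (a • w) = boxPullφ c ψ hle U a • pull c ψ hle N U w :=
  pullRes_smul _ _ _ a (val w)

theorem pull_smul (U : C.Opens) (r : Γ(T₁, T₁')) (w : BoxSec N U T₁') :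
    pull c ψ hle N U (r • w) = (ψ.1.appLE T₁' T₂' hle).hom r • pull c ψ hle N U w := by
  show pull c ψ hle N U (boxφ c t₁ U T₁' r • w) = _
  rw [pull_smul_box, boxPullφ_boxφ]
  rfl

theorem pull_res {U' U : C.Opens} (h : U' ≤ U) (w : BoxSec N U T₁') :
    pull c ψ hle N U' (res h w) = res h (pull c ψ hle N U w) :=
  pullRes_res (baseChangeSnd c ψ) N (box_mono h T₁') (box_mono h T₂') _ _ (val w)

/-- **base change of the sections over a box**: `Γ(N_{T₂}, U × T₂') = Γ(T₂, T₂') ⊗ Γ(N, U × T₁')`,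
in any instance context where `algebraMap` is `ψ^♯` -/
theorem pull_isBaseChange (hN : Scheme.Modules.IsInvertible N) {U : C.Opens}
    (hU : IsAffineOpen U) (hT₁' : IsAffineOpen T₁') (hT₂' : IsAffineOpen T₂')
    [Algebra Γ(T₁, T₁') Γ(T₂, T₂')]
    (halg : ∀ r, algebraMap Γ(T₁, T₁') Γ(T₂, T₂') r = (ψ.1.appLE T₁' T₂' hle).hom r)
    [Module Γ(T₁, T₁') (BoxSec (pullN c ψ N) U T₂')]
    [IsScalarTower Γ(T₁, T₁') Γ(T₂, T₂') (BoxSec (pullN c ψ N) U T₂')]
    (g : BoxSec N U T₁' →ₗ[Γ(T₁, T₁')] BoxSec (pullN c ψ N) U T₂')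
    (hg : ∀ w, g w = pull c ψ hle N U w) : IsBaseChange Γ(T₂, T₂') g := by
  apply IsBaseChange.of_lift_unique
  intro Q _ _ _ _ g'
  let _ : AddCommGroup Q := Module.addCommMonoidToAddCommGroup Γ(T₂, T₂')
  obtain ⟨q', ⟨hq'1, hq'2⟩, huniq⟩ := box_existsUnique_lift c ψ hle N hN hU hT₁' hT₂' Q
    g'.toAddMonoidHom (fun r s => by
      show g' (r • (of s : BoxSec N U T₁')) = _
      rw [map_smul, ← halg, algebraMap_smul]
      rfl)
  let q'lin : BoxSec (pullN c ψ N) U T₂' →ₗ[Γ(T₂, T₂')] Q :=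
    { toFun := q'
      map_add' := map_add q'
      map_smul' := fun r' s' => hq'1 r' s' }
  refine ⟨q'lin, ?_, fun q'' hq'' => ?_⟩
  · ext w
    show q' (g w) = g' w
    rw [hg]
    exact hq'2 (val w)
  · have := huniq q''.toAddMonoidHom ⟨fun r' s' => q''.map_smul r' (of s'), fun s => by
      have h1 : q'' (g (of s)) = g' (of s) :=
        congrArg (fun l => l (of s : BoxSec N U T₁')) hq''
      rw [hg] at h1
      exact h1⟩
    ext x
    exact congrArg (fun l => l x) this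

/-- the pulled back sections generate -/
theorem span_range_pull (hN : Scheme.Modules.IsInvertible N) {U : C.Opens}
    (hU : IsAffineOpen U) (hT₁' : IsAffineOpen T₁') (hT₂' : IsAffineOpen T₂') :
    Submodule.span Γ(T₂, T₂') (Set.range (pull c ψ hle N U)) = ⊤ := by
  set V₀ := Submodule.span Γ(T₂, T₂') (Set.range (pull c ψ hle N U)) with hV₀
  obtain ⟨q', -, huniq⟩ := box_existsUnique_lift c ψ hle N hN hU hT₁' hT₂'
    (BoxSec (pullN c ψ N) U T₂' ⧸ V₀) 0 (fun r s => by simp)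
  have h1 : V₀.mkQ.toAddMonoidHom = q' := huniq V₀.mkQ.toAddMonoidHom
    ⟨fun r' s' => V₀.mkQ.map_smul r' (of s'), fun s => by
      show V₀.mkQ (pull c ψ hle N U (of s)) = 0
      rw [Submodule.mkQ_apply, Submodule.Quotient.mk_eq_zero]
      exact Submodule.subset_span ⟨_, rfl⟩⟩
  have h2 : (0 : BoxSec (pullN c ψ N) U T₂' →+ BoxSec (pullN c ψ N) U T₂' ⧸ V₀) = q' :=
    huniq 0 ⟨fun r' s' => by simp, fun s => rfl⟩
  rw [eq_top_iff]
  intro v _
  have h3 : V₀.mkQ v = 0 := by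
    have := congrArg (fun l => l v) (h1.trans h2.symm)
    exact this
  rwa [Submodule.mkQ_apply, Submodule.Quotient.mk_eq_zero] at h3

/-- **base change of the sections over a box, over the box rings**:
`Γ(N_{T₂}, U × T₂') = Γ(U × T₂') ⊗_{Γ(U × T₁')} Γ(N, U × T₁')`, in any instance context where
`algebraMap` is `boxPullφ` -/
theorem pull_isBaseChange_box (N : (pullback c t₁).Modules)
    (hN : Scheme.Modules.IsInvertible N) {U : C.Opens}
    (hU : IsAffineOpen U) (hT₁' : IsAffineOpen T₁') (hT₂' : IsAffineOpen T₂')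
    [Algebra Γ(pullback c t₁, box c t₁ U T₁') Γ(pullback c t₂, box c t₂ U T₂')]
    (halg : ∀ a, algebraMap Γ(pullback c t₁, box c t₁ U T₁') Γ(pullback c t₂, box c t₂ U T₂') a =
      boxPullφ c ψ hle U a)
    [Module Γ(pullback c t₁, box c t₁ U T₁') (BoxSec (pullN c ψ N) U T₂')]
    [IsScalarTower Γ(pullback c t₁, box c t₁ U T₁') Γ(pullback c t₂, box c t₂ U T₂')
      (BoxSec (pullN c ψ N) U T₂')]
    (g : BoxSec N U T₁' →ₗ[Γ(pullback c t₁, box c t₁ U T₁')] BoxSec (pullN c ψ N) U T₂')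
    (hg : ∀ w, g w = pull c ψ hle N U w) :
    IsBaseChange Γ(pullback c t₂, box c t₂ U T₂') g := by
  let _ : Module Γ(pullback c t₁, box c t₁ U T₁')
      Γ((Scheme.Modules.pullback (baseChangeSnd c ψ)).obj N, box c t₂ U T₂') :=
    ‹Module Γ(pullback c t₁, box c t₁ U T₁') (BoxSec (pullN c ψ N) U T₂')›
  have : IsScalarTower Γ(pullback c t₁, box c t₁ U T₁') Γ(pullback c t₂, box c t₂ U T₂')
      Γ((Scheme.Modules.pullback (baseChangeSnd c ψ)).obj N, box c t₂ U T₂') :=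
    ‹IsScalarTower Γ(pullback c t₁, box c t₁ U T₁') Γ(pullback c t₂, box c t₂ U T₂')
      (BoxSec (pullN c ψ N) U T₂')›
  exact affine_isBaseChange (baseChangeSnd c ψ) N (box_le_preimage_box c ψ U T₁' T₂' hle)
    (isAffineOpen_box' c t₁ hU hT₁') (isAffineOpen_box' c t₂ hU hT₂') hN halg g hg

end BoxSec

end Fermat.Agent.S25lib.AffBC
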