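/-
S25lib / AffBC / Rig  (helper4)  --  Project L (S25), brick (AB4e): the rigidification on a box.

`σ = rigSection c t ε`, `ρ : σ^*N ≅ O_T`, `U ∋ e` affine with `Γ(C, U) = k + z Γ(C, U)`, `z(e) = 0`.
`rigEv : Γ(N, U × T') → Γ(T, T')` (pull back along `σ`, then `ρ`) is `σφ`-semilinear, surjective, with kernel
`z Γ(N, U × T')`; hence for `σ₀` with `rigEv σ₀ = 1`: `Γ(N, U × T') = Γ(T, T') σ₀ ⊕ z Γ(N, U × T')`
(`rig_split`), i.e. helper3's (B2), (B3).  From `affine_isBaseChange` along `σ` and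
`projective_sections`.
-/
import Fermat.Agent.S25lib.AffBC.BoxRing
import Fermat.Agent.S25lib.AffBC.Proj

set_option autoImplicit false

noncomputable section

universe u

open AlgebraicGeometry CategoryTheory CategoryTheory.Limits TopologicalSpace
  AlgebraicGeometry.RelPicard NeronModelInfra

namespace Fermat.Agent.S25lib.AffBC

open Fermat.Agent.S25lib Fermat.Agent.S26lib.ProdAff Fermat.Agent.S26lib.P5a

/-- the kernel of a base-change map out of a projective module -/
theorem mem_ker_smul_top_of_projective {A A' : Type*} [CommRing A] [CommRing A'] [Algebra A A']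
    {P P' : Type*} [AddCommGroup P] [Module A P] [AddCommGroup P'] [Module A P'] [Module A' P']
    [IsScalarTower A A' P'] [Module.Projective A P] {π : P →ₗ[A] P'}
    (hπ : IsBaseChange A' π) {w : P} (hw : π w = 0) :
    w ∈ (RingHom.ker (algebraMap A A') • ⊤ : Submodule A P) := by
  classical
  obtain ⟨s, hs⟩ := (Module.projective_def' (R := A) (P := P)).mp inferInstance
  have hx : Finsupp.linearCombination A id (s w) = w := by
    have := congrArg (fun g => g w) hs
    simpa using this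
  let g : P →ₗ[A] (P →₀ A') := (Finsupp.mapRange.linearMap (Algebra.linearMap A A')) ∘ₗ s
  have hg : g w = 0 := by
    rw [← hπ.lift_eq g w, hw, map_zero]
  have hcoeff : ∀ p, s w p ∈ RingHom.ker (algebraMap A A') := by
    intro p
    have := congrArg (fun c => c p) hg
    simpa [g] using this
  rw [← hx, Finsupp.linearCombination_apply]
  refine Submodule.sum_mem _ fun p _ => ?_
  exact Submodule.smul_mem_smul (hcoeff p) trivial

variable {k : Type u} [Field k] {C T : Scheme.{u}} (c : C ⟶ Spec (CommRingCat.of k))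
  (t : T ⟶ Spec (CommRingCat.of k)) {U : C.Opens} {T' : T.Opens}
  (ε : SchemeHomOver (𝟙 (Spec (CommRingCat.of k))) c)
  (N : (pullback c t).Modules)
  (ρ : (Scheme.Modules.pullback (rigSection c t ε)).obj N ≅ Mod.unitM T)

/-- the pullback of sections of `N` over the box `U × T'` along the section -/
def rigPull (hε : ∀ x, ε.1 x ∈ U) (w : Γ(N, box c t U T')) :
    Γ((Scheme.Modules.pullback (rigSection c t ε)).obj N, T') :=
  pullRes (rigSection c t ε) N (le_rigSection_preimage_box c t U T' ε hε) w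

/-- evaluation of the sections of `N` over `U × T'` along the rigidified section -/
def rigEv (hε : ∀ x, ε.1 x ∈ U) (w : Γ(N, box c t U T')) : Γ(T, T') :=
  Mod.ofUnit T' (ρ.hom.app T' (rigPull c t ε N hε w))

theorem rigEv_add (hε : ∀ x, ε.1 x ∈ U) (w w' : Γ(N, box c t U T')) :
    rigEv c t ε N ρ hε (w + w') = rigEv c t ε N ρ hε w + rigEv c t ε N ρ hε w' := by
  unfold rigEv rigPull
  rw [pullRes_add, map_add]
  rfl

theorem rigEv_smul (hε : ∀ x, ε.1 x ∈ U) (a : Γ(pullback c t, box c t U T'))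
    (w : Γ(N, box c t U T')) :
    rigEv c t ε N ρ hε (a • w) = σφ c t U T' ε hε a * rigEv c t ε N ρ hε w := by
  have h1 : rigPull c t ε N hε (a • w) = σφ c t U T' ε hε a • rigPull c t ε N hε w :=
    pullRes_smul _ _ _ a w
  have h2 : ρ.hom.app T' (σφ c t U T' ε hε a • rigPull c t ε N hε w) =
      σφ c t U T' ε hε a • ρ.hom.app T' (rigPull c t ε N hε w) :=
    Scheme.Modules.Hom.app_smul _ _ _
  exact (congrArg (fun x => Mod.ofUnit T' (ρ.hom.app T' x)) h1).trans
    (congrArg (Mod.ofUnit T') h2)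

theorem rigEv_boxφ_smul (hε : ∀ x, ε.1 x ∈ U) (r : Γ(T, T')) (w : Γ(N, box c t U T')) :
    rigEv c t ε N ρ hε (boxφ c t U T' r • w) = r * rigEv c t ε N ρ hε w := by
  rw [rigEv_smul, σφ_boxφ]

/-- `rigPull` is surjective and its kernel is `ker σφ • Γ(N, U × T')` -/
theorem rigPull_surjective_and_ker (hN : Scheme.Modules.IsInvertible N) (hU : IsAffineOpen U)
    (hT' : IsAffineOpen T') (hε : ∀ x, ε.1 x ∈ U) :
    Function.Surjective (rigPull c t ε N hε (T' := T')) ∧
    ∀ w : Γ(N, box c t U T'), rigPull c t ε N hε w = 0 →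
      w ∈ (RingHom.ker (σφ c t U T' ε hε) • ⊤ :
        Submodule Γ(pullback c t, box c t U T') Γ(N, box c t U T')) := by
  have hB : IsAffineOpen (box c t U T') := isAffineOpen_box' c t hU hT'
  let _ : Algebra Γ(pullback c t, box c t U T') Γ(T, T') := (σφ c t U T' ε hε).toAlgebra
  let _ : Module Γ(pullback c t, box c t U T')
      Γ((Scheme.Modules.pullback (rigSection c t ε)).obj N, T') :=
    Module.compHom _ (algebraMap Γ(pullback c t, box c t U T') Γ(T, T'))
  have : IsScalarTower Γ(pullback c t, box c t U T') Γ(T, T')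
      Γ((Scheme.Modules.pullback (rigSection c t ε)).obj N, T') :=
    ⟨fun a r m => by
      show (a • r) • m = algebraMap Γ(pullback c t, box c t U T') Γ(T, T') a • (r • m)
      rw [Algebra.smul_def, mul_smul]⟩
  let π : Γ(N, box c t U T') →ₗ[Γ(pullback c t, box c t U T')]
      Γ((Scheme.Modules.pullback (rigSection c t ε)).obj N, T') :=
    { toFun := rigPull c t ε N hε
      map_add' := pullRes_add _ _ _
      map_smul' := fun a w => pullRes_smul _ _ _ a w }
  have hπ : IsBaseChange Γ(T, T') π :=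
    affine_isBaseChange (rigSection c t ε) N (le_rigSection_preimage_box c t U T' ε hε) hB hT' hN
      (fun a => rfl) π (fun s => rfl)
  have : Module.Projective Γ(pullback c t, box c t U T') Γ(N, box c t U T') :=
    projective_sections N hN hB
  refine ⟨fun x => ?_, fun w hw => mem_ker_smul_top_of_projective hπ hw⟩
  induction x using hπ.inductionOn with
  | zero => exact ⟨0, map_zero π⟩
  | tmul m => exact ⟨m, rfl⟩
  | smul r x hx =>
    obtain ⟨w, rfl⟩ := hx
    refine ⟨boxφ c t U T' r • w, ?_⟩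
    show π (boxφ c t U T' r • w) = r • π w
    rw [map_smul]
    show σφ c t U T' ε hε (boxφ c t U T' r) • π w = r • π w
    rw [σφ_boxφ]
  | add x y hx hy =>
    obtain ⟨w, rfl⟩ := hx
    obtain ⟨w', rfl⟩ := hy
    exact ⟨w + w', map_add π w w'⟩

/-- `rigEv` as an additive map -/
def rigEvHom (hε : ∀ x, ε.1 x ∈ U) : Γ(N, box c t U T') →+ Γ(T, T') :=
  AddMonoidHom.mk' (rigEv c t ε N ρ hε) (rigEv_add c t ε N ρ hε)

theorem rigEvHom_apply (hε : ∀ x, ε.1 x ∈ U) (w : Γ(N, box c t U T')) :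
    rigEvHom c t ε N ρ hε w = rigEv c t ε N ρ hε w := rfl

theorem rigPull_eq_zero_of_rigEv (hε : ∀ x, ε.1 x ∈ U) (w : Γ(N, box c t U T'))
    (h : rigEv c t ε N ρ hε w = 0) : rigPull c t ε N hε w = 0 := by
  have h1 : ρ.hom.app T' (rigPull c t ε N hε w) = 0 := h
  have h2 := Mod.iso_inv_hom_app ρ T' (rigPull c t ε N hε w)
  rw [h1, map_zero] at h2
  exact h2.symm

/-- there is a section of `N` over `U × T'` with value `1` along the section `e × T'` -/
theorem exists_rigEv_eq_one (hN : Scheme.Modules.IsInvertible N) (hU : IsAffineOpen U)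
    (hT' : IsAffineOpen T') (hε : ∀ x, ε.1 x ∈ U) :
    ∃ σ₀ : Γ(N, box c t U T'), rigEv c t ε N ρ hε σ₀ = 1 := by
  obtain ⟨hsurj, -⟩ := rigPull_surjective_and_ker c t ε N hN hU hT' hε
  obtain ⟨σ₀, hσ₀⟩ := hsurj (ρ.inv.app T' (Mod.toUnit T' 1))
  refine ⟨σ₀, ?_⟩
  unfold rigEv
  rw [hσ₀, Mod.iso_hom_inv_app]
  rfl

/-- the kernel of the evaluation is `z Γ(N, U × T')` -/
theorem exists_eq_smul_of_rigEv_eq_zero (hN : Scheme.Modules.IsInvertible N)
    (hU : IsAffineOpen U) (hT' : IsAffineOpen T') (hε : ∀ x, ε.1 x ∈ U) (z : Γ(C, U))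
    (hz : ∀ b : Γ(C, U), ∃ (κ : k) (b' : Γ(C, U)), b = (constHomOpen c U).hom κ + z * b')
    (hzε : (ε.1.appLE U ⊤ (fun x _ => hε x)).hom z = 0)
    (w : Γ(N, box c t U T')) (hw : rigEv c t ε N ρ hε w = 0) :
    ∃ w', w = fstφ c t U T' z • w' := by
  obtain ⟨-, hker⟩ := rigPull_surjective_and_ker c t ε N hN hU hT' hε
  have h1 := hker w (rigPull_eq_zero_of_rigEv c t ε N ρ hε w hw)
  rw [ker_σφ c t ε hU hT' hε z hz hzε, Submodule.ideal_span_singleton_smul,
    Submodule.mem_smul_pointwise_iff_exists] at h1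
  obtain ⟨w', -, hw'⟩ := h1
  exact ⟨w', hw'.symm⟩

/-- **the rigidification on the box**: for a section `σ₀` of `N` over `U × T'` with value `1` along
the section `e × T'`, `Γ(N, U × T') = Γ(T, T') σ₀ ⊕ z Γ(N, U × T')` -/
theorem rig_split (hN : Scheme.Modules.IsInvertible N) (hU : IsAffineOpen U)
    (hT' : IsAffineOpen T') (hε : ∀ x, ε.1 x ∈ U) (z : Γ(C, U))
    (hz : ∀ b : Γ(C, U), ∃ (κ : k) (b' : Γ(C, U)), b = (constHomOpen c U).hom κ + z * b')
    (hzε : (ε.1.appLE U ⊤ (fun x _ => hε x)).hom z = 0)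
    (σ₀ : Γ(N, box c t U T')) (hev : rigEv c t ε N ρ hε σ₀ = 1) :
    (∀ w : Γ(N, box c t U T'), ∃ (r : Γ(T, T')) (w' : Γ(N, box c t U T')),
        w = boxφ c t U T' r • σ₀ + fstφ c t U T' z • w') ∧
      (∀ (r : Γ(T, T')) (w' : Γ(N, box c t U T')),
        boxφ c t U T' r • σ₀ = fstφ c t U T' z • w' → r = 0) := by
  refine ⟨fun w => ?_, fun r w' h => ?_⟩
  · obtain ⟨w', hw'⟩ := exists_eq_smul_of_rigEv_eq_zero c t ε N ρ hN hU hT' hε z hz hzε
      (w - boxφ c t U T' (rigEv c t ε N ρ hε w) • σ₀) (by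
      rw [← rigEvHom_apply, map_sub, rigEvHom_apply, rigEvHom_apply, rigEv_boxφ_smul, hev,
        mul_one, sub_self])
    exact ⟨rigEv c t ε N ρ hε w, w', by rw [← hw']; abel⟩
  · have h1 := congrArg (rigEv c t ε N ρ hε) h
    rw [rigEv_boxφ_smul, hev, mul_one, rigEv_smul, σφ_fstφ_eq_zero c t ε hε hzε, zero_mul] at h1
    exact h1

end Fermat.Agent.S25lib.AffBC
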