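/-
S25lib / AffBC / Krich  (helper4)  --  Project L (S25), brick (AB4f): the constructor of helper3's
filtration.

For `N` invertible on `C ×_k T` rigidified along `σ = rigSection c t ε`, `U₂ ∋ e` affine, `z ∈ Γ(C, U₂)` a
non-zero-divisor with `Γ(C, U₂) = k + z Γ(C, U₂)`, `z(e) = 0`, `T' ⊆ T` affine open, `R = Γ(T, T')`:
`S = Γ(C ×_k T, D(z) × T')`, `zUnit : Sˣ`, `kB' = ` image of `Γ(C ×_k T, U₂ × T')`, `V = BoxSec N D(z) T'`,
`kL0 = ` image of `BoxSec N U₂ T'`.  **`isBuild`**: `Krich.IsBuild kB' zUnit kL0 (res σ₀)` for every `σ₀`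
with `rigEv σ₀ = 1`; hence `IsFilt`/`IsSFilt` for `L n = z⁻ⁿ kL0`, `b n = z⁻ⁿ σ₀`.
-/
import Fermat.Agent.S25lib.AffBC.BoxSec
import Fermat.Agent.S25lib.AffBC.Rig
import Fermat.Agent.S25lib.Krich.Build

set_option autoImplicit false

noncomputable section

universe u

open AlgebraicGeometry CategoryTheory CategoryTheory.Limits TopologicalSpace
  AlgebraicGeometry.RelPicard NeronModelInfra

namespace Fermat.Agent.S25lib.AffBC

open Fermat.Agent.S25lib Fermat.Agent.S26lib.ProdAff Fermat.Agent.S26lib.P5a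

variable {k : Type u} [Field k] {C T : Scheme.{u}} {c : C ⟶ Spec (CommRingCat.of k)}
  {t : T ⟶ Spec (CommRingCat.of k)}

section Unit

variable {U : C.Opens} (z : Γ(C, U)) (T' : T.Opens)

/-- `z`, restricted to `D(z)` -/
abbrev zRes : Γ(C, C.basicOpen z) := Mod.resO (C.basicOpen_le z) z

theorem isUnit_zRes : IsUnit (zRes z) :=
  RingedSpace.isUnit_res_basicOpen C.toRingedSpace z

/-- `z`, as a function on `D(z) × T'` -/
abbrev zBox : Γ(pullback c t, box c t (C.basicOpen z) T') :=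
  fstφ c t (C.basicOpen z) T' (zRes z)

theorem isUnit_zBox : IsUnit (zBox (c := c) (t := t) z T') := (isUnit_zRes z).map _

/-- `z`, as a unit on `D(z) × T'` -/
def zUnit : (Γ(pullback c t, box c t (C.basicOpen z) T'))ˣ := (isUnit_zBox z T').unit

theorem zUnit_val : ((zUnit (c := c) (t := t) z T' : (Γ(pullback c t, box c t (C.basicOpen z) T'))ˣ) :
    Γ(pullback c t, box c t (C.basicOpen z) T')) = zBox z T' := rfl

theorem boxRes_fstφ_z : boxRes (c := c) (t := t) (C.basicOpen_le z) T' (fstφ c t U T' z) = zBox z T' :=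
  resO_fstφ (C.basicOpen_le z) T' z

end Unit

section Build

variable (ε : SchemeHomOver (𝟙 (Spec (CommRingCat.of k))) c) (N : (pullback c t).Modules)
  (ρ : (Scheme.Modules.pullback (rigSection c t ε)).obj N ≅ Mod.unitM T)
  {U₂ : C.Opens} (z : Γ(C, U₂)) (T' : T.Opens)

/-- the image of `Γ(C ×_k T, U₂ × T')` in `Γ(C ×_k T, D(z) × T')` -/
def kB' : Subalgebra Γ(T, T') Γ(pullback c t, box c t (C.basicOpen z) T') :=
  (boxRes (c := c) (t := t) (C.basicOpen_le z) T').range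

/-- the image of `Γ(N, U₂ × T')` in `Γ(N, D(z) × T')` -/
def kL0 : Submodule Γ(T, T') (BoxSec N (C.basicOpen z) T') :=
  LinearMap.range (BoxSec.res (N := N) (T' := T') (C.basicOpen_le z))

variable {T'} in
/-- **the constructor of the filtration**: helper3's `IsBuild` for the sections of a rigidified
invertible module over the boxes `U₂ × T'`, `D(z) × T'` -/
theorem isBuild (hN : Scheme.Modules.IsInvertible N) (hU₂ : IsAffineOpen U₂)
    (hT' : IsAffineOpen T') (hε : ∀ x, ε.1 x ∈ U₂)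
    (hz : ∀ b : Γ(C, U₂), ∃ (κ : k) (b' : Γ(C, U₂)), b = (constHomOpen c U₂).hom κ + z * b')
    (hzε : (ε.1.appLE U₂ ⊤ (fun x _ => hε x)).hom z = 0)
    (hzreg : IsSMulRegular Γ(C, U₂) z)
    (σ₀ : Γ(N, box c t U₂ T')) (hev : rigEv c t ε N ρ hε σ₀ = 1) :
    Krich.IsBuild (kB' (c := c) (t := t) z T') (zUnit z T') (kL0 N z T')
      (BoxSec.res (C.basicOpen_le z) (BoxSec.of σ₀)) := by
  obtain ⟨hsplit, hfree⟩ := rig_split c t ε N ρ hN hU₂ hT' hε z hz hzε σ₀ hev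
  have hinj := BoxSec.res_injective_of_regular (N := N) hN hU₂ hT' hzreg
  obtain ⟨hloc, -⟩ := BoxSec.exists_res_eq_pow_smul_and (N := N) hN hU₂ hT' z
  have hzsmul : ∀ w : BoxSec N U₂ T',
      BoxSec.res (C.basicOpen_le z) (fstφ c t U₂ T' z • w) =
        (zUnit (c := c) (t := t) z T' : Γ(pullback c t, box c t (C.basicOpen z) T')) •
          BoxSec.res (C.basicOpen_le z) w := by
    intro w
    rw [BoxSec.res_smul_box, boxRes_fstφ_z, zUnit_val]
  refine ⟨?_, ?_, ⟨BoxSec.of σ₀, rfl⟩, ?_, ?_, ?_⟩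
  · rintro _ ⟨a, rfl⟩ _ ⟨w, rfl⟩
    exact ⟨a • w, BoxSec.res_smul_box _ a w⟩
  · exact ⟨fstφ c t U₂ T' z, boxRes_fstφ_z z T'⟩
  · rintro _ ⟨w, rfl⟩
    obtain ⟨r, w', hw⟩ := hsplit (BoxSec.val w)
    refine ⟨r, BoxSec.res (C.basicOpen_le z) (BoxSec.of w'), ⟨_, rfl⟩, ?_⟩
    have hw2 : w = r • BoxSec.of σ₀ + fstφ c t U₂ T' z • BoxSec.of w' := hw
    rw [hw2, map_add, map_smul, hzsmul]
  · rintro r _ ⟨w', rfl⟩ h
    rw [← map_smul, ← hzsmul] at h
    exact hfree r (BoxSec.val w') (hinj h)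
  · intro v
    obtain ⟨n, w, hw⟩ := hloc v
    exact ⟨n, w, hw⟩

end Build

end Fermat.Agent.S25lib.AffBC
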