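/-
S25lib / AffBC / KrichBC  (helper4)  --  Project L (S25): base change of the two-chart complex.

For `ψ : T₂ ⟶ T₁` over `k`, `T₂' ≤ ψ⁻¹ T₁'` affine opens and `N` invertible on `C ×_k T₁`:
`isBC_box` = helper3's `Krich.IsBC` between the complex of `N` over the boxes `U₁ × T₁'`, `D(z) × T₁'`
(filtration `bL zUnit kL0`, generators `bb zUnit (res σ₀)`) and the complex of the pullback of `N`
over `U₁ × T₂'`, `D(z) × T₂'`, through `BoxSec.pull`.  `isBC_box'` = the same for the canonical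
structures `pullAlgebra`, `BoxSec.pullModule`, `BoxSec.pullₗ`.
-/
import Fermat.Agent.S25lib.AffBC.BoxPull
import Fermat.Agent.S25lib.AffBC.Krich
import Fermat.Agent.S25lib.Krich.BaseChange

set_option autoImplicit false

noncomputable section

universe u

open AlgebraicGeometry CategoryTheory CategoryTheory.Limits TopologicalSpace
  AlgebraicGeometry.RelPicard NeronModelInfra

namespace Fermat.Agent.S25lib.AffBC

open Fermat.Agent.S25lib Fermat.Agent.S26lib.ProdAff Fermat.Agent.S26lib.P5a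

variable {k : Type u} [Field k] {C T₁ T₂ : Scheme.{u}} (c : C ⟶ Spec (CommRingCat.of k))
  {t₁ : T₁ ⟶ Spec (CommRingCat.of k)} {t₂ : T₂ ⟶ Spec (CommRingCat.of k)}
  (ψ : SchemeHomOver t₂ t₁) {T₁' : T₁.Opens} {T₂' : T₂.Opens} (hle : T₂' ≤ ψ.1 ⁻¹ᵁ T₁')

theorem boxPullφ_zBox {U : C.Opens} (z : Γ(C, U)) :
    boxPullφ c ψ hle (C.basicOpen z) (zBox z T₁') = zBox z T₂' :=
  boxPullφ_fstφ c ψ hle (C.basicOpen z) (zRes z)

theorem boxPullφ_zUnit_zpow {U : C.Opens} (z : Γ(C, U)) (m : ℤ) :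
    boxPullφ c ψ hle (C.basicOpen z)
      ((zUnit (c := c) (t := t₁) z T₁' ^ m : (Γ(pullback c t₁, box c t₁ (C.basicOpen z) T₁'))ˣ) :
        Γ(pullback c t₁, box c t₁ (C.basicOpen z) T₁')) =
      ((zUnit (c := c) (t := t₂) z T₂' ^ m : (Γ(pullback c t₂, box c t₂ (C.basicOpen z) T₂'))ˣ) :
        Γ(pullback c t₂, box c t₂ (C.basicOpen z) T₂')) := by
  have h1 : Units.map (boxPullφ c ψ hle (C.basicOpen z)).toMonoidHom
      (zUnit (c := c) (t := t₁) z T₁') = zUnit (c := c) (t := t₂) z T₂' := by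
    apply Units.ext
    exact boxPullφ_zBox c ψ hle z
  rw [← h1, ← map_zpow]
  rfl

open BoxSec in
/-- **base change of the two-chart complex of sections over boxes**: helper3's `IsBC` for the
pullback of `N` along `C ×_k T₂ ⟶ C ×_k T₁`, in any instance context where `algebraMap` is `ψ^♯` -/
theorem isBC_box (N : (pullback c t₁).Modules) (hN : Scheme.Modules.IsInvertible N)
    {U₁ U₂ : C.Opens} (hU₁ : IsAffineOpen U₁) (hU₂ : IsAffineOpen U₂) (z : Γ(C, U₂))
    (h₁₂ : C.basicOpen z ≤ U₁) (hT₁' : IsAffineOpen T₁') (hT₂' : IsAffineOpen T₂')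
    [Algebra Γ(T₁, T₁') Γ(T₂, T₂')]
    (halg : ∀ r, algebraMap Γ(T₁, T₁') Γ(T₂, T₂') r = (ψ.1.appLE T₁' T₂' hle).hom r)
    [Module Γ(T₁, T₁') (BoxSec (pullN c ψ N) U₁ T₂')]
    [IsScalarTower Γ(T₁, T₁') Γ(T₂, T₂') (BoxSec (pullN c ψ N) U₁ T₂')]
    [Module Γ(T₁, T₁') (BoxSec (pullN c ψ N) (C.basicOpen z) T₂')]
    [IsScalarTower Γ(T₁, T₁') Γ(T₂, T₂') (BoxSec (pullN c ψ N) (C.basicOpen z) T₂')]
    (σ₀ : Γ(N, box c t₁ U₂ T₁'))
    (fW : BoxSec N U₁ T₁' →ₗ[Γ(T₁, T₁')] BoxSec (pullN c ψ N) U₁ T₂')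
    (hfW : ∀ w, fW w = pull c ψ hle N U₁ w)
    (fV : BoxSec N (C.basicOpen z) T₁' →ₗ[Γ(T₁, T₁')] BoxSec (pullN c ψ N) (C.basicOpen z) T₂')
    (hfV : ∀ v, fV v = pull c ψ hle N (C.basicOpen z) v) :
    Krich.IsBC (BoxSec.res (N := N) (T' := T₁') h₁₂)
      (Krich.bL (zUnit (c := c) (t := t₁) z T₁') (kL0 N z T₁'))
      (Krich.bb (zUnit (c := c) (t := t₁) z T₁') (BoxSec.res (C.basicOpen_le z) (BoxSec.of σ₀)))
      (BoxSec.res (N := pullN c ψ N) (T' := T₂') h₁₂)
      (Krich.bL (zUnit (c := c) (t := t₂) z T₂') (kL0 (pullN c ψ N) z T₂'))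
      (Krich.bb (zUnit (c := c) (t := t₂) z T₂')
        (BoxSec.res (C.basicOpen_le z) (pull c ψ hle N U₂ (BoxSec.of σ₀))))
      fW fV := by
  have hzsmul : ∀ (m : ℤ) (v : BoxSec N (C.basicOpen z) T₁'),
      fV (((zUnit (c := c) (t := t₁) z T₁' ^ m : (Γ(pullback c t₁, box c t₁ (C.basicOpen z) T₁'))ˣ) :
        Γ(pullback c t₁, box c t₁ (C.basicOpen z) T₁')) • v) =
      ((zUnit (c := c) (t := t₂) z T₂' ^ m : (Γ(pullback c t₂, box c t₂ (C.basicOpen z) T₂'))ˣ) :
        Γ(pullback c t₂, box c t₂ (C.basicOpen z) T₂')) • fV v := by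
    intro m v
    rw [hfV, hfV, pull_smul_box, boxPullφ_zUnit_zpow]
  refine ⟨pull_isBaseChange c ψ hle N hN hU₁ hT₁' hT₂' halg fW hfW,
    pull_isBaseChange c ψ hle N hN (hU₂.basicOpen z) hT₁' hT₂' halg fV hfV, ?_, ?_, ?_⟩
  · intro w
    rw [hfV, hfW, pull_res]
  · intro j
    unfold Krich.bb
    rw [hzsmul, hfV, pull_res]
  · intro n
    apply le_antisymm
    · intro v' hv'
      rw [Krich.mem_bL] at hv'
      obtain ⟨w', hw'⟩ := hv'
      have key : ∀ w' : BoxSec (pullN c ψ N) U₂ T₂',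
          ((zUnit (c := c) (t := t₂) z T₂' ^ (-n) : (Γ(pullback c t₂, box c t₂ (C.basicOpen z) T₂'))ˣ) :
            Γ(pullback c t₂, box c t₂ (C.basicOpen z) T₂')) • BoxSec.res (C.basicOpen_le z) w' ∈
          Submodule.span Γ(T₂, T₂')
            (fV '' (Krich.bL (zUnit (c := c) (t := t₁) z T₁') (kL0 N z T₁') n : Set _)) := by
        intro w'
        have hw'top : w' ∈ Submodule.span Γ(T₂, T₂') (Set.range (pull c ψ hle N U₂)) := by
          rw [span_range_pull c ψ hle N hN hU₂ hT₁' hT₂']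
          trivial
        induction hw'top using Submodule.span_induction with
        | mem x hx =>
          obtain ⟨w, rfl⟩ := hx
          apply Submodule.subset_span
          refine ⟨((zUnit (c := c) (t := t₁) z T₁' ^ (-n) :
            (Γ(pullback c t₁, box c t₁ (C.basicOpen z) T₁'))ˣ) :
            Γ(pullback c t₁, box c t₁ (C.basicOpen z) T₁')) • BoxSec.res (C.basicOpen_le z) w, ?_, ?_⟩
          · show _ ∈ Krich.bL _ _ n
            rw [Krich.mem_bL, smul_smul, ← Units.val_mul, ← zpow_add, add_neg_cancel, zpow_zero,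
              Units.val_one, one_smul]
            exact ⟨w, rfl⟩
          · rw [hzsmul, hfV, pull_res]
        | zero => rw [map_zero, smul_zero]; exact zero_mem _
        | add x y _ _ hx hy => rw [map_add, smul_add]; exact add_mem hx hy
        | smul a x _ hx =>
          rw [map_smul, smul_comm]
          exact Submodule.smul_mem _ a hx
      have hv'eq : v' = ((zUnit (c := c) (t := t₂) z T₂' ^ (-n) :
          (Γ(pullback c t₂, box c t₂ (C.basicOpen z) T₂'))ˣ) :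
          Γ(pullback c t₂, box c t₂ (C.basicOpen z) T₂')) • BoxSec.res (C.basicOpen_le z) w' := by
        rw [hw', smul_smul, ← Units.val_mul, ← zpow_add, neg_add_cancel, zpow_zero,
          Units.val_one, one_smul]
      rw [hv'eq]
      exact key w'
    · rw [Submodule.span_le]
      rintro _ ⟨v, hv, rfl⟩
      have hv2 : _ ∈ kL0 N z T₁' := hv
      obtain ⟨w, hw⟩ := hv2
      show _ ∈ Krich.bL _ _ n
      rw [Krich.mem_bL, ← hzsmul]
      refine ⟨pull c ψ hle N U₂ w, ?_⟩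
      rw [← pull_res, hfV]
      exact congrArg _ hw

section Canonical

/-- `ψ^♯ : Γ(T₁, T₁') → Γ(T₂, T₂')` as an algebra structure (not an instance) -/
@[reducible] def pullAlgebra : Algebra Γ(T₁, T₁') Γ(T₂, T₂') :=
  (ψ.1.appLE T₁' T₂' hle).hom.toAlgebra

/-- the induced `Γ(T₁, T₁')`-module structure on sections over `C ×_k T₂` (not an instance) -/
@[reducible] def BoxSec.pullModule (N' : (pullback c t₂).Modules) (U : C.Opens) :
    Module Γ(T₁, T₁') (BoxSec N' U T₂') :=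
  Module.compHom _ (ψ.1.appLE T₁' T₂' hle).hom

theorem BoxSec.pull_isScalarTower (N' : (pullback c t₂).Modules) (U : C.Opens) :
    letI := pullAlgebra ψ hle
    letI := BoxSec.pullModule c ψ hle N' U
    IsScalarTower Γ(T₁, T₁') Γ(T₂, T₂') (BoxSec N' U T₂') :=
  letI := pullAlgebra ψ hle
  letI := BoxSec.pullModule c ψ hle N' U
  IsScalarTower.of_algebraMap_smul fun _ _ => rfl

/-- `BoxSec.pull` as a linear map for the canonical structures -/
def BoxSec.pullₗ (N : (pullback c t₁).Modules) (U : C.Opens) :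
    letI := BoxSec.pullModule c ψ hle (pullN c ψ N) U
    BoxSec N U T₁' →ₗ[Γ(T₁, T₁')] BoxSec (pullN c ψ N) U T₂' :=
  letI := BoxSec.pullModule c ψ hle (pullN c ψ N) U
  { toFun := BoxSec.pull c ψ hle N U
    map_add' := map_add _
    map_smul' := fun r w => BoxSec.pull_smul c ψ hle N U r w }

/-- `isBC_box` for the canonical structures -/
theorem isBC_box' (N : (pullback c t₁).Modules) (hN : Scheme.Modules.IsInvertible N)
    {U₁ U₂ : C.Opens} (hU₁ : IsAffineOpen U₁) (hU₂ : IsAffineOpen U₂) (z : Γ(C, U₂))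
    (h₁₂ : C.basicOpen z ≤ U₁) (hT₁' : IsAffineOpen T₁') (hT₂' : IsAffineOpen T₂')
    (σ₀ : Γ(N, box c t₁ U₂ T₁')) :
    letI := pullAlgebra ψ hle
    letI := BoxSec.pullModule c ψ hle (pullN c ψ N) U₁
    letI := BoxSec.pullModule c ψ hle (pullN c ψ N) (C.basicOpen z)
    haveI := BoxSec.pull_isScalarTower c ψ hle (pullN c ψ N) U₁
    haveI := BoxSec.pull_isScalarTower c ψ hle (pullN c ψ N) (C.basicOpen z)
    Krich.IsBC (BoxSec.res (N := N) (T' := T₁') h₁₂)
      (Krich.bL (zUnit (c := c) (t := t₁) z T₁') (kL0 N z T₁'))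
      (Krich.bb (zUnit (c := c) (t := t₁) z T₁') (BoxSec.res (C.basicOpen_le z) (BoxSec.of σ₀)))
      (BoxSec.res (N := pullN c ψ N) (T' := T₂') h₁₂)
      (Krich.bL (zUnit (c := c) (t := t₂) z T₂') (kL0 (pullN c ψ N) z T₂'))
      (Krich.bb (zUnit (c := c) (t := t₂) z T₂')
        (BoxSec.res (C.basicOpen_le z) (BoxSec.pull c ψ hle N U₂ (BoxSec.of σ₀))))
      (BoxSec.pullₗ c ψ hle N U₁) (BoxSec.pullₗ c ψ hle N (C.basicOpen z)) :=
  letI := pullAlgebra ψ hle
  letI := BoxSec.pullModule c ψ hle (pullN c ψ N) U₁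
  letI := BoxSec.pullModule c ψ hle (pullN c ψ N) (C.basicOpen z)
  haveI := BoxSec.pull_isScalarTower c ψ hle (pullN c ψ N) U₁
  haveI := BoxSec.pull_isScalarTower c ψ hle (pullN c ψ N) (C.basicOpen z)
  isBC_box c ψ hle N hN hU₁ hU₂ z h₁₂ hT₁' hT₂' (fun _ => rfl) σ₀ _ (fun _ => rfl) _
    (fun _ => rfl)

end Canonical

end Fermat.Agent.S25lib.AffBC
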