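/-
S25lib / AffBC / Cech  (helper4)  --  Project L (S25), brick (AB4g): the ring data of (N).

* `cech_box`: the Čech bound `Γ(C, D(z)) = Γ(C, U₁) + z^{-N₀} Γ(C, U₂)` passes to the boxes over every
  affine open `T'` of every `k`-scheme;
* `span_range_res`, `exists_finset_span_eq_top`: finitely many sections over `U × T'` generate the
  sections over `U' × T'` (`U' ≤ U` affine) over `Γ(C ×_k T, U' × T')`;
* `exists_range_sup_eq_top_box`: **(N)** `range ι ⊔ L n = ⊤` for `n ≫ 0` (helper3's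
  `IsSFilt.exists_range_sup_eq_top`).
-/
import Fermat.Agent.S25lib.AffBC.Krich
import Fermat.Agent.S25lib.AffBC.Restrict
import Fermat.Agent.S25lib.Krich.Misc

set_option autoImplicit false

noncomputable section

universe u

open AlgebraicGeometry CategoryTheory CategoryTheory.Limits TopologicalSpace
  AlgebraicGeometry.RelPicard NeronModelInfra

namespace Fermat.Agent.S25lib.AffBC

open Fermat.Agent.S25lib Fermat.Agent.S26lib.ProdAff Fermat.Agent.S26lib.P5a

variable {k : Type u} [Field k] {C T : Scheme.{u}} {c : C ⟶ Spec (CommRingCat.of k)}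
  {t : T ⟶ Spec (CommRingCat.of k)}

/-- **the Čech bound over the base `T'`**: if `Γ(C, D(z)) = Γ(C, U₁) + z^{-N₀} Γ(C, U₂)` then the
same holds for the boxes over every affine open `T'` of every `k`-scheme `T` -/
theorem cech_box {U₁ U₂ : C.Opens} (z : Γ(C, U₂)) (h₁₂ : C.basicOpen z ≤ U₁)
    (hU₂ : IsAffineOpen U₂) {T' : T.Opens} (hT' : IsAffineOpen T') (N₀ : ℕ)
    (hcech : ∀ s : Γ(C, C.basicOpen z), ∃ (f : Γ(C, U₁)) (b : Γ(C, U₂)),
      zRes z ^ N₀ * (s - Mod.resO h₁₂ f) = Mod.resO (C.basicOpen_le z) b)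
    (s : Γ(pullback c t, box c t (C.basicOpen z) T')) :
    ∃ (a : Γ(pullback c t, box c t U₁ T')) (β : Γ(pullback c t, box c t U₂ T')),
      zBox z T' ^ N₀ * (s - boxRes h₁₂ T' a) = boxRes (C.basicOpen_le z) T' β := by
  have hU₁₂ : IsAffineOpen (C.basicOpen z) := hU₂.basicOpen z
  refine box_induction c t hU₁₂ hT'
    (P := fun s => ∃ (a : Γ(pullback c t, box c t U₁ T')) (β : Γ(pullback c t, box c t U₂ T')),
      zBox z T' ^ N₀ * (s - boxRes h₁₂ T' a) = boxRes (C.basicOpen_le z) T' β)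
    ⟨0, 0, by simp⟩ (fun s₀ r => ?_) (fun s s' hs hs' => ?_) s
  · obtain ⟨f, b, hfb⟩ := hcech s₀
    refine ⟨fstφ c t U₁ T' f * boxφ c t U₁ T' r, fstφ c t U₂ T' b * boxφ c t U₂ T' r, ?_⟩
    have e1 : boxRes (c := c) (t := t) h₁₂ T' (fstφ c t U₁ T' f * boxφ c t U₁ T' r) =
        fstφ c t (C.basicOpen z) T' (Mod.resO h₁₂ f) * boxφ c t (C.basicOpen z) T' r := by
      rw [map_mul, boxRes_apply, boxRes_apply, resO_fstφ h₁₂ T' f, resO_boxφ h₁₂ T' r]
    have e2 : boxRes (c := c) (t := t) (C.basicOpen_le z) T'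
        (fstφ c t U₂ T' b * boxφ c t U₂ T' r) =
        fstφ c t (C.basicOpen z) T' (Mod.resO (C.basicOpen_le z) b) *
          boxφ c t (C.basicOpen z) T' r := by
      rw [map_mul, boxRes_apply, boxRes_apply, resO_fstφ (C.basicOpen_le z) T' b,
        resO_boxφ (C.basicOpen_le z) T' r]
    rw [e1, e2, ← hfb, map_mul, map_pow, map_sub]
    ring
  · obtain ⟨a, β, h⟩ := hs
    obtain ⟨a', β', h'⟩ := hs'
    refine ⟨a + a', β + β', ?_⟩
    rw [map_add, map_add, ← h, ← h']
    ring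

/-- the restrictions of the sections over `U₁ × T'` generate the sections over `D(z) × T'` -/
theorem span_range_res (N : (pullback c t).Modules) (hN : Scheme.Modules.IsInvertible N)
    {U' U : C.Opens} (h : U' ≤ U) (hU : IsAffineOpen U) (hU' : IsAffineOpen U') {T' : T.Opens}
    (hT' : IsAffineOpen T') :
    Submodule.span Γ(pullback c t, box c t U' T')
      (Set.range (BoxSec.res (N := N) (T' := T') h)) = ⊤ := by
  set V₀ := Submodule.span Γ(pullback c t, box c t U' T')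
    (Set.range (BoxSec.res (N := N) (T' := T') h)) with hV₀
  have hB : IsAffineOpen (box c t U T') := isAffineOpen_box' c t hU hT'
  have hB' : IsAffineOpen (box c t U' T') := isAffineOpen_box' c t hU' hT'
  obtain ⟨q', -, huniq⟩ := res_existsUnique_lift N hN hB hB' (box_mono h T')
    (BoxSec N U' T' ⧸ V₀) 0 (fun a s => by simp)
  have h1 : V₀.mkQ = q' := huniq V₀.mkQ (fun s => by
    show V₀.mkQ (BoxSec.res h (BoxSec.of s)) = 0
    rw [Submodule.mkQ_apply, Submodule.Quotient.mk_eq_zero]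
    exact Submodule.subset_span ⟨_, rfl⟩)
  have h2 : (0 : BoxSec N U' T' →ₗ[Γ(pullback c t, box c t U' T')] BoxSec N U' T' ⧸ V₀) = q' :=
    huniq 0 (fun s => rfl)
  rw [eq_top_iff]
  intro v _
  have h3 : V₀.mkQ v = 0 := by rw [h1, ← h2]; rfl
  rwa [Submodule.mkQ_apply, Submodule.Quotient.mk_eq_zero] at h3

/-- finitely many sections over `U₁ × T'` generate the sections over `D(z) × T'` -/
theorem exists_finset_span_eq_top (N : (pullback c t).Modules)
    (hN : Scheme.Modules.IsInvertible N)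
    {U' U : C.Opens} (h : U' ≤ U) (hU : IsAffineOpen U) (hU' : IsAffineOpen U') {T' : T.Opens}
    (hT' : IsAffineOpen T') :
    ∃ u : Finset (BoxSec N U T'), Submodule.span Γ(pullback c t, box c t U' T')
      ((fun w => BoxSec.res (N := N) (T' := T') h w) '' (u : Set (BoxSec N U T'))) = ⊤ := by
  have hB : IsAffineOpen (box c t U T') := isAffineOpen_box' c t hU hT'
  have hfin : Module.Finite Γ(pullback c t, box c t U T') (BoxSec N U T') :=
    finite_sections N hN hB
  obtain ⟨u, hu⟩ := hfin.fg_top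
  refine ⟨u, ?_⟩
  rw [eq_top_iff, ← span_range_res N hN h hU hU' hT', Submodule.span_le]
  rintro _ ⟨w, rfl⟩
  have hw : w ∈ Submodule.span Γ(pullback c t, box c t U T') (u : Set (BoxSec N U T')) := by
    rw [hu]; trivial
  induction hw using Submodule.span_induction with
  | mem x hx => exact Submodule.subset_span ⟨x, hx, rfl⟩
  | zero => rw [map_zero]; exact Submodule.zero_mem _
  | add x y _ _ hx hy => rw [map_add]; exact Submodule.add_mem _ hx hy
  | smul a x _ hx =>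
    rw [BoxSec.res_smul_box]
    exact Submodule.smul_mem _ _ hx

/-- **(N)**: `H¹(N(n e)) = 0` for `n ≫ 0`, over every affine base -/
theorem exists_range_sup_eq_top_box
    (ε : SchemeHomOver (𝟙 (Spec (CommRingCat.of k))) c) (N : (pullback c t).Modules)
    (ρ : (Scheme.Modules.pullback (rigSection c t ε)).obj N ≅ Mod.unitM T)
    (hN : Scheme.Modules.IsInvertible N) {U₁ U₂ : C.Opens} (z : Γ(C, U₂))
    (h₁₂ : C.basicOpen z ≤ U₁) (hU₁ : IsAffineOpen U₁) (hU₂ : IsAffineOpen U₂) {T' : T.Opens}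
    (hT' : IsAffineOpen T') (hε : ∀ x, ε.1 x ∈ U₂)
    (hz : ∀ b : Γ(C, U₂), ∃ (κ : k) (b' : Γ(C, U₂)), b = (constHomOpen c U₂).hom κ + z * b')
    (hzε : (ε.1.appLE U₂ ⊤ (fun x _ => hε x)).hom z = 0)
    (hzreg : IsSMulRegular Γ(C, U₂) z) (N₀ : ℕ)
    (hcech : ∀ s : Γ(C, C.basicOpen z), ∃ (f : Γ(C, U₁)) (b : Γ(C, U₂)),
      zRes z ^ N₀ * (s - Mod.resO h₁₂ f) = Mod.resO (C.basicOpen_le z) b)
    (σ₀ : Γ(N, box c t U₂ T')) (hev : rigEv c t ε N ρ hε σ₀ = 1) :
    ∃ n : ℤ, LinearMap.range (BoxSec.res (N := N) (T' := T') h₁₂) ⊔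
      Krich.bL (zUnit (c := c) (t := t) z T') (kL0 N z T') n = ⊤ := by
  have hB := isBuild ε N ρ z hN hU₂ hT' hε hz hzε hzreg σ₀ hev
  obtain ⟨u, hu⟩ := exists_finset_span_eq_top N hN h₁₂ hU₁ (hU₂.basicOpen z) hT'
  refine Krich.IsSFilt.exists_range_sup_eq_top hB.isSFilt hB.isFilt
    (Set.range (boxRes (c := c) (t := t) h₁₂ T')) N₀ ?_ ?_ u hu
  · rintro _ ⟨a, rfl⟩ w
    exact ⟨a • w, BoxSec.res_smul_box h₁₂ a w⟩
  · intro s
    obtain ⟨a, β, hab⟩ := cech_box (c := c) (t := t) z h₁₂ hU₂ hT' N₀ hcech s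
    refine ⟨_, ⟨a, rfl⟩, _, ⟨β, rfl⟩, ?_⟩
    show s = boxRes h₁₂ T' a + _ * boxRes (C.basicOpen_le z) T' β
    rw [← hab, ← mul_assoc, ← mul_pow, ← zUnit_val, Units.inv_mul, one_pow, one_mul]
    ring

end Fermat.Agent.S25lib.AffBC
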