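/-
S25lib / AffBC / KFun  (helper4)  --  Project L (S25): the Krichever map in sections form.

`kfun N z T' (w, l) = w| + (z • l)|  ∈ Γ(N, (U₁ × T') ⊓ (U₂ × T'))` (for `T' = ⊤` this is helper7's
`Hub.Kfun`, same expression).  When `U₁ ⊓ U₂ = D(z)`:
* `surjective_kfun_iff` : `kfun` surjective ↔ `Kmap ι L (-1)` surjective,
* `bijective_kfun_iff`  : `kfun` bijective ↔ `Krich.KrichBij ι L`
for the complex `ι = BoxSec.res`, `L = bL zUnit kL0` of `AffBC/Krich`.
-/
import Fermat.Agent.S25lib.AffBC.Krich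
import Fermat.Agent.S25lib.Krich.Chart

set_option autoImplicit false

noncomputable section

universe u

open AlgebraicGeometry CategoryTheory CategoryTheory.Limits TopologicalSpace
  AlgebraicGeometry.RelPicard NeronModelInfra

namespace Fermat.Agent.S25lib.AffBC

open Fermat.Agent.S25lib Fermat.Agent.S26lib.ProdAff Fermat.Agent.S26lib.P5a

variable {k : Type u} [Field k] {C T : Scheme.{u}} {c : C ⟶ Spec (CommRingCat.of k)}
  {t : T ⟶ Spec (CommRingCat.of k)}

theorem box_inf_box (U₁ U₂ : C.Opens) (T' : T.Opens) :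
    box c t U₁ T' ⊓ box c t U₂ T' = box c t (U₁ ⊓ U₂) T' := by
  ext x
  simp only [Opens.coe_inf, Set.mem_inter_iff, SetLike.mem_coe, mem_box_iff]
  constructor
  · rintro ⟨⟨h1, h2⟩, h3, -⟩
    exact ⟨⟨h1, h3⟩, h2⟩
  · rintro ⟨⟨h1, h3⟩, h2⟩
    exact ⟨⟨h1, h2⟩, h3, h2⟩

variable (N : (pullback c t).Modules) {U₁ U₂ : C.Opens} (z : Γ(C, U₂)) (T' : T.Opens)

/-- the Krichever map in sections form: `(w, l) ↦ w| + (z • l)|` on `(U₁ × T') ⊓ (U₂ × T')` -/
def kfun (p : Γ(N, box c t U₁ T') × Γ(N, box c t U₂ T')) :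
    Γ(N, box c t U₁ T' ⊓ box c t U₂ T') :=
  Mod.res N (inf_le_left : box c t U₁ T' ⊓ box c t U₂ T' ≤ _) p.1 +
    Mod.res N (inf_le_right : box c t U₁ T' ⊓ box c t U₂ T' ≤ _) (fstφ c t U₂ T' z • p.2)

variable {T'}

section

variable (hinf : U₁ ⊓ U₂ = C.basicOpen z)

include hinf

theorem box_inf_eq : box c t U₁ T' ⊓ box c t U₂ T' = box c t (C.basicOpen z) T' := by
  rw [box_inf_box, hinf]

/-- the comparison with the complex: `kfun (w, l) = ι w + z • res l` on `D(z) × T'` -/
theorem res_kfun (h₁₂ : C.basicOpen z ≤ U₁)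
    (p : Γ(N, box c t U₁ T') × Γ(N, box c t U₂ T')) :
    BoxSec.of (Mod.res N (box_inf_eq z hinf).ge (kfun N z T' p)) =
      BoxSec.res h₁₂ (BoxSec.of p.1) +
        (zUnit (c := c) (t := t) z T' : Γ(pullback c t, box c t (C.basicOpen z) T')) •
          BoxSec.res (C.basicOpen_le z) (BoxSec.of p.2) := by
  unfold kfun
  rw [Mod.res_add, Mod.res_res, Mod.res_res, zUnit_val, ← boxRes_fstφ_z, ← BoxSec.res_smul_box]
  rfl

omit hinf in
theorem mem_bL_neg_one_iff (v : BoxSec N (C.basicOpen z) T') :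
    v ∈ Krich.bL (zUnit (c := c) (t := t) z T') (kL0 N z T') (-1) ↔
      ∃ l : BoxSec N U₂ T', v =
        (zUnit (c := c) (t := t) z T' : Γ(pullback c t, box c t (C.basicOpen z) T')) •
          BoxSec.res (C.basicOpen_le z) l := by
  rw [Krich.mem_bL]
  constructor
  · rintro ⟨l, hl⟩
    refine ⟨l, ?_⟩
    rw [hl, smul_smul, ← Units.val_mul, zpow_neg_one, mul_inv_cancel, Units.val_one, one_smul]
  · rintro ⟨l, rfl⟩
    refine ⟨l, ?_⟩
    rw [smul_smul, ← Units.val_mul, zpow_neg_one, inv_mul_cancel, Units.val_one, one_smul]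

/-- `H¹(N(-e)) = 0` in sections form -/
theorem surjective_kfun_iff (h₁₂ : C.basicOpen z ≤ U₁) :
    Function.Surjective (kfun N z T' (U₁ := U₁)) ↔
      Function.Surjective (Krich.Kmap (BoxSec.res (N := N) (T' := T') h₁₂)
        (Krich.bL (zUnit (c := c) (t := t) z T') (kL0 N z T')) (-1)) := by
  have hE := box_inf_eq (c := c) (t := t) (T' := T') z hinf
  rw [Krich.Kmap_surjective_iff]
  constructor
  · intro hs
    rw [eq_top_iff]
    intro v _
    obtain ⟨p, hp⟩ := hs (Mod.res N hE.le (BoxSec.val v))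
    have h1 := res_kfun N z hinf h₁₂ p
    rw [hp, Mod.res_res, Mod.res_self] at h1
    have h2 : v = BoxSec.res h₁₂ (BoxSec.of p.1) +
        (zUnit (c := c) (t := t) z T' : Γ(pullback c t, box c t (C.basicOpen z) T')) •
          BoxSec.res (C.basicOpen_le z) (BoxSec.of p.2) := h1
    rw [h2]
    exact Submodule.add_mem_sup ⟨_, rfl⟩ ((mem_bL_neg_one_iff N z _).mpr ⟨_, rfl⟩)
  · intro htop y
    have hy : BoxSec.of (Mod.res N hE.ge y) ∈
        LinearMap.range (BoxSec.res (N := N) (T' := T') h₁₂) ⊔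
          Krich.bL (zUnit (c := c) (t := t) z T') (kL0 N z T') (-1) := by
      rw [htop]; trivial
    obtain ⟨_, ⟨w, rfl⟩, v₁, hv₁, hsum⟩ := Submodule.mem_sup.mp hy
    obtain ⟨l, rfl⟩ := (mem_bL_neg_one_iff N z _).mp hv₁
    refine ⟨(BoxSec.val w, BoxSec.val l), ?_⟩
    have h1 := res_kfun N z hinf h₁₂ (BoxSec.val w, BoxSec.val l)
    have h2 : Mod.res N hE.ge (kfun N z T' (BoxSec.val w, BoxSec.val l)) = Mod.res N hE.ge y :=
      h1.trans hsum
    have h3 := congrArg (Mod.res N hE.le) h2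
    rwa [Mod.res_res, Mod.res_res, Mod.res_self, Mod.res_self] at h3

/-- **the Krichever condition in sections form is `KrichBij` of the complex** -/
theorem bijective_kfun_iff (hN : Scheme.Modules.IsInvertible N) (hU₂ : IsAffineOpen U₂)
    (hT' : IsAffineOpen T') (hzreg : IsSMulRegular Γ(C, U₂) z) (h₁₂ : C.basicOpen z ≤ U₁) :
    Function.Bijective (kfun N z T' (U₁ := U₁)) ↔
      Krich.KrichBij (BoxSec.res (N := N) (T' := T') h₁₂)
        (Krich.bL (zUnit (c := c) (t := t) z T') (kL0 N z T')) := by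
  have hE := box_inf_eq (c := c) (t := t) (T' := T') z hinf
  have hinj := BoxSec.res_injective_of_regular (N := N) hN hU₂ hT' hzreg
  unfold Krich.KrichBij Function.Bijective
  rw [← surjective_kfun_iff N z hinf h₁₂]
  refine and_congr_left fun _ => ?_
  rw [← LinearMap.ker_eq_bot, Krich.ker_Kmap]
  constructor
  · intro hi
    rw [eq_bot_iff]
    intro w hw
    rw [Krich.mem_H0] at hw
    obtain ⟨l, hl⟩ := (mem_bL_neg_one_iff N z _).mp hw
    have h1 := res_kfun N z hinf h₁₂ (BoxSec.val w, BoxSec.val (-l))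
    have h2 : Mod.res N hE.ge (kfun N z T' (BoxSec.val w, BoxSec.val (-l))) = 0 := by
      refine h1.trans ?_
      show BoxSec.res h₁₂ w + _ • BoxSec.res (C.basicOpen_le z) (-l) = 0
      rw [hl, map_neg, smul_neg, add_neg_cancel]
    have h3 := congrArg (Mod.res N hE.le) h2
    rw [Mod.res_res, Mod.res_self, Mod.res_zero] at h3
    have h4 : kfun N z T' (BoxSec.val w, BoxSec.val (-l)) = kfun N z T' (U₁ := U₁) (0, 0) := by
      rw [h3]
      unfold kfun
      rw [smul_zero, Mod.res_zero, Mod.res_zero, add_zero]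
    have h5 := congrArg Prod.fst (hi h4)
    exact h5
  · intro h0 p p' hpp'
    have h1 := res_kfun N z hinf h₁₂ p
    have h1' := res_kfun N z hinf h₁₂ p'
    rw [hpp'] at h1
    have h2 := h1.symm.trans h1'
    -- `ι (w - w') = z • res (l' - l)`
    have h3 : BoxSec.res h₁₂ (BoxSec.of p.1 - BoxSec.of p'.1) =
        (zUnit (c := c) (t := t) z T' : Γ(pullback c t, box c t (C.basicOpen z) T')) •
          BoxSec.res (C.basicOpen_le z) (BoxSec.of p'.2 - BoxSec.of p.2) := by
      rw [map_sub, map_sub, smul_sub, sub_eq_sub_iff_add_eq_add, add_comm _ (BoxSec.res h₁₂ _)]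
      exact h2
    have h4 : BoxSec.of p.1 - BoxSec.of p'.1 ∈ Krich.H0 (BoxSec.res (N := N) (T' := T') h₁₂)
        (Krich.bL (zUnit (c := c) (t := t) z T') (kL0 N z T')) (-1) := by
      rw [Krich.mem_H0]
      exact (mem_bL_neg_one_iff N z _).mpr ⟨_, h3⟩
    rw [h0, Submodule.mem_bot, sub_eq_zero] at h4
    have h5 : (zUnit (c := c) (t := t) z T' : Γ(pullback c t, box c t (C.basicOpen z) T')) •
        BoxSec.res (C.basicOpen_le z) (BoxSec.of p'.2 - BoxSec.of p.2) = 0 := by
      rw [← h3, h4, sub_self, map_zero]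
    have h6 : BoxSec.res (C.basicOpen_le z) (BoxSec.of p'.2 - BoxSec.of p.2) = 0 := by
      have := congrArg (fun v => ((zUnit (c := c) (t := t) z T')⁻¹ :
        (Γ(pullback c t, box c t (C.basicOpen z) T'))ˣ).val • v) h5
      simpa [smul_smul] using this
    have h7 : BoxSec.of p'.2 - BoxSec.of p.2 = 0 := hinj (h6.trans (map_zero _).symm)
    rw [sub_eq_zero] at h7
    exact Prod.ext h4 h7.symm

end

end Fermat.Agent.S25lib.AffBC
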