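/-
S25lib / AffBC / ZAdapt  (helper4)  --  Project L (S25): the constructor for helper8's charts.

For a `k`-point `ε` of `C` and `Z : Curve.ZChart ε.pt` (resp. `P : Curve.PointChart c ε.pt`) the
hypotheses of `AffBC/Krich.isBuild` and `AffBC/Cech.exists_range_sup_eq_top_box` are discharged:
`ZAdapt.mem₂`, `ZAdapt.split` (`Γ(U₂) = k + zΓ(U₂)`), `ZAdapt.z_vanish` (`ε^♯ z = 0`),
`ZAdapt.regular`, `ZAdapt.cech`; wrappers `exists_sigma_zChart`, `isBuild_zChart`,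
`exists_range_sup_eq_top_pointChart`.
-/
import Fermat.Agent.S25lib.AffBC.Cech
import Fermat.Agent.S25lib.AffBC.KFun
import Fermat.Agent.S25lib.AffBC.KrichBC
import Fermat.Agent.S25lib.Curve.ZChart

set_option autoImplicit false

noncomputable section

universe u

open AlgebraicGeometry CategoryTheory CategoryTheory.Limits TopologicalSpace
  AlgebraicGeometry.RelPicard NeronModelInfra

namespace Fermat.Agent.S25lib.AffBC

open Fermat.Agent.S25lib Fermat.Agent.S26lib Fermat.Agent.S26lib.ProdAff Fermat.Agent.S26lib.P5a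

variable {k : Type u} [Field k] {C T : Scheme.{u}} {c : C ⟶ Spec (CommRingCat.of k)}
  {t : T ⟶ Spec (CommRingCat.of k)} (ε : Prod.KPt c)

/-- a `k`-point lands in every open set containing its point -/
theorem kPt_mem {U : C.Opens} (h : ε.pt ∈ U) (x : Spec (CommRingCat.of k)) : ε.1 x ∈ U := by
  have : ε.1 x = ε.pt := congrArg ε.1 (Subsingleton.elim _ _)
  rw [this]; exact h

namespace ZAdapt

variable (Z : Curve.ZChart ε.pt)

theorem mem₂ (x : Spec (CommRingCat.of k)) : ε.1 x ∈ Z.U₂ := kPt_mem ε Z.mem₂ x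

theorem le₁ : C.basicOpen Z.z ≤ Z.U₁ := Z.inf_eq ▸ inf_le_left

theorem split (b : Γ(C, Z.U₂)) :
    ∃ (κ : k) (b' : Γ(C, Z.U₂)), b = (constHomOpen c Z.U₂).hom κ + Z.z * b' := by
  obtain ⟨κ, hκ⟩ := Z.exists_sub_const_mem c ε b
  obtain ⟨b', hb'⟩ := Ideal.mem_span_singleton'.mp hκ
  refine ⟨κ, b', ?_⟩
  rw [mul_comm, hb']
  ring

theorem z_vanish : (ε.1.appLE Z.U₂ ⊤ (fun x _ => mem₂ ε Z x)).hom Z.z = 0 := by
  by_contra hne
  -- a nonzero element of `Γ(Spec k, ⊤)` is a unit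
  have hu : IsUnit ((ε.1.appLE Z.U₂ ⊤ (fun x _ => mem₂ ε Z x)).hom Z.z) := by
    have e := (Scheme.ΓSpecIso (CommRingCat.of k)).commRingCatIsoToRingEquiv
    have h1 : e ((ε.1.appLE Z.U₂ ⊤ (fun x _ => mem₂ ε Z x)).hom Z.z) ≠ 0 := by
      intro h0
      exact hne (e.injective (h0.trans (map_zero e).symm))
    have h2 : IsUnit (e ((ε.1.appLE Z.U₂ ⊤ (fun x _ => mem₂ ε Z x)).hom Z.z)) :=
      IsUnit.mk0 _ h1
    have := h2.map e.symm
    simpa using this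
  -- the germ of `z` at `e` is in the maximal ideal
  have h1 : (C.presheaf.germ Z.U₂ ε.pt Z.mem₂).hom Z.z ∈
      IsLocalRing.maximalIdeal (C.presheaf.stalk ε.pt) := by
    rw [← Curve.mem_primeIdealOf_iff Z.isAffineOpen₂ ⟨ε.pt, Z.mem₂⟩, Z.span_z]
    exact Ideal.mem_span_singleton_self _
  have h2 : ((Spec (CommRingCat.of k)).presheaf.germ ⊤ (Prod.KPt.o k) trivial).hom
      ((ε.1.appLE Z.U₂ ⊤ (fun x _ => mem₂ ε Z x)).hom Z.z) =
      (ε.1.stalkMap (Prod.KPt.o k)).hom ((C.presheaf.germ Z.U₂ ε.pt Z.mem₂).hom Z.z) := by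
    have h3 := Scheme.Hom.germ_stalkMap_apply ε.1 Z.U₂ (Prod.KPt.o k) Z.mem₂ Z.z
    refine Eq.trans ?_ h3.symm
    have h4 : ε.1.appLE Z.U₂ ⊤ (fun x _ => mem₂ ε Z x) =
        ε.1.app Z.U₂ ≫ (Spec (CommRingCat.of k)).presheaf.map
          (homOfLE (fun x _ => mem₂ ε Z x : (⊤ : (Spec (CommRingCat.of k)).Opens) ≤
            ε.1 ⁻¹ᵁ Z.U₂)).op := rfl
    rw [h4]
    simp only [CommRingCat.hom_comp, RingHom.coe_comp, Function.comp_apply]
    exact TopCat.Presheaf.germ_res_apply _ _ _ _ _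
  rw [IsLocalRing.mem_maximalIdeal, mem_nonunits_iff] at h1
  apply h1
  have h4 := hu.map ((Spec (CommRingCat.of k)).presheaf.germ ⊤ (Prod.KPt.o k) trivial).hom
  rw [h2] at h4
  exact isUnit_of_map_unit (ε.1.stalkMap (Prod.KPt.o k)).hom _ h4

/-- on an integral curve the local parameter is a non-zero-divisor -/
theorem regular [IsIntegral C] (hz0 : Z.z ≠ 0) : IsSMulRegular Γ(C, Z.U₂) Z.z := by
  have : Nonempty Z.U₂ := ⟨⟨ε.pt, Z.mem₂⟩⟩
  have : IsDomain Γ(C, Z.U₂) := inferInstance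
  intro a b hab
  exact mul_left_cancel₀ hz0 hab

omit ε in
theorem resO_sub {X : Scheme.{u}} {U V : X.Opens} (h : V ≤ U) (r r' : Γ(X, U)) :
    Mod.resO h (r - r') = Mod.resO h r - Mod.resO h r' := map_sub _ _ _

omit ε in
theorem pointChart_le₁ {e : C} (P : Curve.PointChart c e) : C.basicOpen P.z ≤ P.U₁ :=
  P.inf_eq ▸ inf_le_left

omit ε in
/-- the Čech bound of a `PointChart`, on `D(z)` -/
theorem cech {e : C} (P : Curve.PointChart c e) (s : Γ(C, C.basicOpen P.z)) :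
    ∃ (f : Γ(C, P.U₁)) (b : Γ(C, P.U₂)),
      zRes P.z ^ P.N₀ * (s - Mod.resO (pointChart_le₁ P) f) =
        Mod.resO (C.basicOpen_le P.z) b := by
  obtain ⟨f, b, h⟩ := P.cech (Mod.resO P.inf_eq.le s)
  refine ⟨f, b, ?_⟩
  have h2 := congrArg (Mod.resO P.inf_eq.ge) h
  rw [Mod.resO_mul, resO_sub, resO_pow] at h2
  have e1 : Mod.resO P.inf_eq.ge (Mod.resO P.inf_eq.le s) = s := by
    rw [Mod.resO_resO, Mod.resO_self]
  have e2 : ∀ x : Γ(C, P.U₂), Mod.resO P.inf_eq.ge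
      ((C.presheaf.map (homOfLE (inf_le_right : P.U₁ ⊓ P.U₂ ≤ P.U₂)).op).hom x) =
      Mod.resO (C.basicOpen_le P.z) x := fun x => Mod.resO_resO _ _ x
  have e3 : ∀ x : Γ(C, P.U₁), Mod.resO P.inf_eq.ge
      ((C.presheaf.map (homOfLE (inf_le_left : P.U₁ ⊓ P.U₂ ≤ P.U₁)).op).hom x) =
      Mod.resO (pointChart_le₁ P) x := fun x => Mod.resO_resO _ _ x
  rw [e1] at h2
  erw [e2, e2, e3] at h2
  exact h2

end ZAdapt

section Wrap

variable (Z : Curve.ZChart ε.pt) (N : (pullback c t).Modules)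
  (ρ : (Scheme.Modules.pullback (rigSection c t ε)).obj N ≅ Mod.unitM T) {T' : T.Opens}

/-- a section over `U₂ × T'` with value `1` along the rigidification -/
theorem exists_sigma_zChart (hN : Scheme.Modules.IsInvertible N) (hT' : IsAffineOpen T') :
    ∃ σ₀ : Γ(N, box c t Z.U₂ T'), rigEv c t ε N ρ (ZAdapt.mem₂ ε Z) σ₀ = 1 :=
  exists_rigEv_eq_one c t ε N ρ hN Z.isAffineOpen₂ hT' (ZAdapt.mem₂ ε Z)

/-- **the constructor for a `ZChart`** -/
theorem isBuild_zChart (hN : Scheme.Modules.IsInvertible N) (hT' : IsAffineOpen T')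
    (hzreg : IsSMulRegular Γ(C, Z.U₂) Z.z) (σ₀ : Γ(N, box c t Z.U₂ T'))
    (hev : rigEv c t ε N ρ (ZAdapt.mem₂ ε Z) σ₀ = 1) :
    Krich.IsBuild (kB' (c := c) (t := t) Z.z T') (zUnit Z.z T') (kL0 N Z.z T')
      (BoxSec.res (C.basicOpen_le Z.z) (BoxSec.of σ₀)) :=
  isBuild ε N ρ Z.z hN Z.isAffineOpen₂ hT' (ZAdapt.mem₂ ε Z) (ZAdapt.split ε Z)
    (ZAdapt.z_vanish ε Z) hzreg σ₀ hev

/-- **(N) for a `PointChart`**: `H¹(N(n e)) = 0` for `n ≫ 0`, over every affine base -/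
theorem exists_range_sup_eq_top_pointChart (P : Curve.PointChart c ε.pt)
    (N : (pullback c t).Modules)
    (ρ : (Scheme.Modules.pullback (rigSection c t ε)).obj N ≅ Mod.unitM T)
    (hN : Scheme.Modules.IsInvertible N) (hT' : IsAffineOpen T')
    (hzreg : IsSMulRegular Γ(C, P.U₂) P.z) :
    ∃ n : ℤ, LinearMap.range (BoxSec.res (N := N) (T' := T') (ZAdapt.pointChart_le₁ P)) ⊔
      Krich.bL (zUnit (c := c) (t := t) P.z T') (kL0 N P.z T') n = ⊤ := by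
  obtain ⟨σ₀, hev⟩ := exists_sigma_zChart ε P.toZChart N ρ hN hT'
  exact exists_range_sup_eq_top_box ε N ρ hN P.z (ZAdapt.pointChart_le₁ P) P.isAffineOpen₁
    P.isAffineOpen₂ hT' (ZAdapt.mem₂ ε P.toZChart) (ZAdapt.split ε P.toZChart)
    (ZAdapt.z_vanish ε P.toZChart) hzreg P.N₀ (ZAdapt.cech P) σ₀ hev

end Wrap


end Fermat.Agent.S25lib.AffBC
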