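/-
S25lib / AffBC / Pack  (helper4)  --  Project L (S25): the complex of a rigidified line bundle, packaged.

* `exists_pack M P hzreg hT'` : for `M : RigidifiedLineBundle c ε t`, `P : Curve.PointChart c ε.pt` and
  an affine open `T'` of the base: `σ₀`, helper3's `IsBuild`, `IsFilt`, projectivity (P), vanishing (N);
* `specTopField F : Field Γ(Spec F, ⊤)` (reducible, not an instance) and the geometric forms of
  helper3's base change theorems for `isBC_box'`: `exists_elt_of_fibre_box`,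
  `bijective_of_isUnit_box`, `krichBij_pull`, `bijective_of_field_box`.
-/
import Fermat.Agent.S25lib.AffBC.ZAdapt
import Fermat.Agent.S25lib.AffBC.KrichBC
import Fermat.Agent.S25lib.Krich.Deg
import Fermat.Agent.S25lib.Krich.Misc

set_option autoImplicit false

noncomputable section

universe u

open AlgebraicGeometry CategoryTheory CategoryTheory.Limits TopologicalSpace
  AlgebraicGeometry.RelPicard NeronModelInfra

namespace Fermat.Agent.S25lib.AffBC

open Fermat.Agent.S25lib Fermat.Agent.S26lib Fermat.Agent.S26lib.ProdAff Fermat.Agent.S26lib.P5a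

variable {k : Type u} [Field k] {C T : Scheme.{u}} {c : C ⟶ Spec (CommRingCat.of k)}
  {t : T ⟶ Spec (CommRingCat.of k)} (ε : Prod.KPt c)

/-- **the complex of a rigidified line bundle over an affine open of the base**, for a `PointChart`
at the base point: a section `σ₀` over `U₂ × T'` with value `1` along the rigidification, helper3's
`IsBuild`, `IsFilt`, projectivity (P) and the vanishing (N) -/
theorem exists_pack (M : RigidifiedLineBundle c ε t) (P : Curve.PointChart c ε.pt)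
    (hzreg : IsSMulRegular Γ(C, P.U₂) P.z) {T' : T.Opens} (hT' : IsAffineOpen T') :
    ∃ σ₀ : Γ(M.L, box c t P.U₂ T'),
      Krich.IsBuild (kB' (c := c) (t := t) P.z T') (zUnit P.z T') (kL0 M.L P.z T')
        (BoxSec.res (C.basicOpen_le P.z) (BoxSec.of σ₀)) ∧
      Krich.IsFilt Γ(T, T') (Krich.bL (zUnit (c := c) (t := t) P.z T') (kL0 M.L P.z T'))
        (Krich.bb (zUnit (c := c) (t := t) P.z T')
          (BoxSec.res (C.basicOpen_le P.z) (BoxSec.of σ₀))) ∧
      Module.Projective Γ(T, T') (BoxSec M.L P.U₁ T') ∧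
      ∃ n : ℤ, LinearMap.range (BoxSec.res (N := M.L) (T' := T') (ZAdapt.pointChart_le₁ P)) ⊔
        Krich.bL (zUnit (c := c) (t := t) P.z T') (kL0 M.L P.z T') n = ⊤ := by
  obtain ⟨ρ⟩ := M.rigidified
  obtain ⟨σ₀, hev⟩ := exists_sigma_zChart ε P.toZChart M.L ρ M.isInvertible hT'
  have hB := isBuild_zChart ε P.toZChart M.L ρ M.isInvertible hT' hzreg σ₀ hev
  exact ⟨σ₀, hB, hB.isFilt, BoxSec.projective M.isInvertible P.isAffineOpen₁ hT',
    exists_range_sup_eq_top_pointChart ε P M.L ρ M.isInvertible hT' hzreg⟩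

/-- `Γ(Spec F, ⊤)` is a field (not an instance) -/
@[reducible] def specTopField (F : Type u) [Field F] : Field Γ(Spec (CommRingCat.of F), ⊤) :=
  ((Scheme.ΓSpecIso (CommRingCat.of F)).commRingCatIsoToRingEquiv.toMulEquiv.isField
    (Field.toIsField F)).toField

section Fibre

variable {T₁ : Scheme.{u}} {t₁ : T₁ ⟶ Spec (CommRingCat.of k)} {T₁' : T₁.Opens}
  (N : (pullback c t₁).Modules) (hN : Scheme.Modules.IsInvertible N)
  {U₁ U₂ : C.Opens} (hU₁ : IsAffineOpen U₁) (hU₂ : IsAffineOpen U₂) (z : Γ(C, U₂))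
  (h₁₂ : C.basicOpen z ≤ U₁) (hT₁' : IsAffineOpen T₁') (σ₀ : Γ(N, box c t₁ U₂ T₁'))

omit ε in
include hN hU₁ hU₂ hT₁' in
/-- over a domain, a fibre at a field-valued point with bijective `K_n` gives an `f`, non-zero at
that point, killing `H¹(N(ne))`, and `H⁰(N(ne)) = 0` (helper3's `IsBC.exists_elt_of_fibre` for the
complex over boxes) -/
theorem exists_elt_of_fibre_box [IsDomain Γ(T₁, T₁')]
    (hfilt : Krich.IsFilt Γ(T₁, T₁') (Krich.bL (zUnit (c := c) (t := t₁) z T₁') (kL0 N z T₁'))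
      (Krich.bb (zUnit (c := c) (t := t₁) z T₁')
        (BoxSec.res (C.basicOpen_le z) (BoxSec.of σ₀))))
    {N₀ : ℤ} (hN₀ : LinearMap.range (BoxSec.res (N := N) (T' := T₁') h₁₂) ⊔
      Krich.bL (zUnit (c := c) (t := t₁) z T₁') (kL0 N z T₁') N₀ = ⊤)
    {F : Type u} [Field F] {t₂ : Spec (CommRingCat.of F) ⟶ Spec (CommRingCat.of k)}
    (ψ : SchemeHomOver t₂ t₁) (hle : (⊤ : (Spec (CommRingCat.of F)).Opens) ≤ ψ.1 ⁻¹ᵁ T₁') {n : ℤ}
    (hb₀ : Function.Bijective (Krich.Kmap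
      (BoxSec.res (N := pullN c ψ N) (T' := (⊤ : (Spec (CommRingCat.of F)).Opens)) h₁₂)
      (Krich.bL (zUnit (c := c) (t := t₂) z ⊤) (kL0 (pullN c ψ N) z ⊤)) n)) :
    ∃ f : Γ(T₁, T₁'), (ψ.1.appLE T₁' ⊤ hle).hom f ≠ 0 ∧
      (∀ x : Krich.H1 (BoxSec.res (N := N) (T' := T₁') h₁₂)
        (Krich.bL (zUnit (c := c) (t := t₁) z T₁') (kL0 N z T₁')) n, f • x = 0) ∧
      Krich.H0 (BoxSec.res (N := N) (T' := T₁') h₁₂)
        (Krich.bL (zUnit (c := c) (t := t₁) z T₁') (kL0 N z T₁')) n = ⊥ := by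
  let _ := specTopField F
  let _ := pullAlgebra ψ hle
  let _ := BoxSec.pullModule c ψ hle (pullN c ψ N) U₁
  let _ := BoxSec.pullModule c ψ hle (pullN c ψ N) (C.basicOpen z)
  have := BoxSec.pull_isScalarTower c ψ hle (pullN c ψ N) U₁
  have := BoxSec.pull_isScalarTower c ψ hle (pullN c ψ N) (C.basicOpen z)
  have : Module.Projective Γ(T₁, T₁') (BoxSec N U₁ T₁') := BoxSec.projective hN hU₁ hT₁'
  have hbc := isBC_box' c ψ hle N hN hU₁ hU₂ z h₁₂ hT₁' (isAffineOpen_top _) σ₀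
  exact Krich.IsBC.exists_elt_of_fibre hbc hfilt hN₀ hb₀

omit ε in
include hN hU₁ hU₂ hT₁' in
/-- `K_n` is bijective after every base change which inverts `f` (helper3's
`IsBC.bijective_of_isUnit` for the complex over boxes) -/
theorem bijective_of_isUnit_box
    (hfilt : Krich.IsFilt Γ(T₁, T₁') (Krich.bL (zUnit (c := c) (t := t₁) z T₁') (kL0 N z T₁'))
      (Krich.bb (zUnit (c := c) (t := t₁) z T₁')
        (BoxSec.res (C.basicOpen_le z) (BoxSec.of σ₀))))
    {T₂ : Scheme.{u}} {t₂ : T₂ ⟶ Spec (CommRingCat.of k)} (ψ : SchemeHomOver t₂ t₁)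
    {T₂' : T₂.Opens} (hle : T₂' ≤ ψ.1 ⁻¹ᵁ T₁') (hT₂' : IsAffineOpen T₂') {n : ℤ}
    (f : Γ(T₁, T₁'))
    (hf : ∀ x : Krich.H1 (BoxSec.res (N := N) (T' := T₁') h₁₂)
      (Krich.bL (zUnit (c := c) (t := t₁) z T₁') (kL0 N z T₁')) n, f • x = 0)
    (hu : IsUnit ((ψ.1.appLE T₁' T₂' hle).hom f))
    (h0 : Krich.H0 (BoxSec.res (N := N) (T' := T₁') h₁₂)
      (Krich.bL (zUnit (c := c) (t := t₁) z T₁') (kL0 N z T₁')) n = ⊥) :
    Function.Bijective (Krich.Kmap (BoxSec.res (N := pullN c ψ N) (T' := T₂') h₁₂)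
      (Krich.bL (zUnit (c := c) (t := t₂) z T₂') (kL0 (pullN c ψ N) z T₂')) n) := by
  let _ := pullAlgebra ψ hle
  let _ := BoxSec.pullModule c ψ hle (pullN c ψ N) U₁
  let _ := BoxSec.pullModule c ψ hle (pullN c ψ N) (C.basicOpen z)
  have := BoxSec.pull_isScalarTower c ψ hle (pullN c ψ N) U₁
  have := BoxSec.pull_isScalarTower c ψ hle (pullN c ψ N) (C.basicOpen z)
  have hbc := isBC_box' c ψ hle N hN hU₁ hU₂ z h₁₂ hT₁' hT₂' σ₀
  exact Krich.IsBC.bijective_of_isUnit hbc hfilt f hf hu h0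

omit ε in
include hN hU₁ hU₂ hT₁' in
/-- `KrichBij` is stable under every base change (helper3's `IsBC.krichBij`) -/
theorem krichBij_pull
    (hfilt : Krich.IsFilt Γ(T₁, T₁') (Krich.bL (zUnit (c := c) (t := t₁) z T₁') (kL0 N z T₁'))
      (Krich.bb (zUnit (c := c) (t := t₁) z T₁')
        (BoxSec.res (C.basicOpen_le z) (BoxSec.of σ₀))))
    {T₂ : Scheme.{u}} {t₂ : T₂ ⟶ Spec (CommRingCat.of k)} (ψ : SchemeHomOver t₂ t₁)
    {T₂' : T₂.Opens} (hle : T₂' ≤ ψ.1 ⁻¹ᵁ T₁') (hT₂' : IsAffineOpen T₂')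
    (hK : Krich.KrichBij (BoxSec.res (N := N) (T' := T₁') h₁₂)
      (Krich.bL (zUnit (c := c) (t := t₁) z T₁') (kL0 N z T₁'))) :
    Krich.KrichBij (BoxSec.res (N := pullN c ψ N) (T' := T₂') h₁₂)
      (Krich.bL (zUnit (c := c) (t := t₂) z T₂') (kL0 (pullN c ψ N) z T₂')) := by
  let _ := pullAlgebra ψ hle
  let _ := BoxSec.pullModule c ψ hle (pullN c ψ N) U₁
  let _ := BoxSec.pullModule c ψ hle (pullN c ψ N) (C.basicOpen z)
  have := BoxSec.pull_isScalarTower c ψ hle (pullN c ψ N) U₁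
  have := BoxSec.pull_isScalarTower c ψ hle (pullN c ψ N) (C.basicOpen z)
  have hbc := isBC_box' c ψ hle N hN hU₁ hU₂ z h₁₂ hT₁' hT₂' σ₀
  exact hbc.krichBij hfilt hK

end Fibre

section FieldExt

/-- **bijectivity of `K_n` is reflected by field extensions** (helper3's `IsBC.bijective_of_field`
for the complex over boxes) -/
theorem bijective_of_field_box {K K' : Type u} [Field K] [Field K']
    {t₁ : Spec (CommRingCat.of K) ⟶ Spec (CommRingCat.of k)}
    {t₂ : Spec (CommRingCat.of K') ⟶ Spec (CommRingCat.of k)} (ψ : SchemeHomOver t₂ t₁)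
    (N : (pullback c t₁).Modules) (hN : Scheme.Modules.IsInvertible N)
    {U₁ U₂ : C.Opens} (hU₁ : IsAffineOpen U₁) (hU₂ : IsAffineOpen U₂) (z : Γ(C, U₂))
    (h₁₂ : C.basicOpen z ≤ U₁) {n : ℤ}
    (h' : Function.Bijective (Krich.Kmap
      (BoxSec.res (N := pullN c ψ N) (T' := (⊤ : (Spec (CommRingCat.of K')).Opens)) h₁₂)
      (Krich.bL (zUnit (c := c) (t := t₂) z ⊤) (kL0 (pullN c ψ N) z ⊤)) n)) :
    Function.Bijective (Krich.Kmap
      (BoxSec.res (N := N) (T' := (⊤ : (Spec (CommRingCat.of K)).Opens)) h₁₂)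
      (Krich.bL (zUnit (c := c) (t := t₁) z ⊤) (kL0 N z ⊤)) n) := by
  have hle : (⊤ : (Spec (CommRingCat.of K')).Opens) ≤
      ψ.1 ⁻¹ᵁ (⊤ : (Spec (CommRingCat.of K)).Opens) := le_top
  let _ := specTopField K
  let _ := specTopField K'
  let _ := pullAlgebra ψ hle
  let _ := BoxSec.pullModule c ψ hle (pullN c ψ N) U₁
  let _ := BoxSec.pullModule c ψ hle (pullN c ψ N) (C.basicOpen z)
  have := BoxSec.pull_isScalarTower c ψ hle (pullN c ψ N) U₁
  have := BoxSec.pull_isScalarTower c ψ hle (pullN c ψ N) (C.basicOpen z)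
  have hbc := isBC_box' c ψ hle N hN hU₁ hU₂ z h₁₂ (isAffineOpen_top _) (isAffineOpen_top _) 0
  exact Krich.IsBC.bijective_of_field hbc h'

end FieldExt

end Fermat.Agent.S25lib.AffBC
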