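/-
S25lib / AffBC / OpensIdeal  (helper4)  --  Project L (S25): opens of an affine scheme and ideals;
vanishing of `H¹` after base change.

* `exists_opens_of_ideal (I : Ideal Γ(T, ⊤))` : the open `U = ⋃_{f ∈ I} D(f)` with
  `range ψ ⊆ U ↔ I.map ψ^♯ = ⊤` for every `ψ : T' ⟶ T`, `T'` affine;
* `exists_hom_of_ringHom` : ring homomorphisms `Γ(T', ⊤) → A` are morphisms `Spec A ⟶ T'` (`T'` affine);
* `map_eq_top_iff_forall_comap`, `exists_opens_of_isOpen` : the open of `T` defined by an open subset of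
  `Spec Γ(T, ⊤)`;
* `appLE_top_top`;
* `map_annihilator_eq_top_of_subsingleton_tensor` : `H` finite, `R' ⊗ H = 0` ⇒ `(Ann H) R' = R'`;
* `kmap_surjective_iff_map_annihilator` : for helper3's `IsBC`, `H¹` of the base change vanishes iff the
  annihilator of `H¹` generates the unit ideal.
-/
import Fermat.Agent.S25lib.Krich.Chart
import Fermat.Agent.S25lib.Krich.Inherit

set_option autoImplicit false

noncomputable section

universe u

open AlgebraicGeometry CategoryTheory CategoryTheory.Limits TopologicalSpace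

namespace Fermat.Agent.S25lib.AffBC

open Fermat.Agent.S25lib

/-- the open subset of an affine scheme defined by an ideal, by its functor of points: `ψ : T' ⟶ T`
(with `T'` affine) lands in it iff the ideal generates the unit ideal on `T'` -/
theorem exists_opens_of_ideal {T : Scheme.{u}} (I : Ideal Γ(T, ⊤)) :
    ∃ U : T.Opens, ∀ {T' : Scheme.{u}} (_ : IsAffine T') (ψ : T' ⟶ T),
      Set.range ψ.base ⊆ (U : Set T) ↔ I.map ψ.appTop.hom = ⊤ := by
  refine ⟨⨆ f : I, T.basicOpen (f : Γ(T, ⊤)), fun {T'} hT' ψ => ?_⟩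
  have h1 : Set.range ψ.base ⊆ ((⨆ f : I, T.basicOpen (f : Γ(T, ⊤)) : T.Opens) : Set T) ↔
      (⊤ : T'.Opens) ≤ ψ ⁻¹ᵁ (⨆ f : I, T.basicOpen (f : Γ(T, ⊤))) := by
    constructor
    · intro h x _
      exact h ⟨x, rfl⟩
    · rintro h _ ⟨x, rfl⟩
      exact h (show x ∈ (⊤ : T'.Opens) from trivial)
  rw [h1]
  have h2 : ψ ⁻¹ᵁ (⨆ f : I, T.basicOpen (f : Γ(T, ⊤))) =
      ⨆ g : (ψ.appTop.hom '' (I : Set Γ(T, ⊤))), T'.basicOpen (g : Γ(T', ⊤)) := by
    ext x
    simp only [Scheme.Hom.coe_preimage, Opens.coe_iSup, Set.preimage_iUnion, Set.mem_iUnion,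
      Set.mem_preimage, SetLike.mem_coe]
    constructor
    · rintro ⟨f, hf⟩
      refine ⟨⟨ψ.appTop.hom f.1, ⟨f.1, f.2, rfl⟩⟩, ?_⟩
      have := Scheme.preimage_basicOpen_top ψ (f : Γ(T, ⊤))
      rw [← this]
      exact hf
    · rintro ⟨⟨_, ⟨f, hf, rfl⟩⟩, hg⟩
      refine ⟨⟨f, hf⟩, ?_⟩
      have := Scheme.preimage_basicOpen_top ψ f
      have hg' : x ∈ T'.basicOpen (ψ.appTop f) := hg
      rw [← this] at hg'
      exact hg'
  rw [h2, (isAffineOpen_top T').self_le_iSup_basicOpen_iff, Ideal.map]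

/-- a ring homomorphism from the global sections of an affine scheme to `A` is a morphism from
`Spec A` -/
theorem exists_hom_of_ringHom {T' : Scheme.{u}} [IsAffine T'] {A : Type u} [CommRing A]
    (φ : Γ(T', ⊤) →+* A) :
    ∃ x : Spec (CommRingCat.of A) ⟶ T', ∀ r,
      (Scheme.ΓSpecIso (CommRingCat.of A)).hom.hom (x.appTop.hom r) = φ r := by
  refine ⟨Spec.map (CommRingCat.ofHom φ) ≫ T'.isoSpec.inv, fun r => ?_⟩
  have h1 : (Spec.map (CommRingCat.ofHom φ) ≫ T'.isoSpec.inv) ≫ T'.toSpecΓ =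
      Spec.map (CommRingCat.ofHom φ) := by
    rw [Category.assoc]
    have : T'.isoSpec.inv ≫ T'.toSpecΓ = 𝟙 _ := T'.isoSpec.inv_hom_id
    rw [this]
    exact Category.comp_id _
  have h2 := Scheme.toSpecΓ_naturality (Spec.map (CommRingCat.ofHom φ) ≫ T'.isoSpec.inv)
  rw [h1, ← SpecMap_ΓSpecIso_hom, ← Spec.map_comp] at h2
  have h3 := Spec.map_injective h2
  exact (congrArg (fun ψ => ψ.hom r) h3).symm

theorem appLE_top_top {X Y : Scheme.{u}} (f : X ⟶ Y) (h : (⊤ : X.Opens) ≤ f ⁻¹ᵁ ⊤) :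
    f.appLE ⊤ ⊤ h = f.appTop := by
  have h1 : X.presheaf.map (homOfLE h).op = 𝟙 _ := X.presheaf.map_id _
  show f.app ⊤ ≫ X.presheaf.map (homOfLE h).op = f.app ⊤
  rw [h1]
  exact Category.comp_id _

/-- an ideal generates the unit ideal iff no prime of the target contains its image -/
theorem map_eq_top_iff_forall_comap {R R' : Type*} [CommRing R] [CommRing R'] (φ : R →+* R')
    (J : Ideal R) :
    J.map φ = ⊤ ↔
      ∀ q : PrimeSpectrum R', PrimeSpectrum.comap φ q ∉ PrimeSpectrum.zeroLocus (J : Set R) := by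
  constructor
  · intro h q hq
    rw [PrimeSpectrum.mem_zeroLocus] at hq
    have h1 : J.map φ ≤ q.asIdeal := Ideal.map_le_iff_le_comap.mpr hq
    rw [h] at h1
    exact q.2.ne_top (top_le_iff.mp h1)
  · intro h
    by_contra hne
    obtain ⟨𝔪, h𝔪, hle⟩ := Ideal.exists_le_maximal _ hne
    exact h ⟨𝔪, h𝔪.isPrime⟩ (by
      rw [PrimeSpectrum.mem_zeroLocus]
      exact Ideal.map_le_iff_le_comap.mp hle)

/-- the open subscheme of `T` defined by an open subset of `Spec Γ(T, ⊤)`, by its functor of points -/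
theorem exists_opens_of_isOpen {T : Scheme.{u}} (O : Set (PrimeSpectrum Γ(T, ⊤))) (hO : IsOpen O) :
    ∃ U : T.Opens, ∀ {T' : Scheme.{u}} (_ : IsAffine T') (ψ : T' ⟶ T),
      Set.range ψ.base ⊆ (U : Set T) ↔
        ∀ q : PrimeSpectrum Γ(T', ⊤), PrimeSpectrum.comap ψ.appTop.hom q ∈ O := by
  obtain ⟨J, hJ⟩ := (PrimeSpectrum.isClosed_iff_zeroLocus_ideal Oᶜ).mp hO.isClosed_compl
  obtain ⟨U, hU⟩ := exists_opens_of_ideal J
  refine ⟨U, fun {T'} hT' ψ => ?_⟩
  rw [hU hT' ψ, map_eq_top_iff_forall_comap, ← hJ]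
  simp only [Set.mem_compl_iff, not_not]

section Algebra

open Submodule TensorProduct

section Alg

variable {R : Type*} [CommRing R] {R' : Type*} [CommRing R'] [Algebra R R']

/-- a finite module whose base change vanishes: its annihilator generates the unit ideal -/
theorem map_annihilator_eq_top_of_subsingleton_tensor (H : Type*) [AddCommGroup H] [Module R H]
    [Module.Finite R H] (h0 : Subsingleton (R' ⊗[R] H)) :
    (Module.annihilator R H).map (algebraMap R R') = ⊤ := by
  by_contra hne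
  obtain ⟨𝔪', h𝔪', hle⟩ := Ideal.exists_le_maximal _ hne
  let 𝕂 := R' ⧸ 𝔪'
  let _ : Field 𝕂 := Ideal.Quotient.field 𝔪'
  have e := AlgebraTensorModule.cancelBaseChange R R' 𝕂 𝕂 H
  have : Subsingleton (𝕂 ⊗[R'] (R' ⊗[R] H)) := inferInstance
  have h1 : Subsingleton (𝕂 ⊗[R] H) := e.symm.toEquiv.subsingleton
  obtain ⟨f, hf, hfx⟩ := Krich.exists_smul_eq_zero_of_tensor_field H 𝕂 h1
  apply hf
  have hfa : f ∈ Module.annihilator R H := Module.mem_annihilator.mpr hfx
  have h2 : algebraMap R R' f ∈ 𝔪' := hle (Ideal.mem_map_of_mem _ hfa)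
  rw [IsScalarTower.algebraMap_apply R R' 𝕂]
  exact Ideal.Quotient.eq_zero_iff_mem.mpr h2

end Alg

section BC

variable {R : Type*} [CommRing R] {R' : Type*} [CommRing R'] [Algebra R R']
  {W V : Type*} [AddCommGroup W] [Module R W] [AddCommGroup V] [Module R V]
  {W' V' : Type*} [AddCommGroup W'] [Module R W'] [Module R' W'] [IsScalarTower R R' W']
  [AddCommGroup V'] [Module R V'] [Module R' V'] [IsScalarTower R R' V']
  {ι : W →ₗ[R] V} {L : ℤ → Submodule R V} {b : ℤ → V}
  {ι' : W' →ₗ[R'] V'} {L' : ℤ → Submodule R' V'} {b' : ℤ → V'}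
  {fW : W →ₗ[R] W'} {fV : V →ₗ[R] V'}

/-- `H¹` of the base change vanishes iff the annihilator of `H¹` generates the unit ideal -/
theorem kmap_surjective_iff_map_annihilator (hbc : Krich.IsBC ι L b ι' L' b' fW fV) (n : ℤ)
    [Module.Finite R (Krich.H1 ι L n)] :
    Function.Surjective (Krich.Kmap ι' L' n) ↔
      (Module.annihilator R (Krich.H1 ι L n)).map (algebraMap R R') = ⊤ := by
  constructor
  · intro hs
    exact map_annihilator_eq_top_of_subsingleton_tensor _ (hbc.subsingleton_tensor_H1 hs)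
  · intro htop
    rw [Krich.Kmap_surjective_iff, eq_top_iff]
    -- every element of the extended ideal maps `V'` into `range ι' ⊔ L' n`
    have key : ∀ r' ∈ (Module.annihilator R (Krich.H1 ι L n)).map (algebraMap R R'),
        ∀ v' : V', r' • v' ∈ LinearMap.range ι' ⊔ L' n := by
      intro r' hr'
      refine Submodule.span_induction (p := fun r' _ => ∀ v' : V', r' • v' ∈
        LinearMap.range ι' ⊔ L' n) ?_ ?_ ?_ ?_ hr'
      · rintro _ ⟨a, ha, rfl⟩ v'
        have hv' : v' ∈ span R' (Set.range fV) := by rw [hbc.span_range_fV]; trivial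
        induction hv' using Submodule.span_induction with
        | mem x hx =>
          obtain ⟨v, rfl⟩ := hx
          have h1 : a • v ∈ LinearMap.range ι ⊔ L n := by
            have := Module.mem_annihilator.mp ha ((LinearMap.range ι ⊔ L n).mkQ v)
            rwa [← map_smul, mkQ_apply, Quotient.mk_eq_zero] at this
          obtain ⟨y, ⟨w, rfl⟩, l, hl, hsum⟩ := mem_sup.mp h1
          rw [algebraMap_smul, ← map_smul, ← hsum, map_add, hbc.comm]
          exact add_mem (mem_sup_left ⟨fW w, rfl⟩) (mem_sup_right (hbc.map_mem_L hl))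
        | zero => rw [smul_zero]; exact zero_mem _
        | add x y _ _ hx hy => rw [smul_add]; exact add_mem hx hy
        | smul c x _ hx => rw [smul_comm]; exact Submodule.smul_mem _ c hx
      · intro v'; rw [zero_smul]; exact zero_mem _
      · intro x y _ _ hx hy v'; rw [add_smul]; exact add_mem (hx v') (hy v')
      · intro c x _ hx v'
        rw [smul_eq_mul, mul_smul]
        exact Submodule.smul_mem _ c (hx v')
    intro v' _
    have := key 1 (by rw [htop]; trivial) v'
    rwa [one_smul] at this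

end BC

end Algebra

end Fermat.Agent.S25lib.AffBC
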