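/-
S25lib / AffBC / HilbLocus  (helper4)  --  Project L (S25): the fields `framedLocus` and `commonFrame` of
helper7's `Hub.ChartCore`, for the concrete points `Hub.HPt` (ideals of `Γ(T,⊤) ⊗[k] Γ(C,U₁)`):
helper5's `Hilb.isFramed_push_iff`, `Hilb.exists_common_frame_of_isPt` + `AffBC/OpensIdeal`.
-/
import Fermat.Agent.S25lib.AffBC.OpensIdeal
import Fermat.Agent.S25lib.AffBC.Pack
import Fermat.Agent.S25lib.Hub.HilbPt
import Fermat.Agent.S25lib.Hilb.CommonFrame

set_option autoImplicit false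

noncomputable section

universe u

open AlgebraicGeometry CategoryTheory CategoryTheory.Limits TopologicalSpace TensorProduct
  AlgebraicGeometry.RelPicard NeronModelInfra

namespace Fermat.Agent.S25lib.AffBC

open Fermat.Agent.S25lib Fermat.Agent.S26lib

variable {k : Type u} [Field k] {C : Scheme.{u}} {c : C ⟶ Spec (CommRingCat.of k)} {e : C}
  {T₀ : Curve.PointChart c e} {γ : ℕ}

/-- **the framed locus is open** (field `framedLocus` of helper7's `Hub.ChartCore`) -/
theorem framedLocus (β : Fin γ → Γ(C, T₀.U₁)) {T : Scheme.{u}} (_ : IsAffine T)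
    (t : T ⟶ Spec (CommRingCat.of k)) (I : Hub.HPt c T₀ γ t) :
    ∃ U : T.Opens, ∀ {T' : Scheme.{u}} (_ : IsAffine T') (t' : T' ⟶ Spec (CommRingCat.of k))
      (ψ : SchemeHomOver t' t), ((I.push ψ).Framed β ↔ Set.range ψ.1.base ⊆ (U : Set T)) := by
  let _ := Hub.algOpen c T₀.U₁
  let _ := Hub.algTop t
  obtain ⟨U, hU⟩ := exists_opens_of_isOpen (Hilb.framedLocus β I.1)
    (Hilb.isOpen_framedLocus I.2)
  refine ⟨U, fun {T'} hT' t' ψ => ?_⟩
  let _ := Hub.algTop t'
  rw [hU hT' ψ.1]
  exact Hilb.isFramed_push_iff I.2 (Hub.appTopAlg ψ)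

/-- **two points over a field have a common frame** (field `commonFrame` of `Hub.ChartCore`) -/
theorem commonFrame [Infinite k] (K : Type u) [Field K]
    (t : Spec (CommRingCat.of K) ⟶ Spec (CommRingCat.of k)) (I I' : Hub.HPt c T₀ γ t) :
    ∃ β : Fin γ → Γ(C, T₀.U₁), I.Framed β ∧ I'.Framed β := by
  let _ := Hub.algOpen c T₀.U₁
  let _ := Hub.algTop t
  let _ := specTopField K
  exact Hilb.exists_common_frame_of_isPt I.2 I'.2

end Fermat.Agent.S25lib.AffBC
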