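/-
S25lib / AffBC / HubKB  (helper4)  --  Project L (S25): helper7's `Hub.KB`, `Hub.KSurj` are
`Krich.KrichBij`, resp. surjectivity of `Kmap ι L (-1)`, for the complex of `AffBC/Krich`.
-/
import Fermat.Agent.S25lib.AffBC.KFun
import Fermat.Agent.S25lib.Hub.KB

set_option autoImplicit false

noncomputable section

universe u

open AlgebraicGeometry CategoryTheory CategoryTheory.Limits TopologicalSpace
  AlgebraicGeometry.RelPicard NeronModelInfra

namespace Fermat.Agent.S25lib.AffBC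

open Fermat.Agent.S25lib Fermat.Agent.S26lib Fermat.Agent.S26lib.ProdAff Fermat.Agent.S26lib.P5a

variable {k : Type u} [Field k] {C T : Scheme.{u}} {c : C ⟶ Spec (CommRingCat.of k)}
  {t : T ⟶ Spec (CommRingCat.of k)}

section Hub

variable {e : C} (Z : Curve.ZChart e) (N : (pullback c t).Modules)

theorem zChart_le₁ : C.basicOpen Z.z ≤ Z.U₁ := Z.inf_eq ▸ inf_le_left

theorem hub_Kfun_eq : Hub.Kfun Z t N = kfun N Z.z ⊤ := rfl

/-- **helper7's `KB` is `KrichBij` of the complex** (affine base) -/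
theorem hub_KB_iff [IsAffine T] (hN : Scheme.Modules.IsInvertible N)
    (hzreg : IsSMulRegular Γ(C, Z.U₂) Z.z) :
    Hub.KB Z t N ↔ Krich.KrichBij (BoxSec.res (N := N) (T' := ⊤) (zChart_le₁ Z))
      (Krich.bL (zUnit (c := c) (t := t) Z.z ⊤) (kL0 N Z.z ⊤)) :=
  bijective_kfun_iff N Z.z Z.inf_eq hN Z.isAffineOpen₂ (isAffineOpen_top T) hzreg _

/-- **helper7's `KSurj` is `H¹(N(-e)) = 0` of the complex** -/
theorem hub_KSurj_iff :
    Hub.KSurj Z t N ↔ Function.Surjective (Krich.Kmap (BoxSec.res (N := N) (T' := ⊤) (zChart_le₁ Z))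
      (Krich.bL (zUnit (c := c) (t := t) Z.z ⊤) (kL0 N Z.z ⊤)) (-1)) :=
  surjective_kfun_iff N Z.z Z.inf_eq _

end Hub

end Fermat.Agent.S25lib.AffBC
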