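/-
S25lib / AffBC / KBOpen  (helper4)  --  Project L (S25): the layer field (K2) `kbOpen`.

Over an affine base `T`, for a rigidified line bundle `N` on `C ×_k T` with `Hub.DegG`, the Krichever
condition `Hub.KB (ψ^* N)` (`ψ : T' ⟶ T`, `T'` affine) holds iff `ψ` factors through the open
`U := T ∖ Supp H¹(N(-e))`.
(general lemmas in `AffBC/OpensIdeal`)
* `degG_hom`, `pullNCompIso`;
* **`kbOpen_zChart`**, **`kbOpen_pointChart`**.
-/
import Fermat.Agent.S25lib.AffBC.Pack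
import Fermat.Agent.S25lib.AffBC.HubKB
import Fermat.Agent.S25lib.AffBC.OpensIdeal

set_option autoImplicit false

noncomputable section

universe u

open AlgebraicGeometry CategoryTheory CategoryTheory.Limits TopologicalSpace
  AlgebraicGeometry.RelPicard NeronModelInfra

namespace Fermat.Agent.S25lib.AffBC

open Fermat.Agent.S25lib Fermat.Agent.S26lib Fermat.Agent.S26lib.ProdAff Fermat.Agent.S26lib.P5a



variable {k : Type u} [Field k] {C T : Scheme.{u}} {c : C ⟶ Spec (CommRingCat.of k)}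
  {t : T ⟶ Spec (CommRingCat.of k)}

/-- `DegG` for arbitrary morphisms over the base -/
theorem degG_hom {e : C} {Z : Curve.ZChart e} {N : (pullback c t).Modules}
    (h : Hub.DegG Z t N) (K : Type u) [Field K] [IsAlgClosed K]
    {t₂ : Spec (CommRingCat.of K) ⟶ Spec (CommRingCat.of k)} (χ : SchemeHomOver t₂ t)
    (hs : Hub.KSurj Z t₂ (pullN c χ N)) : Hub.KB Z t₂ (pullN c χ N) := by
  obtain ⟨x, hx⟩ := χ
  subst hx
  exact h K x hs

/-- pullback along a composite -/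
def pullNCompIso (N : (pullback c t).Modules) {T' T'' : Scheme.{u}}
    {t' : T' ⟶ Spec (CommRingCat.of k)} {t'' : T'' ⟶ Spec (CommRingCat.of k)}
    (φ : SchemeHomOver t' t) (χ : SchemeHomOver t'' t') (ψ : SchemeHomOver t'' t)
    (hψ : ψ.1 = χ.1 ≫ φ.1) : pullN c ψ N ≅ pullN c χ (pullN c φ N) :=
  (Scheme.Modules.pullbackCongr (show baseChangeSnd c ψ = baseChangeSnd c χ ≫ baseChangeSnd c φ by
    have : ψ = postComp φ χ := Subtype.ext hψ
    rw [this]
    exact (baseChangeSnd_comp c φ χ).symm)).app N ≪≫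
    ((Scheme.Modules.pullbackComp _ _).app N).symm


/-- helper7's `KB` of a pullback is `KrichBij` of the complex of the pulled back module -/
theorem hub_KB_pullbackAlong_iff {ε : Prod.KPt c} {e : C} (Z : Curve.ZChart e)
    (N : RigidifiedLineBundle c ε t) {T' : Scheme.{u}} [IsAffine T']
    {t' : T' ⟶ Spec (CommRingCat.of k)} (ψ : SchemeHomOver t' t)
    (hzreg : IsSMulRegular Γ(C, Z.U₂) Z.z) :
    Hub.KB Z t' (N.pullbackAlong ψ).L ↔
      Krich.KrichBij (BoxSec.res (N := pullN c ψ N.L) (T' := ⊤) (zChart_le₁ Z))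
        (Krich.bL (zUnit (c := c) (t := t') Z.z ⊤) (kL0 (pullN c ψ N.L) Z.z ⊤)) :=
  hub_KB_iff Z (pullN c ψ N.L) (N.isInvertible.pullback _) hzreg

/-- helper7's `KSurj` of a pullback is `H¹ = 0` of the complex of the pulled back module -/
theorem hub_KSurj_pullbackAlong_iff {ε : Prod.KPt c} {e : C} (Z : Curve.ZChart e)
    (N : RigidifiedLineBundle c ε t) {T' : Scheme.{u}}
    {t' : T' ⟶ Spec (CommRingCat.of k)} (ψ : SchemeHomOver t' t) :
    Hub.KSurj Z t' (N.pullbackAlong ψ).L ↔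
      Function.Surjective (Krich.Kmap
        (BoxSec.res (N := pullN c ψ N.L) (T' := ⊤) (zChart_le₁ Z))
        (Krich.bL (zUnit (c := c) (t := t') Z.z ⊤) (kL0 (pullN c ψ N.L) Z.z ⊤)) (-1)) :=
  hub_KSurj_iff Z (pullN c ψ N.L)

/-- **(K2) openness of the Krichever condition** for a `ZChart` with a Čech bound: over an affine base,
for a rigidified line bundle with `DegG`, the condition `KB (ψ^* N)` is represented by an open
subscheme of the base -/
theorem kbOpen_zChart (ε : Prod.KPt c) (Z : Curve.ZChart ε.pt)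
    (hzreg : IsSMulRegular Γ(C, Z.U₂) Z.z) (N₀ : ℕ)
    (hcech : ∀ s : Γ(C, C.basicOpen Z.z), ∃ (f : Γ(C, Z.U₁)) (b : Γ(C, Z.U₂)),
      zRes Z.z ^ N₀ * (s - Mod.resO (zChart_le₁ Z) f) = Mod.resO (C.basicOpen_le Z.z) b)
    (hT : IsAffine T) (t : T ⟶ Spec (CommRingCat.of k)) (N : RigidifiedLineBundle c ε t)
    (hdeg : Hub.DegG Z t N.L) :
    ∃ U : T.Opens, ∀ {T' : Scheme.{u}} (_ : IsAffine T') (t' : T' ⟶ Spec (CommRingCat.of k))
      (ψ : SchemeHomOver t' t),
      (Hub.KB Z t' (N.pullbackAlong ψ).L ↔ Set.range ψ.1.base ⊆ (U : Set T)) := by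
  obtain ⟨ρ⟩ := N.rigidified
  obtain ⟨σ₀, hev⟩ := exists_sigma_zChart ε Z N.L ρ N.isInvertible (isAffineOpen_top T)
  have hB := isBuild_zChart ε Z N.L ρ N.isInvertible (isAffineOpen_top T) hzreg σ₀ hev
  have hfilt := hB.isFilt
  obtain ⟨n₀, hn₀⟩ := exists_range_sup_eq_top_box ε N.L ρ N.isInvertible Z.z (zChart_le₁ Z)
    Z.isAffineOpen₁ Z.isAffineOpen₂ (isAffineOpen_top T) (ZAdapt.mem₂ ε Z) (ZAdapt.split ε Z)
    (ZAdapt.z_vanish ε Z) hzreg N₀ hcech σ₀ hev
  have hfin : Module.Finite Γ(T, ⊤) (Krich.H1 (BoxSec.res (N := N.L) (T' := ⊤) (zChart_le₁ Z))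
      (Krich.bL (zUnit (c := c) (t := t) Z.z ⊤) (kL0 N.L Z.z ⊤)) (-1)) :=
    Krich.finite_H1 hfilt hn₀ (-1)
  obtain ⟨U, hU⟩ := exists_opens_of_ideal (Module.annihilator Γ(T, ⊤)
    (Krich.H1 (BoxSec.res (N := N.L) (T' := ⊤) (zChart_le₁ Z))
      (Krich.bL (zUnit (c := c) (t := t) Z.z ⊤) (kL0 N.L Z.z ⊤)) (-1)))
  refine ⟨U, fun {T'} hT' t' ψ => ?_⟩
  rw [hU hT' ψ.1]
  have hle : (⊤ : T'.Opens) ≤ ψ.1 ⁻¹ᵁ ⊤ := le_top
  let _ := pullAlgebra ψ hle
  let _ := BoxSec.pullModule c ψ hle (pullN c ψ N.L) Z.U₁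
  let _ := BoxSec.pullModule c ψ hle (pullN c ψ N.L) (C.basicOpen Z.z)
  have := BoxSec.pull_isScalarTower c ψ hle (pullN c ψ N.L) Z.U₁
  have := BoxSec.pull_isScalarTower c ψ hle (pullN c ψ N.L) (C.basicOpen Z.z)
  have hbc := isBC_box' c ψ hle N.L N.isInvertible Z.isAffineOpen₁ Z.isAffineOpen₂ Z.z
    (zChart_le₁ Z) (isAffineOpen_top T) (isAffineOpen_top T') σ₀
  have hfilt' := hbc.isFilt hfilt
  have hmap : algebraMap Γ(T, ⊤) Γ(T', ⊤) = ψ.1.appTop.hom :=
    congrArg CommRingCat.Hom.hom (appLE_top_top ψ.1 hle)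
  rw [← hmap, ← kmap_surjective_iff_map_annihilator hbc (-1)]
  have hN' : Scheme.Modules.IsInvertible (pullN c ψ N.L) := N.isInvertible.pullback _
  show Hub.KB Z t' (pullN c ψ N.L) ↔ _
  rw [hub_KB_iff Z (pullN c ψ N.L) hN' hzreg]
  constructor
  · exact fun hK => hK.2
  · intro hs
    have : Module.Projective Γ(T', ⊤) (BoxSec (pullN c ψ N.L) Z.U₁ (⊤ : T'.Opens)) :=
      BoxSec.projective hN' Z.isAffineOpen₁ (isAffineOpen_top T')
    refine Krich.krichBij_of_forall_maximal hfilt' ?_ ?_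
    · intro 𝔪' h𝔪'
      refine ⟨1, fun h1 => h𝔪'.ne_top ((Ideal.eq_top_iff_one _).mpr h1), fun x => ?_⟩
      have : Subsingleton (Krich.H1 (BoxSec.res (N := pullN c ψ N.L) (T' := ⊤) (zChart_le₁ Z))
          (Krich.bL (zUnit (c := c) (t := t') Z.z ⊤) (kL0 (pullN c ψ N.L) Z.z ⊤)) (-1)) :=
        (Krich.subsingleton_H1_iff _).mpr ((Krich.Kmap_surjective_iff _).mp hs)
      exact Subsingleton.elim _ _
    · intro _ 𝔪' h𝔪'
      -- a geometric point over `𝔪'`
      let K₀ := Γ(T', ⊤) ⧸ 𝔪'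
      let _ : Field K₀ := Ideal.Quotient.field 𝔪'
      let K := AlgebraicClosure K₀
      let φ : Γ(T', ⊤) →+* K := (algebraMap K₀ K).comp (Ideal.Quotient.mk 𝔪')
      obtain ⟨x, hx⟩ := exists_hom_of_ringHom φ
      let χx : SchemeHomOver (x ≫ t') t' := ⟨x, rfl⟩
      have hlex : (⊤ : (Spec (CommRingCat.of K)).Opens) ≤ χx.1 ⁻¹ᵁ ⊤ := le_top
      let _ := specTopField K
      let _ := pullAlgebra χx hlex
      let _ := BoxSec.pullModule c χx hlex (pullN c χx (pullN c ψ N.L)) Z.U₁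
      let _ := BoxSec.pullModule c χx hlex (pullN c χx (pullN c ψ N.L)) (C.basicOpen Z.z)
      have := BoxSec.pull_isScalarTower c χx hlex (pullN c χx (pullN c ψ N.L)) Z.U₁
      have := BoxSec.pull_isScalarTower c χx hlex (pullN c χx (pullN c ψ N.L))
        (C.basicOpen Z.z)
      have hbcx := isBC_box' c χx hlex (pullN c ψ N.L) hN' Z.isAffineOpen₁ Z.isAffineOpen₂ Z.z
        (zChart_le₁ Z) (isAffineOpen_top T') (isAffineOpen_top _)
        (BoxSec.val (BoxSec.pull c ψ hle N.L Z.U₂ (BoxSec.of σ₀)))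
      -- `KrichBij` on the fibre, from `DegG`
      have hsx := hbcx.Kmap_surjective hs
      have h1 : Hub.KSurj Z (x ≫ t') (pullN c χx (pullN c ψ N.L)) :=
        (hub_KSurj_iff Z _).mpr hsx
      let χ : SchemeHomOver (x ≫ t') t := postComp ψ χx
      let iso := pullNCompIso N.L ψ χx χ rfl
      have h2 : Hub.KSurj Z (x ≫ t') (pullN c χ N.L) := h1.congr iso.symm
      have h3 : Hub.KB Z (x ≫ t') (pullN c χ N.L) := degG_hom hdeg K χ h2
      have h4 : Hub.KB Z (x ≫ t') (pullN c χx (pullN c ψ N.L)) := h3.congr iso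
      have h5 := (hub_KB_iff Z _ (hN'.pullback _) hzreg).mp h4
      refine hbcx.H0_le_smul_of_krichBij hfilt' h5 hs 𝔪' ?_
      intro r hr
      rw [RingHom.mem_ker] at hr
      have hr' : x.appTop.hom r = 0 := by
        have : algebraMap Γ(T', ⊤) Γ(Spec (CommRingCat.of K), ⊤) = x.appTop.hom :=
          congrArg CommRingCat.Hom.hom (appLE_top_top x hlex)
        rw [← this]; exact hr
      have h6 : φ r = 0 := by rw [← hx r, hr', map_zero]
      have h7 : Ideal.Quotient.mk 𝔪' r = 0 :=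
        (algebraMap K₀ K).injective (h6.trans (map_zero _).symm)
      exact Ideal.Quotient.eq_zero_iff_mem.mp h7

/-- **(K2) for a `PointChart`**: exactly the field `kbOpen` of helper7's `Hub.KBLayer`, for
`Z := P.toZChart` -/
theorem kbOpen_pointChart (ε : Prod.KPt c) (P : Curve.PointChart c ε.pt)
    (hzreg : IsSMulRegular Γ(C, P.U₂) P.z)
    (hT : IsAffine T) (t : T ⟶ Spec (CommRingCat.of k)) (N : RigidifiedLineBundle c ε t)
    (hdeg : Hub.DegG P.toZChart t N.L) :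
    ∃ U : T.Opens, ∀ {T' : Scheme.{u}} (_ : IsAffine T') (t' : T' ⟶ Spec (CommRingCat.of k))
      (ψ : SchemeHomOver t' t),
      (Hub.KB P.toZChart t' (N.pullbackAlong ψ).L ↔ Set.range ψ.1.base ⊆ (U : Set T)) :=
  kbOpen_zChart ε P.toZChart hzreg P.N₀ (ZAdapt.cech P) hT t N hdeg

end Fermat.Agent.S25lib.AffBC
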