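/-
S25lib / AffBC / OData  (helper4)  --  Project L (S25), brick (OD1): the ring data of the complex of `O`.

`U₂ ∋ e` affine, `z ∈ Γ(C, U₂)` a non-zero-divisor with `Γ(C, U₂) = k + z Γ(C, U₂)`, `z(e) = 0`, `T' ⊆ T` affine
open, `R = Γ(T, T')`, `S = Γ(C ×_k T, D(z) × T')`, `kB' = ` the image of `Γ(C ×_k T, U₂ × T')`, `zUnit : Sˣ`:
**`isOData : Krich.IsOData (kB' z T') (zUnit z T')`**, i.e. `z ∈ B'`, `B' = R ⊕ z B'`, `S = ⋃ z⁻ⁿ B'`.
Hence (`Krich.isFilt_O`) the complex of `O` is filtered: `isFilt_O_box`.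
* `boxRes_exhaust`, `boxRes_injective_of_regular`: `Γ(D(z) × T')` is the localisation of `Γ(U₂ × T')` at `z`.
* `isOData_zChart`: the same for helper8's `Curve.ZChart ε.pt`.
-/
import Fermat.Agent.S25lib.AffBC.Krich
import Fermat.Agent.S25lib.AffBC.ZAdapt
import Fermat.Agent.S25lib.Krich.OComplex
import Fermat.Agent.S25lib.Sec.Chart

set_option autoImplicit false

noncomputable section

universe u

open AlgebraicGeometry CategoryTheory CategoryTheory.Limits TopologicalSpace
  AlgebraicGeometry.RelPicard NeronModelInfra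

namespace Fermat.Agent.S25lib.AffBC

open Fermat.Agent.S25lib Fermat.Agent.S26lib Fermat.Agent.S26lib.ProdAff Fermat.Agent.S26lib.P5a

variable {k : Type u} [Field k] {C T : Scheme.{u}} {c : C ⟶ Spec (CommRingCat.of k)}
  {t : T ⟶ Spec (CommRingCat.of k)} {U : C.Opens} {T' : T.Opens}

/-- every function on `D(z) × T'` is `z⁻ⁿ` times a function on `U × T'` -/
theorem boxRes_exhaust (hU : IsAffineOpen U) (hT' : IsAffineOpen T') (z : Γ(C, U))
    (x : Γ(pullback c t, box c t (C.basicOpen z) T')) :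
    ∃ (n : ℕ) (a : Γ(pullback c t, box c t U T')),
      boxRes (c := c) (t := t) (C.basicOpen_le z) T' a = zBox z T' ^ n * x := by
  have hB : IsAffineOpen (box c t U T') := isAffineOpen_box' c t hU hT'
  have heq : box c t (C.basicOpen z) T' = (pullback c t).basicOpen (fstφ c t U T' z) :=
    box_basicOpen c t U T' z
  have hle : box c t (C.basicOpen z) T' ≤ (pullback c t).basicOpen (fstφ c t U T' z) :=
    le_of_eq heq
  have hge : (pullback c t).basicOpen (fstφ c t U T' z) ≤ box c t (C.basicOpen z) T' :=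
    le_of_eq heq.symm
  have haway := Sec.isAwayHom_resHom hB (fstφ c t U T' z)
  obtain ⟨a, n, ha⟩ := haway.surj (Mod.resO hge x)
  refine ⟨n, a, ?_⟩
  have h1 := congrArg (Mod.resO hle) ha
  rw [Sec.resHom_apply, Sec.resHom_apply, Mod.resO_mul, Mod.resO_resO, Mod.resO_self, resO_pow,
    Mod.resO_resO, Mod.resO_resO] at h1
  rw [boxRes_apply, ← h1, mul_comm, ← boxRes_fstφ_z (c := c) (t := t) z T', boxRes_apply]

/-- restriction of functions to `D(z) × T'` is injective when `z` is a non-zero-divisor -/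
theorem boxRes_injective_of_regular (hU : IsAffineOpen U) (hT' : IsAffineOpen T') {z : Γ(C, U)}
    (hz : IsSMulRegular Γ(C, U) z) :
    Function.Injective (boxRes (c := c) (t := t) (C.basicOpen_le z) T') := by
  have hB : IsAffineOpen (box c t U T') := isAffineOpen_box' c t hU hT'
  have heq : box c t (C.basicOpen z) T' = (pullback c t).basicOpen (fstφ c t U T' z) :=
    box_basicOpen c t U T' z
  have hge : (pullback c t).basicOpen (fstφ c t U T' z) ≤ box c t (C.basicOpen z) T' :=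
    le_of_eq heq.symm
  have hreg : IsSMulRegular Γ(pullback c t, box c t U T') (fstφ c t U T' z) :=
    isSMulRegular_fstφ c t hU hT' hz
  have haway := Sec.isAwayHom_resHom hB (fstφ c t U T' z)
  rw [injective_iff_map_eq_zero]
  intro a ha
  have h1 : Sec.resHom ((pullback c t).basicOpen_le (fstφ c t U T' z)) a = 0 := by
    have h2 := congrArg (Sec.resHom hge) ha
    rw [boxRes_apply, Sec.resHom_apply, Mod.resO_resO, map_zero] at h2
    exact h2
  obtain ⟨n, hn⟩ := haway.ker a h1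
  exact (hreg.pow n) (show fstφ c t U T' z ^ n • a = fstφ c t U T' z ^ n • 0 by
    rw [smul_eq_mul, hn, smul_zero])

variable (ε : SchemeHomOver (𝟙 (Spec (CommRingCat.of k))) c)

/-- **(OD1)**: the ring data of the complex of `O` on the boxes `U₂ × T'`, `D(z) × T'` -/
theorem isOData (hU : IsAffineOpen U) (hT' : IsAffineOpen T') (hε : ∀ x, ε.1 x ∈ U) (z : Γ(C, U))
    (hz : ∀ b : Γ(C, U), ∃ (κ : k) (b' : Γ(C, U)), b = (constHomOpen c U).hom κ + z * b')
    (hzε : (ε.1.appLE U ⊤ (fun x _ => hε x)).hom z = 0)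
    (hzreg : IsSMulRegular Γ(C, U) z) :
    Krich.IsOData (kB' (c := c) (t := t) z T') (zUnit z T') where
  z_mem := ⟨fstφ c t U T' z, boxRes_fstφ_z z T'⟩
  split := by
    rintro _ ⟨a, rfl⟩
    obtain ⟨r, a', rfl⟩ := exists_eq_boxφ_add_mul c t hU hT' z hz a
    refine ⟨r, boxRes (c := c) (t := t) (C.basicOpen_le z) T' a', ⟨a', rfl⟩, ?_⟩
    show boxRes (c := c) (t := t) (C.basicOpen_le z) T' (boxφ c t U T' r + fstφ c t U T' z * a') = _
    rw [map_add, map_mul, boxRes_fstφ_z, zUnit_val, ← boxAlgebra_algebraMap, AlgHom.commutes]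
  free := by
    rintro r _ ⟨a', rfl⟩ h
    have h : algebraMap Γ(T, T') Γ(pullback c t, box c t (C.basicOpen z) T') r =
        ((zUnit (c := c) (t := t) z T' : (Γ(pullback c t, box c t (C.basicOpen z) T'))ˣ) :
          Γ(pullback c t, box c t (C.basicOpen z) T')) *
          boxRes (c := c) (t := t) (C.basicOpen_le z) T' a' := h
    have h1 : boxRes (c := c) (t := t) (C.basicOpen_le z) T' (boxφ c t U T' r) =
        boxRes (c := c) (t := t) (C.basicOpen_le z) T' (fstφ c t U T' z * a') := by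
      rw [map_mul, boxRes_fstφ_z, ← zUnit_val, ← h, ← boxAlgebra_algebraMap, AlgHom.commutes]
    have h2 := boxRes_injective_of_regular (c := c) (t := t) hU hT' hzreg h1
    have h3 := congrArg (σφ c t U T' ε hε) h2
    rw [σφ_boxφ, map_mul, σφ_fstφ_eq_zero c t ε hε hzε, zero_mul] at h3
    exact h3
  exhaust x := by
    obtain ⟨n, a, ha⟩ := boxRes_exhaust (c := c) (t := t) hU hT' z x
    exact ⟨n, a, by rw [zUnit_val]; exact ha⟩

/-- the complex of `O` on the boxes is filtered -/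
theorem isFilt_O_box (hU : IsAffineOpen U) (hT' : IsAffineOpen T') (hε : ∀ x, ε.1 x ∈ U)
    (z : Γ(C, U))
    (hz : ∀ b : Γ(C, U), ∃ (κ : k) (b' : Γ(C, U)), b = (constHomOpen c U).hom κ + z * b')
    (hzε : (ε.1.appLE U ⊤ (fun x _ => hε x)).hom z = 0)
    (hzreg : IsSMulRegular Γ(C, U) z) :
    Krich.IsFilt Γ(T, T') (Krich.LO (kB' (c := c) (t := t) z T') (zUnit z T'))
      (Krich.bO (zUnit z T')) :=
  Krich.isFilt_O (isOData ε hU hT' hε z hz hzε hzreg)

/-- **(OD1)** for helper8's charts -/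
theorem isOData_zChart (ε : Prod.KPt c) (Z : Curve.ZChart ε.pt) (hT' : IsAffineOpen T')
    (hzreg : IsSMulRegular Γ(C, Z.U₂) Z.z) :
    Krich.IsOData (kB' (c := c) (t := t) Z.z T') (zUnit Z.z T') :=
  isOData ε Z.isAffineOpen₂ hT' (ZAdapt.mem₂ ε Z) Z.z (ZAdapt.split ε Z) (ZAdapt.z_vanish ε Z) hzreg

end Fermat.Agent.S25lib.AffBC
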