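/-
S25lib / AffBC / Tau  (helper4)  --  Project L (S25), helper3's (R3): the ring of a box as a tensor
product, in the order `R ⊗[k] A` of helper5's `Hilb`.

ProdAff convention: `[Algebra k Γ(C,U)] [Algebra k Γ(T,T')]` with `hS`, `hR` (algebraMap = `constHomOpen`).
* `tauEquiv c t hU hT' hS hR : Γ(T,T') ⊗[k] Γ(C,U) ≃ₐ[Γ(T,T')] Γ(C ×_k T, U × T')`,
  `tauEquiv_tmul : τ (r ⊗ a) = boxφ r * fstφ a` (the target is a `Γ(T,T')`-algebra by `boxAlgebra`);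
* `appLEAlgHom ψ hle hR₁ hR₂ : Γ(T₁,T₁') →ₐ[k] Γ(T₂,T₂')` (`= ψ^♯`);
* `boxPullφ_tauEquiv` : `boxPullφ ∘ τ₁ = τ₂ ∘ (ψ^♯ ⊗ id)` (`= Hilb.bc k A ψ^♯`);
* `boxRes_tauEquiv` : `boxRes ∘ τ_U = τ_{U'} ∘ (id ⊗ ρ)`.
-/
import Fermat.Agent.S25lib.AffBC.BoxPull

set_option autoImplicit false

noncomputable section

universe u

open AlgebraicGeometry CategoryTheory CategoryTheory.Limits TopologicalSpace
  AlgebraicGeometry.RelPicard NeronModelInfra TensorProduct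

namespace Fermat.Agent.S25lib.AffBC

open Fermat.Agent.S25lib Fermat.Agent.S26lib.ProdAff Fermat.Agent.S26lib.P5a

variable {k : Type u} [Field k] {C T : Scheme.{u}} (c : C ⟶ Spec (CommRingCat.of k))
  (t : T ⟶ Spec (CommRingCat.of k))

section Tau

variable {U : C.Opens} {T' : T.Opens} (hU : IsAffineOpen U) (hT' : IsAffineOpen T')
  [Algebra k Γ(C, U)] [Algebra k Γ(T, T')]
  (hS : algebraMap k Γ(C, U) = (constHomOpen c U).hom)
  (hR : algebraMap k Γ(T, T') = (constHomOpen t T').hom)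

/-- `Γ(T,T') ⊗[k] Γ(C,U) ≃ Γ(C ×_k T, U × T')`, as rings -/
def tauRingEquiv : Γ(T, T') ⊗[k] Γ(C, U) ≃+* Γ(pullback c t, box c t U T') :=
  (Algebra.TensorProduct.comm k Γ(T, T') Γ(C, U)).toRingEquiv.trans
    (tensorEquiv c t hU hT' hS hR).symm

theorem tauRingEquiv_tmul (r : Γ(T, T')) (a : Γ(C, U)) :
    tauRingEquiv c t hU hT' hS hR (r ⊗ₜ[k] a) = boxφ c t U T' r * fstφ c t U T' a := by
  have h1 : tauRingEquiv c t hU hT' hS hR (r ⊗ₜ[k] a) =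
      (tensorEquiv c t hU hT' hS hR).symm (a ⊗ₜ[k] r) := rfl
  rw [h1, RingEquiv.symm_apply_eq, map_mul]
  have h2 := tensorEquiv_snd c t hU hT' hS hR r
  have h3 := tensorEquiv_fst c t hU hT' hS hR a
  rw [show boxφ c t U T' r = (pullback.snd c t).appLE T' (box c t U T') (box_le_snd c t U T') r
    from rfl, show fstφ c t U T' a =
      (pullback.fst c t).appLE U (box c t U T') (box_le_fst c t U T') a from rfl, h2, h3,
    Algebra.TensorProduct.tmul_mul_tmul, one_mul, mul_one]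

open scoped Fermat.Agent.S25lib.AffBC in
/-- **(R3)** `τ : Γ(T,T') ⊗[k] Γ(C,U) ≃ₐ[Γ(T,T')] Γ(C ×_k T, U × T')`, `τ (r ⊗ a) = r · a` -/
def tauEquiv : Γ(T, T') ⊗[k] Γ(C, U) ≃ₐ[Γ(T, T')] Γ(pullback c t, box c t U T') :=
  AlgEquiv.ofRingEquiv (f := tauRingEquiv c t hU hT' hS hR) (fun r => by
    rw [Algebra.TensorProduct.algebraMap_apply, Algebra.algebraMap_self, RingHom.id_apply,
      tauRingEquiv_tmul, map_one, mul_one]
    rfl)

theorem tauEquiv_tmul (r : Γ(T, T')) (a : Γ(C, U)) :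
    tauEquiv c t hU hT' hS hR (r ⊗ₜ[k] a) = boxφ c t U T' r * fstφ c t U T' a :=
  tauRingEquiv_tmul c t hU hT' hS hR r a

end Tau

section Restrict

variable {U U' : C.Opens} {T' : T.Opens} (hU : IsAffineOpen U) (hU' : IsAffineOpen U')
  (hT' : IsAffineOpen T')
  [Algebra k Γ(C, U)] [Algebra k Γ(C, U')] [Algebra k Γ(T, T')]
  (hS : algebraMap k Γ(C, U) = (constHomOpen c U).hom)
  (hS' : algebraMap k Γ(C, U') = (constHomOpen c U').hom)
  (hR : algebraMap k Γ(T, T') = (constHomOpen t T').hom)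

/-- **`τ` and restriction in the curve direction** -/
theorem boxRes_tauEquiv (h : U' ≤ U) (ρ : Γ(C, U) →ₐ[k] Γ(C, U'))
    (hρ : ∀ a, ρ a = Mod.resO h a) (x : Γ(T, T') ⊗[k] Γ(C, U)) :
    boxRes (c := c) (t := t) h T' (tauEquiv c t hU hT' hS hR x) =
      tauEquiv c t hU' hT' hS' hR
        (Algebra.TensorProduct.map (AlgHom.id k Γ(T, T')) ρ x) := by
  induction x using TensorProduct.induction_on with
  | zero => simp only [map_zero]
  | tmul r a =>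
    rw [Algebra.TensorProduct.map_tmul, tauEquiv_tmul, tauEquiv_tmul, map_mul, boxRes_apply,
      boxRes_apply, resO_boxφ h T' r, resO_fstφ h T' a, hρ]
    rfl
  | add x y hx hy => simp only [map_add, hx, hy]

end Restrict

section Natural

variable {T₁ T₂ : Scheme.{u}} {t₁ : T₁ ⟶ Spec (CommRingCat.of k)}
  {t₂ : T₂ ⟶ Spec (CommRingCat.of k)} (ψ : SchemeHomOver t₂ t₁) {T₁' : T₁.Opens}
  {T₂' : T₂.Opens} (hle : T₂' ≤ ψ.1 ⁻¹ᵁ T₁')
  {U : C.Opens} (hU : IsAffineOpen U) (hT₁' : IsAffineOpen T₁') (hT₂' : IsAffineOpen T₂')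
  [Algebra k Γ(C, U)] [Algebra k Γ(T₁, T₁')] [Algebra k Γ(T₂, T₂')]
  (hS : algebraMap k Γ(C, U) = (constHomOpen c U).hom)
  (hR₁ : algebraMap k Γ(T₁, T₁') = (constHomOpen t₁ T₁').hom)
  (hR₂ : algebraMap k Γ(T₂, T₂') = (constHomOpen t₂ T₂').hom)

include hR₁ hR₂ in
/-- `ψ^♯ : Γ(T₁,T₁') → Γ(T₂,T₂')` as a homomorphism of `k`-algebras -/
def appLEAlgHom : Γ(T₁, T₁') →ₐ[k] Γ(T₂, T₂') where
  toRingHom := (ψ.1.appLE T₁' T₂' hle).hom
  commutes' κ := by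
    have h := constHomOpen_appLE t₂ t₁ ψ.1 ψ.2 T₁' T₂' hle
    have h2 := congrArg (fun φ => φ.hom κ) h
    show (ψ.1.appLE T₁' T₂' hle).hom (algebraMap k Γ(T₁, T₁') κ) = algebraMap k Γ(T₂, T₂') κ
    rw [hR₁, hR₂]
    exact h2

theorem appLEAlgHom_apply (r : Γ(T₁, T₁')) :
    appLEAlgHom ψ hle hR₁ hR₂ r = (ψ.1.appLE T₁' T₂' hle).hom r := rfl

/-- **naturality of `τ`**: `boxPullφ ∘ τ₁ = τ₂ ∘ (ψ^♯ ⊗ id)` -/
theorem boxPullφ_tauEquiv (x : Γ(T₁, T₁') ⊗[k] Γ(C, U)) :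
    boxPullφ c ψ hle U (tauEquiv c t₁ hU hT₁' hS hR₁ x) =
      tauEquiv c t₂ hU hT₂' hS hR₂
        (Algebra.TensorProduct.map (appLEAlgHom ψ hle hR₁ hR₂) (AlgHom.id k Γ(C, U)) x) := by
  induction x using TensorProduct.induction_on with
  | zero => simp only [map_zero]
  | tmul r a =>
    rw [Algebra.TensorProduct.map_tmul, tauEquiv_tmul, tauEquiv_tmul, map_mul,
      boxPullφ_boxφ, boxPullφ_fstφ]
    rfl
  | add x y hx hy => simp only [map_add, hx, hy]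

end Natural

end Fermat.Agent.S25lib.AffBC
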