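/-
S25lib / AffBC / IsoComplex  (helper4)  --  Project L (S25), helper3's (R2): transport of the two-chart
complex along an isomorphism `e : N ≅ N'` of modules on `C ×_k T`.

`BoxSec.isoEquiv e U T' : BoxSec N U T' ≃ₗ[Γ(T,T')] BoxSec N' U T'` is linear over the box ring
(`isoEquiv_smul_box`), commutes with restrictions (`isoEquiv_res`), carries `kL0 N` onto `kL0 N'`
(`isoEquiv_mem_kL0_iff`, `map_kL0`) and `bL zUnit (kL0 N) n` onto `bL zUnit (kL0 N') n`
(`isoEquiv_mem_bL_iff`, `map_bL`); `isBC_iso` packages this as helper3's `IsBC` along `id`.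
-/
import Fermat.Agent.S25lib.AffBC.Krich
import Fermat.Agent.S25lib.AffBC.Restrict
import Fermat.Agent.S25lib.Krich.BaseChange

set_option autoImplicit false

noncomputable section

universe u

open AlgebraicGeometry CategoryTheory CategoryTheory.Limits TopologicalSpace
  AlgebraicGeometry.RelPicard NeronModelInfra

namespace Fermat.Agent.S25lib.AffBC

open Fermat.Agent.S25lib Fermat.Agent.S26lib.ProdAff Fermat.Agent.S26lib.P5a

variable {k : Type u} [Field k] {C T : Scheme.{u}} {c : C ⟶ Spec (CommRingCat.of k)}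
  {t : T ⟶ Spec (CommRingCat.of k)} {N N' : (pullback c t).Modules} (e : N ≅ N')

namespace BoxSec

/-- the sections over a box of isomorphic modules -/
def isoEquiv (U : C.Opens) (T' : T.Opens) : BoxSec N U T' ≃ₗ[Γ(T, T')] BoxSec N' U T' where
  toFun w := of (isoAppEquiv e (box c t U T') (val w))
  invFun w := of ((isoAppEquiv e (box c t U T')).symm (val w))
  map_add' w w' := map_add (isoAppEquiv e (box c t U T')) (val w) (val w')
  map_smul' r w := Scheme.Modules.Hom.app_smul e.hom (boxφ c t U T' r) (val w)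
  left_inv w := Mod.iso_inv_hom_app e _ (val w)
  right_inv w := Mod.iso_hom_inv_app e _ (val w)

theorem isoEquiv_apply (U : C.Opens) (T' : T.Opens) (w : BoxSec N U T') :
    isoEquiv e U T' w = of (e.hom.app (box c t U T') (val w)) := rfl

theorem isoEquiv_symm_apply (U : C.Opens) (T' : T.Opens) (w : BoxSec N' U T') :
    (isoEquiv e U T').symm w = of (e.inv.app (box c t U T') (val w)) := rfl

theorem isoEquiv_smul_box (U : C.Opens) (T' : T.Opens) (a : Γ(pullback c t, box c t U T'))
    (w : BoxSec N U T') : isoEquiv e U T' (a • w) = a • isoEquiv e U T' w :=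
  Scheme.Modules.Hom.app_smul e.hom a (val w)

theorem isoEquiv_res {U' U : C.Opens} (h : U' ≤ U) (T' : T.Opens) (w : BoxSec N U T') :
    isoEquiv e U' T' (res h w) = res h (isoEquiv e U T' w) :=
  Mod.app_res e.hom (box_mono (c := c) (t := t) h T') (val w)

end BoxSec

open BoxSec

variable {U₂ : C.Opens} (z : Γ(C, U₂)) (T' : T.Opens)

/-- the iso carries `kL0 N` onto `kL0 N'` -/
theorem isoEquiv_mem_kL0_iff (v : BoxSec N (C.basicOpen z) T') :
    isoEquiv e (C.basicOpen z) T' v ∈ kL0 N' z T' ↔ v ∈ kL0 N z T' := by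
  constructor
  · rintro ⟨w', hw'⟩
    refine ⟨(isoEquiv e U₂ T').symm w', ?_⟩
    apply (isoEquiv e (C.basicOpen z) T').injective
    rw [isoEquiv_res, LinearEquiv.apply_symm_apply, hw']
  · rintro ⟨w, rfl⟩
    exact ⟨isoEquiv e U₂ T' w, (isoEquiv_res e _ T' w).symm⟩

theorem map_kL0 :
    (kL0 N z T').map (isoEquiv e (C.basicOpen z) T').toLinearMap = kL0 N' z T' := by
  ext v'
  constructor
  · rintro ⟨v, hv, rfl⟩
    exact (isoEquiv_mem_kL0_iff e z T' v).mpr hv
  · intro hv'
    refine ⟨(isoEquiv e (C.basicOpen z) T').symm v', ?_, LinearEquiv.apply_symm_apply _ _⟩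
    rw [SetLike.mem_coe, ← isoEquiv_mem_kL0_iff e z T', LinearEquiv.apply_symm_apply]
    exact hv'

/-- the iso carries the filtration of `N` onto the filtration of `N'` -/
theorem isoEquiv_mem_bL_iff (n : ℤ) (v : BoxSec N (C.basicOpen z) T') :
    isoEquiv e (C.basicOpen z) T' v ∈
        Krich.bL (zUnit (c := c) (t := t) z T') (kL0 N' z T') n ↔
      v ∈ Krich.bL (zUnit (c := c) (t := t) z T') (kL0 N z T') n := by
  rw [Krich.mem_bL, Krich.mem_bL, ← isoEquiv_smul_box, isoEquiv_mem_kL0_iff]

theorem map_bL (n : ℤ) :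
    (Krich.bL (zUnit (c := c) (t := t) z T') (kL0 N z T') n).map
        (isoEquiv e (C.basicOpen z) T').toLinearMap =
      Krich.bL (zUnit (c := c) (t := t) z T') (kL0 N' z T') n := by
  ext v'
  constructor
  · rintro ⟨v, hv, rfl⟩
    exact (isoEquiv_mem_bL_iff e z T' n v).mpr hv
  · intro hv'
    refine ⟨(isoEquiv e (C.basicOpen z) T').symm v', ?_, LinearEquiv.apply_symm_apply _ _⟩
    rw [SetLike.mem_coe, ← isoEquiv_mem_bL_iff e z T', LinearEquiv.apply_symm_apply]
    exact hv'

/-- **the complexes of isomorphic modules are isomorphic**, in the form of helper3's `IsBC` along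
the identity of `Γ(T, T')` -/
theorem isBC_iso {U₁ : C.Opens} (h₁₂ : C.basicOpen z ≤ U₁) (σ₀ : Γ(N, box c t U₂ T')) :
    Krich.IsBC (BoxSec.res (N := N) (T' := T') h₁₂)
      (Krich.bL (zUnit (c := c) (t := t) z T') (kL0 N z T'))
      (Krich.bb (zUnit (c := c) (t := t) z T') (BoxSec.res (C.basicOpen_le z) (BoxSec.of σ₀)))
      (BoxSec.res (N := N') (T' := T') h₁₂)
      (Krich.bL (zUnit (c := c) (t := t) z T') (kL0 N' z T'))
      (Krich.bb (zUnit (c := c) (t := t) z T')
        (BoxSec.res (C.basicOpen_le z) (isoEquiv e U₂ T' (BoxSec.of σ₀))))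
      (isoEquiv e U₁ T').toLinearMap (isoEquiv e (C.basicOpen z) T').toLinearMap where
  bcW := IsBaseChange.ofEquiv (isoEquiv e U₁ T')
  bcV := IsBaseChange.ofEquiv (isoEquiv e (C.basicOpen z) T')
  comm w := isoEquiv_res e h₁₂ T' w
  map_b j := by
    unfold Krich.bb
    show isoEquiv e (C.basicOpen z) T' _ = _
    rw [isoEquiv_smul_box, isoEquiv_res]
  map_L n := by
    rw [← map_bL e z T' n]
    exact (Submodule.span_eq _).symm

end Fermat.Agent.S25lib.AffBC
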