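/-
S25lib / AffBC / TildePull  (helper4)  --  Project L (S25), affine base change, brick (AB2a)

**Pullback of `tilde` along `Spec φ` is `tilde` of the extension of scalars**, by uniqueness of left
adjoints: `Γ ∘ (Spec φ)_* = restrictScalars φ ∘ Γ` (`gammaIso`, the identity on elements), hence
`tilde_R ⋙ (Spec φ)^* ≅ extendScalars φ ⋙ tilde_S` (`tildePullbackIso`), and this isomorphism maps the
pulled back section `pullSec (toOpen w)` to `toOpen (1 ⊗ w)` (`tildePullbackIso_hom_pullSec`).
-/
import Mathlib
import Fermat.Prelude.Def_AlgebraicGeometry_RelativePicardFunctor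
import Fermat.Agent.S25lib.Mod.PullGen

set_option autoImplicit false

noncomputable section

universe u

open AlgebraicGeometry CategoryTheory TopologicalSpace Limits

namespace Fermat.Agent.S25lib.AffBC

variable {R S : CommRingCat.{u}} (φ : R ⟶ S)

/-- the two right adjoints -/
abbrev G₁ : (Spec S).Modules ⥤ ModuleCat.{u} R :=
  Scheme.Modules.pushforward (Spec.map φ) ⋙ moduleSpecΓFunctor (R := R)

abbrev G₂ : (Spec S).Modules ⥤ ModuleCat.{u} R :=
  moduleSpecΓFunctor (R := S) ⋙ ModuleCat.restrictScalars φ.hom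

theorem smul_G₂ (N : (Spec S).Modules) (r : R) (x : Γ(N, ⊤)) :
    (r • (show (G₂ φ).obj N from x) : (G₂ φ).obj N) =
      (show (G₂ φ).obj N from ((Scheme.ΓSpecIso S).inv (φ r) : Γ(Spec S, ⊤)) • x) := rfl

theorem smul_G₁ (N : (Spec S).Modules) (r : R) (x : Γ(N, ⊤)) :
    (r • (show (G₁ φ).obj N from x) : (G₁ φ).obj N) =
      (show (G₁ φ).obj N from
        ((Spec.map φ).appTop ((Scheme.ΓSpecIso R).inv r) : Γ(Spec S, ⊤)) • x) := rfl

theorem appTop_ΓSpecIso_inv (r : R) :
    (Spec.map φ).appTop ((Scheme.ΓSpecIso R).inv r) = (Scheme.ΓSpecIso S).inv (φ r) := by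
  have := Scheme.ΓSpecIso_inv_naturality φ
  exact (congrArg (fun g => g r) this).symm

/-- the identity, as an `R`-linear equivalence between the two module structures -/
def gammaLinearEquiv (N : (Spec S).Modules) : ((G₁ φ).obj N) ≃ₗ[R] ((G₂ φ).obj N) where
  toFun := fun x => x
  invFun := fun x => x
  map_add' := fun _ _ => rfl
  map_smul' := fun r x => by
    show (r • (show (G₁ φ).obj N from x) : (G₁ φ).obj N) = _
    rw [smul_G₁ φ N r x, appTop_ΓSpecIso_inv]
    rfl
  left_inv := fun _ => rfl
  right_inv := fun _ => rfl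

/-- the comparison of the two right adjoints: global sections of a pushforward along `Spec φ` are
the global sections with restricted scalars -/
def gammaIso : G₁ φ ≅ G₂ φ :=
  NatIso.ofComponents (fun N => (gammaLinearEquiv φ N).toModuleIso) (fun _ => rfl)

/-- the first adjunction -/
def adj₁ : tilde.functor R ⋙ Scheme.Modules.pullback (Spec.map φ) ⊣ G₁ φ :=
  (tilde.adjunction (R := R)).comp (Scheme.Modules.pullbackPushforwardAdjunction (Spec.map φ))

/-- the second adjunction -/
def adj₂ : ModuleCat.extendScalars φ.hom ⋙ tilde.functor S ⊣ G₂ φ :=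
  (ModuleCat.extendRestrictScalarsAdj φ.hom).comp (tilde.adjunction (R := S))

/-- **pullback of `tilde` along `Spec φ` is `tilde` of the extension of scalars** -/
def tildePullbackIso :
    tilde.functor R ⋙ Scheme.Modules.pullback (Spec.map φ) ≅
      ModuleCat.extendScalars φ.hom ⋙ tilde.functor S :=
  (adj₁ φ).leftAdjointUniq ((adj₂ φ).ofNatIsoRight (gammaIso φ).symm)


/-- the global section of `tilde W` defined by an element of `W` -/
def topSec (W : ModuleCat.{u} R) (w : W) : Γ(tilde W, ⊤) := (tilde.toOpen W ⊤).hom w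

open TensorProduct ChangeOfRings in
/-- **the isomorphism `(Spec φ)^* (tilde W) ≅ tilde (S ⊗ W)` maps the pulled back section of `w` to
`1 ⊗ w`** -/
theorem tildePullbackIso_hom_pullSec (W : ModuleCat.{u} R) (w : W) :
    ((tildePullbackIso φ).hom.app W).app ⊤
      (Mod.pullSec (Spec.map φ) (tilde W) ⊤ (topSec W w)) =
    topSec ((ModuleCat.extendScalars φ.hom).obj W) ((1 : S) ⊗ₜ[R, φ.hom] w) := by
  have h := Adjunction.unit_leftAdjointUniq_hom_app (adj₁ φ)
    ((adj₂ φ).ofNatIsoRight (gammaIso φ).symm) W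
  have h2 := congrArg (fun g => g.hom w) h
  exact h2

end Fermat.Agent.S25lib.AffBC
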